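/-
TW (S56, Taylor–Wiles primes): shared definitions.  Definitions only.

Everything is phrased with bare cocycles `GQ → Mat2 k` for the matrix form `rb : GQ →* Mat2 k` of
the residual representation (matrix model of `Fermat.Agent.S53.Defs`):

* `adAct rb χ σ X = χ(σ) • rb(σ) X rb(σ)⁻¹` : the adjoint action twisted by a character `χ`
  (`χ = 1` for `ad⁰`, `χ = det rb` = the mod `p` cyclotomic character for `ad⁰(1)`);
* `Z1 rb χ`, `B1 rb χ` : continuous (level-constant) trace-zero `1`-cocycles / coboundaries of `GQ`;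
* `Z1On D rb χ`, `B1On D rb χ`, `H0On D rb χ` : the same for a subgroup `D ≤ GQ` (decomposition groups);
* `liftMat rb c σ = rb σ + ε · c σ · rb σ` : the lift to the dual numbers attached to a cocycle;
* `DefCocycles 𝒪 𝒟 rb` : cocycles whose lift to `k[ε]` is of type `𝒟`;
* `IsTWPrime`, `LocTrivAt`, and the two named hypotheses of the assembly: `GWBound` (global duality:
  Greenberg–Wiles inequality with a fixed finite dual Selmer group) and `KillHyp` (every dual class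
  is detected by a Taylor–Wiles prime).
-/
import Mathlib
import Fermat.Statements.S56
import Fermat.Agent.S53.Defs

set_option autoImplicit false

namespace Fermat.Agent.TW

open Fermat.Agent.S53 IsLocalRing Polynomial

noncomputable section

variable {k : Type} [Field k]

/-- A function on `GQ` is level-constant: constant on the left cosets of the fixer of a finite
extension of `ℚ` (continuity for the Krull topology, discrete target). -/
def LevelConst {X : Type*} (f : GQ → X) : Prop :=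
  ∃ F : IntermediateField ℚ (AlgebraicClosure ℚ), FiniteDimensional ℚ F ∧
    ∀ g s : GQ, (∀ x ∈ F, s x = x) → f (g * s) = f g

/-- Level-constant functions on a subgroup `D` of `GQ`. -/
def LevelConstOn (D : Subgroup GQ) {X : Type*} (f : D → X) : Prop :=
  ∃ F : IntermediateField ℚ (AlgebraicClosure ℚ), FiniteDimensional ℚ F ∧
    ∀ g s : D, (∀ x ∈ F, (s : GQ) x = x) → f (g * s) = f g

/-- Trace-zero `2 × 2` matrices. -/
def sl2 (k : Type) [Field k] : Submodule k (Mat2 k) :=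
  LinearMap.ker (Matrix.traceLinearMap (Fin 2) k k)

theorem mem_sl2 (X : Mat2 k) : X ∈ sl2 k ↔ X.trace = 0 := Iff.rfl

/-- The adjoint action of `σ` twisted by the character `χ`: `X ↦ χ(σ) • rb(σ) X rb(σ)⁻¹`. -/
def adAct (rb : GQ →* Mat2 k) (χ : GQ →* kˣ) (σ : GQ) : Mat2 k →ₗ[k] Mat2 k where
  toFun X := ((χ σ : kˣ) : k) • (rb σ * X * rb σ⁻¹)
  map_add' X Y := by rw [mul_add, add_mul, smul_add]
  map_smul' a X := by
    rw [RingHom.id_apply, Matrix.mul_smul, Matrix.smul_mul, smul_comm]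

theorem adAct_apply (rb : GQ →* Mat2 k) (χ : GQ →* kˣ) (σ : GQ) (X : Mat2 k) :
    adAct rb χ σ X = ((χ σ : kˣ) : k) • (rb σ * X * rb σ⁻¹) := rfl

/-- The determinant character of a matrix representation of a group. -/
def detChar (rb : GQ →* Mat2 k) : GQ →* kˣ :=
  (Matrix.detMonoidHom.comp rb).toHomUnits

theorem detChar_apply (rb : GQ →* Mat2 k) (σ : GQ) : ((detChar rb σ : kˣ) : k) = (rb σ).det := rfl

/-- Continuous trace-zero `1`-cocycles of `GQ` for the `χ`-twisted adjoint action. -/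
def Z1 (rb : GQ →* Mat2 k) (χ : GQ →* kˣ) : Submodule k (GQ → Mat2 k) where
  carrier := {c | (∀ σ, (c σ).trace = 0) ∧
    (∀ σ τ, c (σ * τ) = c σ + adAct rb χ σ (c τ)) ∧ LevelConst c}
  add_mem' := by
    rintro c c' ⟨h1, h2, F, hF, h3⟩ ⟨h1', h2', F', hF', h3'⟩
    refine ⟨fun σ => ?_, fun σ τ => ?_, F ⊔ F', IntermediateField.finiteDimensional_sup F F',
      fun g s hs => ?_⟩
    · rw [Pi.add_apply, Matrix.trace_add, h1, h1', add_zero]
    · simp only [Pi.add_apply, h2, h2', map_add]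
      abel
    · simp only [Pi.add_apply]
      rw [h3 g s fun x hx => hs x ((le_sup_left : F ≤ F ⊔ F') hx),
        h3' g s fun x hx => hs x ((le_sup_right : F' ≤ F ⊔ F') hx)]
  zero_mem' := by
    refine ⟨fun σ => ?_, fun σ τ => ?_, ⊥, inferInstance, fun g s _ => rfl⟩
    · rw [Pi.zero_apply, Matrix.trace_zero]
    · simp only [Pi.zero_apply, map_zero, add_zero]
  smul_mem' := by
    rintro a c ⟨h1, h2, F, hF, h3⟩
    refine ⟨fun σ => ?_, fun σ τ => ?_, F, hF, fun g s hs => ?_⟩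
    · rw [Pi.smul_apply, Matrix.trace_smul, h1, smul_zero]
    · simp only [Pi.smul_apply, h2, map_smul, smul_add]
    · simp only [Pi.smul_apply]
      rw [h3 g s hs]

theorem mem_Z1 (rb : GQ →* Mat2 k) (χ : GQ →* kˣ) (c : GQ → Mat2 k) :
    c ∈ Z1 rb χ ↔ (∀ σ, (c σ).trace = 0) ∧
      (∀ σ τ, c (σ * τ) = c σ + adAct rb χ σ (c τ)) ∧ LevelConst c := Iff.rfl

/-- The coboundary of a matrix: `σ ↦ σ·X − X`. -/
def cob (rb : GQ →* Mat2 k) (χ : GQ →* kˣ) : Mat2 k →ₗ[k] (GQ → Mat2 k) where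
  toFun X σ := adAct rb χ σ X - X
  map_add' X Y := by funext σ; simp only [map_add, Pi.add_apply]; abel
  map_smul' a X := by funext σ; simp only [map_smul, Pi.smul_apply, RingHom.id_apply, smul_sub]

theorem cob_apply (rb : GQ →* Mat2 k) (χ : GQ →* kˣ) (X : Mat2 k) (σ : GQ) :
    cob rb χ X σ = adAct rb χ σ X - X := rfl

/-- Coboundaries of trace-zero matrices. -/
def B1 (rb : GQ →* Mat2 k) (χ : GQ →* kˣ) : Submodule k (GQ → Mat2 k) :=
  (sl2 k).map (cob rb χ)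

theorem mem_B1 (rb : GQ →* Mat2 k) (χ : GQ →* kˣ) (c : GQ → Mat2 k) :
    c ∈ B1 rb χ ↔ ∃ X : Mat2 k, X.trace = 0 ∧ ∀ σ, c σ = adAct rb χ σ X - X := by
  constructor
  · rintro ⟨X, hX, rfl⟩
    exact ⟨X, hX, fun σ => rfl⟩
  · rintro ⟨X, hX, h⟩
    exact ⟨X, hX, funext fun σ => (h σ).symm⟩

/-- Restriction of functions on `GQ` to a subgroup. -/
def resOn (D : Subgroup GQ) : (GQ → Mat2 k) →ₗ[k] (D → Mat2 k) where
  toFun c σ := c σ
  map_add' _ _ := rfl
  map_smul' _ _ := rfl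

theorem resOn_apply (D : Subgroup GQ) (c : GQ → Mat2 k) (σ : D) : resOn D c σ = c σ := rfl

/-- Continuous trace-zero `1`-cocycles of a subgroup `D ≤ GQ` (e.g. a decomposition group). -/
def Z1On (D : Subgroup GQ) (rb : GQ →* Mat2 k) (χ : GQ →* kˣ) : Submodule k (D → Mat2 k) where
  carrier := {c | (∀ σ, (c σ).trace = 0) ∧
    (∀ σ τ : D, c (σ * τ) = c σ + adAct rb χ σ (c τ)) ∧ LevelConstOn D c}
  add_mem' := by
    rintro c c' ⟨h1, h2, F, hF, h3⟩ ⟨h1', h2', F', hF', h3'⟩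
    refine ⟨fun σ => ?_, fun σ τ => ?_, F ⊔ F', IntermediateField.finiteDimensional_sup F F',
      fun g s hs => ?_⟩
    · rw [Pi.add_apply, Matrix.trace_add, h1, h1', add_zero]
    · simp only [Pi.add_apply, h2, h2', map_add]
      abel
    · simp only [Pi.add_apply]
      rw [h3 g s fun x hx => hs x ((le_sup_left : F ≤ F ⊔ F') hx),
        h3' g s fun x hx => hs x ((le_sup_right : F' ≤ F ⊔ F') hx)]
  zero_mem' := by
    refine ⟨fun σ => ?_, fun σ τ => ?_, ⊥, inferInstance, fun g s _ => rfl⟩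
    · rw [Pi.zero_apply, Matrix.trace_zero]
    · simp only [Pi.zero_apply, map_zero, add_zero]
  smul_mem' := by
    rintro a c ⟨h1, h2, F, hF, h3⟩
    refine ⟨fun σ => ?_, fun σ τ => ?_, F, hF, fun g s hs => ?_⟩
    · rw [Pi.smul_apply, Matrix.trace_smul, h1, smul_zero]
    · simp only [Pi.smul_apply, h2, map_smul, smul_add]
    · simp only [Pi.smul_apply]
      rw [h3 g s hs]

theorem mem_Z1On (D : Subgroup GQ) (rb : GQ →* Mat2 k) (χ : GQ →* kˣ) (c : D → Mat2 k) :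
    c ∈ Z1On D rb χ ↔ (∀ σ, (c σ).trace = 0) ∧
      (∀ σ τ : D, c (σ * τ) = c σ + adAct rb χ σ (c τ)) ∧ LevelConstOn D c := Iff.rfl

/-- Coboundaries on a subgroup. -/
def B1On (D : Subgroup GQ) (rb : GQ →* Mat2 k) (χ : GQ →* kˣ) : Submodule k (D → Mat2 k) :=
  (sl2 k).map ((resOn D).comp (cob rb χ))

theorem mem_B1On (D : Subgroup GQ) (rb : GQ →* Mat2 k) (χ : GQ →* kˣ) (c : D → Mat2 k) :
    c ∈ B1On D rb χ ↔ ∃ X : Mat2 k, X.trace = 0 ∧ ∀ σ : D, c σ = adAct rb χ σ X - X := by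
  constructor
  · rintro ⟨X, hX, rfl⟩
    exact ⟨X, hX, fun σ => rfl⟩
  · rintro ⟨X, hX, h⟩
    exact ⟨X, hX, funext fun σ => (h σ).symm⟩

/-- Invariants of a subgroup `D` in the trace-zero matrices (twisted adjoint action). -/
def H0On (D : Subgroup GQ) (rb : GQ →* Mat2 k) (χ : GQ →* kˣ) : Submodule k (Mat2 k) where
  carrier := {X | X.trace = 0 ∧ ∀ σ ∈ D, adAct rb χ σ X = X}
  add_mem' := by
    rintro X Y ⟨h1, h2⟩ ⟨h1', h2'⟩
    exact ⟨by rw [Matrix.trace_add, h1, h1', add_zero], fun σ hσ => by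
      rw [map_add, h2 σ hσ, h2' σ hσ]⟩
  zero_mem' := ⟨Matrix.trace_zero _ _, fun σ _ => map_zero _⟩
  smul_mem' := by
    rintro a X ⟨h1, h2⟩
    exact ⟨by rw [Matrix.trace_smul, h1, smul_zero], fun σ hσ => by rw [map_smul, h2 σ hσ]⟩

theorem mem_H0On (D : Subgroup GQ) (rb : GQ →* Mat2 k) (χ : GQ →* kˣ) (X : Mat2 k) :
    X ∈ H0On D rb χ ↔ X.trace = 0 ∧ ∀ σ ∈ D, adAct rb χ σ X = X := Iff.rfl

/-- The lift to the dual numbers attached to a function `c`: `rb σ + ε · (c σ · rb σ)`. -/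
def liftMat (rb : GQ →* Mat2 k) (c : GQ → Mat2 k) (σ : GQ) : Mat2 (DualNumber k) :=
  (rb σ).map (TrivSqZeroExt.inl : k → DualNumber k) +
    (c σ * rb σ).map (TrivSqZeroExt.inr : k → DualNumber k)

theorem liftMat_apply (rb : GQ →* Mat2 k) (c : GQ → Mat2 k) (σ : GQ) (i j : Fin 2) :
    liftMat rb c σ i j = TrivSqZeroExt.inl (rb σ i j) + TrivSqZeroExt.inr ((c σ * rb σ) i j) := rfl

/-- The cocycles whose associated lift to the dual numbers is of type `𝒟` (for the `𝒪`-algebra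
structure `Fermat.Agent.S53.dualNumberAlgebra 𝒪` on `k[ε]`, `k` the residue field of `𝒪`). -/
def DefCocycles (𝒪 : Type) [CommRing 𝒪] [IsLocalRing 𝒪]
    (𝒟 : ∀ ⦃A : Type⦄ [CommRing A] [IsLocalRing A] [Algebra 𝒪 A], GaloisRepAdic A → Prop)
    (rb : GQ →* Mat2 (ResidueField 𝒪)) : Set (GQ → Mat2 (ResidueField 𝒪)) :=
  letI := dualNumberAlgebra 𝒪
  {c | ∃ (r : GQ →* Mat2 (DualNumber (ResidueField 𝒪))) (hr : MatCont r),
      (∀ σ, r σ = liftMat rb c σ) ∧ 𝒟 (repOfMat r hr)}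

/-- The strict-ordinary deformation condition of S56 for the auxiliary set `Q`. -/
def soCond (𝒪 : Type) [CommRing 𝒪] (p : ℕ) (Smin Q : Finset ℕ) :
    ∀ ⦃A : Type⦄ [CommRing A] [IsLocalRing A] [Algebra 𝒪 A], GaloisRepAdic A → Prop :=
  fun _A _ _ _ ρ => GaloisRep.strictOrdinaryCondition 𝒪 p (Smin ∪ Q) ρ ∧
    ∀ q ∈ Smin, q.Prime → q ≠ p → ρ.IsUnipotentOnInertiaAt q

/-- The flat deformation condition of S56 for the auxiliary set `Q`. -/
def flCond (𝒪 : Type) [CommRing 𝒪] (p : ℕ) (Smin Q : Finset ℕ) :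
    ∀ ⦃A : Type⦄ [CommRing A] [IsLocalRing A] [Algebra 𝒪 A], GaloisRepAdic A → Prop :=
  fun _A _ _ _ ρ => GaloisRep.flatCondition 𝒪 p (Smin ∪ Q) ρ ∧
    ∀ q ∈ Smin, q.Prime → q ≠ p → ρ.IsUnipotentOnInertiaAt q

/-- A matrix with two distinct eigenvalues in `k`. -/
def HasDistinctEigen (M : Mat2 k) : Prop :=
  ∃ α β : k, α ≠ β ∧ M.charpoly = (X - C α) * (X - C β)

/-- Taylor–Wiles primes of level `n` for `rb`: `q ∉ S`, `q ≡ 1 mod p^(n+1)`, and every Frobenius
at `q` has distinct eigenvalues in `k`. -/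
def IsTWPrime (rb : GQ →* Mat2 k) (p n : ℕ) (S : Finset ℕ) (q : ℕ) : Prop :=
  q.Prime ∧ q ∉ S ∧ p ^ (n + 1) ∣ q - 1 ∧
    ∀ P : ValuationSubring (AlgebraicClosure ℚ), P.LiesOverPrime q →
      ∀ φ : GQ, P.IsFrobeniusAt φ q → HasDistinctEigen (rb φ)

/-- The cocycle `d` is locally trivial at `q`: a coboundary on every decomposition group over `q`. -/
def LocTrivAt (rb : GQ →* Mat2 k) (χ : GQ →* kˣ) (d : GQ → Mat2 k) (q : ℕ) : Prop :=
  ∀ P : ValuationSubring (AlgebraicClosure ℚ), P.LiesOverPrime q →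
    ∃ X : Mat2 k, X.trace = 0 ∧ ∀ σ ∈ P.decompositionSubgroup ℚ, d σ = adAct rb χ σ X - X

/-- NAMED HYPOTHESIS 1 (global duality; Greenberg–Wiles inequality in the form used by the
Taylor–Wiles argument).  `𝒮 Q` is the (linear) Selmer space of cocycles for the auxiliary set `Q`.
There is a fixed finite "dual Selmer" space `D` of `χ`-twisted cocycles such that for every set
`Q` of primes satisfying `TWp`,  `#𝒮(Q) ≤ #k ^ #Q · #{d ∈ D locally trivial at all q ∈ Q}`. -/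
def GWBound (rb : GQ →* Mat2 k) (χ : GQ →* kˣ) (TWp : ℕ → Prop)
    (𝒮 : Finset ℕ → Submodule k (GQ → Mat2 k)) : Prop :=
  ∃ D : Submodule k (GQ → Mat2 k), Finite D ∧ B1 rb χ ≤ D ∧ D ≤ Z1 rb χ ∧
    ∀ Q : Finset ℕ, (∀ q ∈ Q, TWp q) →
      Finite (𝒮 Q) ∧
      Nat.card (𝒮 Q) ≤ Nat.card k ^ Q.card *
        Nat.card {d : D // ∀ q ∈ Q, LocTrivAt rb χ (d : GQ → Mat2 k) q}

/-- NAMED HYPOTHESIS 2 (killing): every non-trivial `χ`-twisted class is not locally trivial at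
some Taylor–Wiles prime of any prescribed level, outside any prescribed finite set. -/
def KillHyp (rb : GQ →* Mat2 k) (χ : GQ →* kˣ) (p : ℕ) (S : Finset ℕ) : Prop :=
  ∀ d ∈ Z1 rb χ, d ∉ B1 rb χ → ∀ (n : ℕ) (S' : Finset ℕ),
    ∃ q : ℕ, q ∉ S' ∧ IsTWPrime rb p n S q ∧ ¬ LocTrivAt rb χ d q

end

end Fermat.Agent.TW
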