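/-
TW (S56): the standing assumptions on the matrix form of the residual representation.
Definition only.
-/
import Mathlib
import Fermat.Agent.TW.Defs

set_option autoImplicit false

namespace Fermat.Agent.TW

open Fermat.Agent.S53 IsLocalRing Polynomial

variable {k : Type} [Field k]

/-- Standing assumptions on the matrix form `rb` of the residual representation (consequences of
the hypotheses of S56): characteristic `p`, finite level, determinant = mod `p` cyclotomic
character, split characteristic polynomials, and absolute irreducibility (no eigenvector over any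
extension field) on `GQ` and on every subgroup of index `2`. -/
structure ResidualHyp (rb : GQ →* Mat2 k) (p : ℕ) : Prop where
  charP : (p : k) = 0
  finiteLevel : ∃ L : IntermediateField ℚ (AlgebraicClosure ℚ), FiniteDimensional ℚ L ∧
    ∀ σ : GQ, (∀ y ∈ L, σ y = y) → rb σ = 1
  detCyc : ∀ (σ : GQ) (a : ℕ), (∀ μ : AlgebraicClosure ℚ, μ ^ p = 1 → σ μ = μ ^ a) →
    (rb σ).det = (a : k)
  split : ∀ σ : GQ, ∃ α β : k, (rb σ).charpoly = (X - C α) * (X - C β)
  irr : ∀ (K : Type) [Field K] [Algebra k K] (G : Subgroup GQ), G.index = 1 ∨ G.index = 2 →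
    ∀ v : Fin 2 → K, (∀ σ ∈ G, ∃ a : K, ((rb σ).map (algebraMap k K)).mulVec v = a • v) → v = 0

end Fermat.Agent.TW
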