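/-
TW (S56): the linear Selmer spaces of cocycles.  Definitions only.

`SelSpace rb p Smin Q Lp` = cocycles `c ∈ Z1 rb 1` which
* vanish on inertia at every prime outside `Smin ∪ Q`,
* have unramified class at every `q ∈ Smin`, `q ≠ p` (on each inertia group `c` is the restriction
  of a coboundary),
* satisfy the local condition `Lp P` on the decomposition group of every `P` over `p`.
-/
import Mathlib
import Fermat.Agent.TW.Defs

set_option autoImplicit false

namespace Fermat.Agent.TW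

open Fermat.Agent.S53 IsLocalRing Polynomial

noncomputable section

variable {k : Type} [Field k]

/-- The cocycle `c` vanishes on all inertia groups over `ℓ`. -/
def UnrAt (c : GQ → Mat2 k) (ℓ : ℕ) : Prop :=
  ∀ P : ValuationSubring (AlgebraicClosure ℚ), P.LiesOverPrime ℓ →
    ∀ σ ∈ P.inertiaSubgroupIn ℚ, c σ = 0

/-- The class of `c` is unramified at `q`: on every inertia group over `q` the cocycle `c` is the
restriction of a coboundary. -/
def UnrClassAt (rb : GQ →* Mat2 k) (χ : GQ →* kˣ) (c : GQ → Mat2 k) (q : ℕ) : Prop :=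
  ∀ P : ValuationSubring (AlgebraicClosure ℚ), P.LiesOverPrime q →
    ∃ X : Mat2 k, X.trace = 0 ∧ ∀ σ ∈ P.inertiaSubgroupIn ℚ, c σ = adAct rb χ σ X - X

/-- A family of local conditions at the places over `p`. -/
abbrev LocFamily (k : Type) [Field k] : Type :=
  ∀ P : ValuationSubring (AlgebraicClosure ℚ),
    Submodule k (↥(P.decompositionSubgroup ℚ) → Mat2 k)

/-- The Selmer space of cocycles for the auxiliary set `Q` and the local conditions `Lp` at `p`. -/
def SelSpace (rb : GQ →* Mat2 k) (p : ℕ) (Smin Q : Finset ℕ) (Lp : LocFamily k) :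
    Submodule k (GQ → Mat2 k) where
  carrier := {c | c ∈ Z1 rb 1 ∧
    (∀ ℓ : ℕ, ℓ.Prime → ℓ ∉ Smin ∪ Q → UnrAt c ℓ) ∧
    (∀ q ∈ Smin, q ≠ p → UnrClassAt rb 1 c q) ∧
    (∀ P : ValuationSubring (AlgebraicClosure ℚ), P.LiesOverPrime p →
      resOn (P.decompositionSubgroup ℚ) c ∈ Lp P)}
  add_mem' := by
    rintro c c' ⟨h1, h2, h3, h4⟩ ⟨h1', h2', h3', h4'⟩
    refine ⟨add_mem h1 h1', fun ℓ hℓ hn P hP σ hσ => ?_, fun q hq hqp P hP => ?_,
      fun P hP => ?_⟩
    · rw [Pi.add_apply, h2 ℓ hℓ hn P hP σ hσ, h2' ℓ hℓ hn P hP σ hσ, add_zero]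
    · obtain ⟨X, hX, hX'⟩ := h3 q hq hqp P hP
      obtain ⟨Y, hY, hY'⟩ := h3' q hq hqp P hP
      refine ⟨X + Y, by rw [Matrix.trace_add, hX, hY, add_zero], fun σ hσ => ?_⟩
      rw [Pi.add_apply, hX' σ hσ, hY' σ hσ, map_add]
      abel
    · rw [map_add]
      exact add_mem (h4 P hP) (h4' P hP)
  zero_mem' := by
    refine ⟨zero_mem _, fun ℓ _ _ P _ σ _ => rfl, fun q _ _ P _ => ?_, fun P _ => ?_⟩
    · exact ⟨0, Matrix.trace_zero _ _, fun σ _ => by rw [map_zero, sub_zero]; rfl⟩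
    · rw [map_zero]
      exact zero_mem _
  smul_mem' := by
    rintro a c ⟨h1, h2, h3, h4⟩
    refine ⟨Submodule.smul_mem _ a h1, fun ℓ hℓ hn P hP σ hσ => ?_, fun q hq hqp P hP => ?_,
      fun P hP => ?_⟩
    · rw [Pi.smul_apply, h2 ℓ hℓ hn P hP σ hσ, smul_zero]
    · obtain ⟨X, hX, hX'⟩ := h3 q hq hqp P hP
      refine ⟨a • X, by rw [Matrix.trace_smul, hX, smul_zero], fun σ hσ => ?_⟩
      rw [Pi.smul_apply, hX' σ hσ, map_smul, smul_sub]
    · rw [map_smul]
      exact Submodule.smul_mem _ a (h4 P hP)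

theorem mem_SelSpace (rb : GQ →* Mat2 k) (p : ℕ) (Smin Q : Finset ℕ) (Lp : LocFamily k)
    (c : GQ → Mat2 k) : c ∈ SelSpace rb p Smin Q Lp ↔ c ∈ Z1 rb 1 ∧
    (∀ ℓ : ℕ, ℓ.Prime → ℓ ∉ Smin ∪ Q → UnrAt c ℓ) ∧
    (∀ q ∈ Smin, q ≠ p → UnrClassAt rb 1 c q) ∧
    (∀ P : ValuationSubring (AlgebraicClosure ℚ), P.LiesOverPrime p →
      resOn (P.decompositionSubgroup ℚ) c ∈ Lp P) := Iff.rfl

/-- The bound required of a local condition at `P`: it lies between coboundaries and cocycles,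
is finite, and `#L ≤ #H⁰(D_P, ad⁰) · #k ^ δ · #B¹(D_P, ad⁰)`. -/
structure LocBound (rb : GQ →* Mat2 k) (P : ValuationSubring (AlgebraicClosure ℚ)) (δ : ℕ)
    (L : Submodule k (↥(P.decompositionSubgroup ℚ) → Mat2 k)) : Prop where
  le_Z1 : L ≤ Z1On (P.decompositionSubgroup ℚ) rb 1
  B1_le : B1On (P.decompositionSubgroup ℚ) rb 1 ≤ L
  finite : Finite L
  card_le : Nat.card L ≤ Nat.card (H0On (P.decompositionSubgroup ℚ) rb 1) * Nat.card k ^ δ *
    Nat.card (B1On (P.decompositionSubgroup ℚ) rb 1)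

end

end Fermat.Agent.TW
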