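/-
TW (S56): basic lemmas on the twisted adjoint action, cocycles and coboundaries of `TW/Defs.lean`.
-/
import Mathlib
import Fermat.Agent.TW.Defs
import Fermat.Agent.TW.Selmer
import Fermat.Agent.TW.Hyp

set_option autoImplicit false

namespace Fermat.Agent.TW

open Fermat.Agent.S53 IsLocalRing Polynomial

noncomputable section

variable {k : Type} [Field k]

/-- A homomorphism from `GQ` is of finite level: trivial on the fixer of a finite extension. -/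
def FiniteLevel {M : Type*} [MulOneClass M] (f : GQ →* M) : Prop :=
  ∃ F : IntermediateField ℚ (AlgebraicClosure ℚ), FiniteDimensional ℚ F ∧
    ∀ s : GQ, (∀ x ∈ F, s x = x) → f s = 1

theorem finiteLevel_one_hom {M : Type*} [MulOneClass M] : FiniteLevel (1 : GQ →* M) :=
  ⟨⊥, inferInstance, fun _ _ => rfl⟩

theorem one_hom_apply_coe (σ : GQ) : (((1 : GQ →* kˣ) σ : kˣ) : k) = 1 := rfl

theorem finiteLevel_detChar {rb : GQ →* Mat2 k} (h : FiniteLevel rb) :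
    FiniteLevel (detChar rb) := by
  obtain ⟨F, hF, hF'⟩ := h
  refine ⟨F, hF, fun s hs => Units.ext ?_⟩
  rw [detChar_apply, hF' s hs, Matrix.det_one, Units.val_one]

theorem ResidualHyp.finiteLevel' {rb : GQ →* Mat2 k} {p : ℕ} (h : ResidualHyp rb p) :
    FiniteLevel rb := h.finiteLevel

theorem rb_mul_rb_inv (rb : GQ →* Mat2 k) (σ : GQ) : rb σ * rb σ⁻¹ = 1 := by
  rw [← map_mul, mul_inv_cancel, map_one]

theorem rb_inv_mul_rb (rb : GQ →* Mat2 k) (σ : GQ) : rb σ⁻¹ * rb σ = 1 := by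
  rw [← map_mul, inv_mul_cancel, map_one]

theorem adAct_one (rb : GQ →* Mat2 k) (χ : GQ →* kˣ) (X : Mat2 k) : adAct rb χ 1 X = X := by
  rw [adAct_apply, map_one, inv_one, map_one, Units.val_one, one_smul, one_mul, mul_one]

theorem adAct_mul (rb : GQ →* Mat2 k) (χ : GQ →* kˣ) (σ τ : GQ) (X : Mat2 k) :
    adAct rb χ (σ * τ) X = adAct rb χ σ (adAct rb χ τ X) := by
  simp only [adAct_apply, map_mul, mul_inv_rev, Units.val_mul, Matrix.mul_smul, Matrix.smul_mul,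
    smul_smul, mul_assoc]

theorem adAct_inv_adAct (rb : GQ →* Mat2 k) (χ : GQ →* kˣ) (σ : GQ) (X : Mat2 k) :
    adAct rb χ σ⁻¹ (adAct rb χ σ X) = X := by
  rw [← adAct_mul, inv_mul_cancel, adAct_one]

theorem adAct_adAct_inv (rb : GQ →* Mat2 k) (χ : GQ →* kˣ) (σ : GQ) (X : Mat2 k) :
    adAct rb χ σ (adAct rb χ σ⁻¹ X) = X := by
  rw [← adAct_mul, mul_inv_cancel, adAct_one]

theorem trace_adAct (rb : GQ →* Mat2 k) (χ : GQ →* kˣ) (σ : GQ) (X : Mat2 k) :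
    (adAct rb χ σ X).trace = ((χ σ : kˣ) : k) * X.trace := by
  rw [adAct_apply, Matrix.trace_smul, smul_eq_mul, Matrix.trace_mul_comm, ← mul_assoc,
    rb_inv_mul_rb, one_mul]

theorem adAct_eq_of_rb_eq_one (rb : GQ →* Mat2 k) (χ : GQ →* kˣ) (σ : GQ) (h : rb σ = 1)
    (hχ : χ σ = 1) (X : Mat2 k) : adAct rb χ σ X = X := by
  have h' : rb σ⁻¹ = 1 := by
    have := rb_inv_mul_rb rb σ
    rwa [h, mul_one] at this
  rw [adAct_apply, h, h', hχ, Units.val_one, one_smul, one_mul, mul_one]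

/-- The coboundary of `X` satisfies the cocycle identity. -/
theorem cob_mul (rb : GQ →* Mat2 k) (χ : GQ →* kˣ) (X : Mat2 k) (σ τ : GQ) :
    cob rb χ X (σ * τ) = cob rb χ X σ + adAct rb χ σ (cob rb χ X τ) := by
  simp only [cob_apply, adAct_mul, map_sub]
  abel

theorem trace_cob (rb : GQ →* Mat2 k) (χ : GQ →* kˣ) (X : Mat2 k) (hX : X.trace = 0) (σ : GQ) :
    (cob rb χ X σ).trace = 0 := by
  rw [cob_apply, Matrix.trace_sub, trace_adAct, hX, mul_zero, sub_zero]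

theorem levelConst_cob {rb : GQ →* Mat2 k} {χ : GQ →* kˣ} (hrb : FiniteLevel rb)
    (hχ : FiniteLevel χ) (X : Mat2 k) : LevelConst (cob rb χ X) := by
  obtain ⟨F, hF, hF'⟩ := hrb
  obtain ⟨F', hF2, hF2'⟩ := hχ
  refine ⟨F ⊔ F', IntermediateField.finiteDimensional_sup F F', fun g s hs => ?_⟩
  have h1 : rb s = 1 := hF' s fun x hx => hs x ((le_sup_left : F ≤ F ⊔ F') hx)
  have h2 : χ s = 1 := hF2' s fun x hx => hs x ((le_sup_right : F' ≤ F ⊔ F') hx)
  rw [cob_apply, cob_apply, adAct_mul, adAct_eq_of_rb_eq_one rb χ s h1 h2]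

/-- Coboundaries are cocycles (for representations and characters of finite level). -/
theorem B1_le_Z1 {rb : GQ →* Mat2 k} {χ : GQ →* kˣ} (hrb : FiniteLevel rb)
    (hχ : FiniteLevel χ) : B1 rb χ ≤ Z1 rb χ := by
  rintro c ⟨X, hX, rfl⟩
  exact ⟨fun σ => trace_cob rb χ X hX σ, fun σ τ => cob_mul rb χ X σ τ, levelConst_cob hrb hχ X⟩

theorem B1_le_Z1_one {rb : GQ →* Mat2 k} (hrb : FiniteLevel rb) : B1 rb 1 ≤ Z1 rb 1 :=
  B1_le_Z1 hrb finiteLevel_one_hom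

theorem B1_le_Z1_detChar {rb : GQ →* Mat2 k} (hrb : FiniteLevel rb) :
    B1 rb (detChar rb) ≤ Z1 rb (detChar rb) :=
  B1_le_Z1 hrb (finiteLevel_detChar hrb)

/-- A cocycle vanishes at `1`. -/
theorem Z1_map_one {rb : GQ →* Mat2 k} {χ : GQ →* kˣ} {c : GQ → Mat2 k} (hc : c ∈ Z1 rb χ) :
    c 1 = 0 := by
  have h := hc.2.1 1 1
  rw [mul_one, adAct_one] at h
  exact left_eq_add.1 h

/-- The value of a cocycle at an inverse. -/
theorem Z1_map_inv {rb : GQ →* Mat2 k} {χ : GQ →* kˣ} {c : GQ → Mat2 k} (hc : c ∈ Z1 rb χ)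
    (σ : GQ) : c σ⁻¹ = - adAct rb χ σ⁻¹ (c σ) := by
  have h := hc.2.1 σ⁻¹ σ
  rw [inv_mul_cancel, Z1_map_one hc] at h
  exact eq_neg_of_add_eq_zero_left h.symm

/-- The restriction of a global cocycle to a subgroup is a cocycle of the subgroup. -/
theorem resOn_mem_Z1On (D : Subgroup GQ) {rb : GQ →* Mat2 k} {χ : GQ →* kˣ} {c : GQ → Mat2 k}
    (hc : c ∈ Z1 rb χ) : resOn D c ∈ Z1On D rb χ := by
  obtain ⟨h1, h2, F, hF, h3⟩ := hc
  exact ⟨fun σ => h1 σ, fun σ τ => h2 σ τ, F, hF, fun g s hs => h3 g s hs⟩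

/-- The restriction of a global coboundary to a subgroup is a coboundary of the subgroup. -/
theorem resOn_mem_B1On (D : Subgroup GQ) {rb : GQ →* Mat2 k} {χ : GQ →* kˣ} {c : GQ → Mat2 k}
    (hc : c ∈ B1 rb χ) : resOn D c ∈ B1On D rb χ := by
  obtain ⟨X, hX, rfl⟩ := hc
  exact ⟨X, hX, rfl⟩

/-- Coboundaries lie in the Selmer space, as soon as `rb` is unramified outside `Smin` and the
local conditions at `p` contain the local coboundaries. -/
theorem B1_le_selSpace {rb : GQ →* Mat2 k} (hrb : FiniteLevel rb) (p : ℕ) (Smin Q : Finset ℕ)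
    (hunr : ∀ q : ℕ, q.Prime → q ∉ Smin → ∀ P : ValuationSubring (AlgebraicClosure ℚ),
      P.LiesOverPrime q → ∀ σ ∈ P.inertiaSubgroupIn ℚ, rb σ = 1)
    (Lp : LocFamily k)
    (hLp : ∀ P : ValuationSubring (AlgebraicClosure ℚ), P.LiesOverPrime p →
      B1On (P.decompositionSubgroup ℚ) rb 1 ≤ Lp P) :
    B1 rb 1 ≤ SelSpace rb p Smin Q Lp := by
  intro c hc
  refine ⟨B1_le_Z1_one hrb hc, fun ℓ hℓ hn P hP σ hσ => ?_, fun q _ _ P _ => ?_,
    fun P hP => hLp P hP (resOn_mem_B1On _ hc)⟩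
  · obtain ⟨X, -, rfl⟩ := hc
    have hℓ' : ℓ ∉ Smin := fun h => hn (Finset.mem_union_left Q h)
    rw [cob_apply, adAct_eq_of_rb_eq_one rb 1 σ (hunr ℓ hℓ hℓ' P hP σ hσ) rfl, sub_self]
  · obtain ⟨X, hX, rfl⟩ := hc
    exact ⟨X, hX, fun σ _ => rfl⟩

end

end Fermat.Agent.TW
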