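/-
TW (S56), tasks TW-RH + TW-H0.

* `residualHyp_of_S56` : the standing assumptions `ResidualHyp` on the matrix form
  `rbarHom ρbar b` of the residual representation follow from the hypotheses of S56.
* `card_B1_eq` : no invariants in `ad⁰` and in `ad⁰(1)`: the coboundary map is injective on the
  trace-zero matrices, so `#B¹(ad⁰) = #B¹(ad⁰(1)) = #k ^ 3`.
-/
import Mathlib
import Fermat.Agent.TW.Defs
import Fermat.Agent.TW.Hyp
import Fermat.Agent.S53.Dict3
import Fermat.Agent.Lib.GalQbar

set_option autoImplicit false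

namespace Fermat.Agent.TW

open Fermat.Agent.S53 IsLocalRing Polynomial

noncomputable section

namespace ResHyp

/-- The absolute Galois group of `ℚ` has a subgroup of index `2` (the stabiliser of a square
root of `-1`). -/
theorem exists_subgroup_index_two : ∃ G : Subgroup GQ, G.index = 2 := by
  obtain ⟨i, hi⟩ := IsAlgClosed.exists_pow_nat_eq (-1 : AlgebraicClosure ℚ) (n := 2) (by norm_num)
  have hsq : ∀ σ : GQ, σ i = i ∨ σ i = -i := by
    intro σ
    have h1 : (σ i) ^ 2 = i ^ 2 := by
      rw [← map_pow, hi, map_neg, map_one]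
    exact eq_or_eq_neg_of_sq_eq_sq _ _ h1
  have hne : i ≠ -i := by
    intro h
    have h2 : (2 : AlgebraicClosure ℚ) * i = 0 := by
      linear_combination h
    rcases mul_eq_zero.mp h2 with h3 | h3
    · exact two_ne_zero h3
    · rw [h3] at hi
      norm_num at hi
  have hmove : ∃ σ : GQ, σ i = -i := by
    by_contra hcon
    have hfix : ∀ σ : GQ, σ i = i := fun σ =>
      (hsq σ).resolve_right fun h => hcon ⟨σ, h⟩
    obtain ⟨q, hq⟩ := Fermat.Agent.Lib.GalQbar.exists_rat_of_fixed i hfix
    have h3 : (algebraMap ℚ (AlgebraicClosure ℚ)) (q ^ 2) = algebraMap ℚ (AlgebraicClosure ℚ) (-1) := by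
      rw [map_pow, hq, hi, map_neg, map_one]
    have h4 : q ^ 2 = -1 := (algebraMap ℚ (AlgebraicClosure ℚ)).injective h3
    nlinarith [sq_nonneg q]
  obtain ⟨τ, hτ⟩ := hmove
  refine ⟨MulAction.stabilizer GQ i, ?_⟩
  rw [MulAction.index_stabilizer]
  have horb : MulAction.orbit GQ i = {i, -i} := by
    ext x
    constructor
    · rintro ⟨σ, rfl⟩
      rcases hsq σ with h | h
      · exact Or.inl h
      · exact Or.inr h
    · rintro (rfl | rfl)
      · exact MulAction.mem_orbit_self _
      · exact ⟨τ, hτ⟩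
  rw [horb, Set.ncard_pair hne]

/-- A common eigenvector (over an extension field `K`) of the matrices of `ρbar` on a subgroup `G`
spans a `G`-stable line of the base change of `ρbar` to `K`. -/
theorem stable_line_of_eigenvector {k : Type} [Field k] (ρbar : ResidualGaloisRep k)
    (b : Module.Basis (Fin 2) k ρbar.V) (K : Type) [Field K] [Algebra k K] (G : Subgroup GQ)
    (v : Fin 2 → K)
    (hv : ∀ σ ∈ G, ∃ a : K, ((rbarHom ρbar b σ).map (algebraMap k K)).mulVec v = a • v) :
    ∀ σ ∈ G, ∀ x ∈ Submodule.span K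
        {((Algebra.TensorProduct.basis K b).equivFun.symm v : (ρbar.baseChange K).V)},
      (ρbar.baseChange K).ρ σ x ∈ Submodule.span K
        {((Algebra.TensorProduct.basis K b).equivFun.symm v : (ρbar.baseChange K).V)} := by
  intro σ hσ x hx
  obtain ⟨a, ha⟩ := hv σ hσ
  set B := Algebra.TensorProduct.basis K b with hB
  set x0 : (ρbar.baseChange K).V := B.equivFun.symm v with hx0
  have hfx0 : (ρbar.baseChange K).ρ σ x0 = a • x0 := by
    apply B.equivFun.injective
    have h1 : B.equivFun ((ρbar.baseChange K).ρ σ x0) =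
        (LinearMap.toMatrix B B ((ρbar.baseChange K).ρ σ)).mulVec (B.equivFun x0) :=
      (LinearMap.toMatrix_mulVec_repr B B ((ρbar.baseChange K).ρ σ) x0).symm
    rw [h1, dict3_toMatrix_baseChange, map_smul, hx0, LinearEquiv.apply_symm_apply, ha]
  obtain ⟨c, rfl⟩ := Submodule.mem_span_singleton.mp hx
  rw [map_smul, hfx0]
  exact Submodule.smul_mem _ _ (Submodule.smul_mem _ _ (Submodule.mem_span_singleton_self _))

/-- No common eigenvector on a subgroup of index `2`, from the hypothesis `hTW` of S56. -/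
theorem eigenvector_eq_zero_of_index_two {k : Type} [Field k] (ρbar : ResidualGaloisRep k)
    (b : Module.Basis (Fin 2) k ρbar.V) (K : Type) [Field K] [Algebra k K] (G : Subgroup GQ)
    (hstab : ∀ V : Submodule K (ρbar.baseChange K).V,
      (∀ σ ∈ G, ∀ x ∈ V, (ρbar.baseChange K).ρ σ x ∈ V) → V = ⊥ ∨ V = ⊤)
    (v : Fin 2 → K)
    (hv : ∀ σ ∈ G, ∃ a : K, ((rbarHom ρbar b σ).map (algebraMap k K)).mulVec v = a • v) :
    v = 0 := by
  by_contra hv0
  set B := Algebra.TensorProduct.basis K b with hB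
  set x0 : (ρbar.baseChange K).V := B.equivFun.symm v with hx0
  have hx0ne : x0 ≠ 0 := by
    intro h
    apply hv0
    have h2 : B.equivFun x0 = v := by rw [hx0, LinearEquiv.apply_symm_apply]
    rw [← h2, h, map_zero]
  rcases hstab (Submodule.span K {x0}) (stable_line_of_eigenvector ρbar b K G v hv) with h | h
  · exact hx0ne (Submodule.span_singleton_eq_bot.mp h)
  · have h1 : Module.finrank K (Submodule.span K {x0}) = 1 := finrank_span_singleton hx0ne
    rw [h, finrank_top, (ρbar.baseChange K).finrank_eq] at h1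
    omega

end ResHyp

set_option linter.unusedVariables false in
/-- TW-RH: the standing assumptions `ResidualHyp` follow from the hypotheses of S56. -/
theorem residualHyp_of_S56 {𝒪 : Type} [CommRing 𝒪] [IsDomain 𝒪] [IsDiscreteValuationRing 𝒪]
    (p : ℕ) [Fact p.Prime] (hp𝒪 : (p : 𝒪) ∈ maximalIdeal 𝒪)
    (ρbar : ResidualGaloisRep (ResidueField 𝒪))
    (habs : ρbar.IsAbsolutelyIrreducible)
    (hdet : (GaloisRepAdic.ofResidualGaloisRep ρbar).DetIsCyclotomic p)
    (hsplit : ∀ σ : AlgebraicClosure ℚ ≃ₐ[ℚ] AlgebraicClosure ℚ,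
      ∃ α β : ResidueField 𝒪, LinearMap.charpoly (ρbar.ρ σ) = (X - C α) * (X - C β))
    (hTW : ∀ (K : Type) [Field K] [Algebra (ResidueField 𝒪) K]
      (G : Subgroup (AlgebraicClosure ℚ ≃ₐ[ℚ] AlgebraicClosure ℚ)), G.index = 2 →
      ∀ V : Submodule K (ρbar.baseChange K).V,
        (∀ σ ∈ G, ∀ x ∈ V, (ρbar.baseChange K).ρ σ x ∈ V) → V = ⊥ ∨ V = ⊤)
    (b : Module.Basis (Fin 2) (ResidueField 𝒪) ρbar.V) : ResidualHyp (rbarHom ρbar b) p := by
  have hchar : (p : ResidueField 𝒪) = 0 := by
    rw [← map_natCast (residue 𝒪) p]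
    exact (residue_eq_zero_iff _).2 hp𝒪
  refine ⟨hchar, ?_, ?_, ?_, ?_⟩
  · obtain ⟨L, hL, h⟩ := ρbar.factorsThroughFiniteLevel
    refine ⟨L, hL, fun σ hσ => ?_⟩
    rw [rbarHom_apply, h σ hσ]
    exact LinearMap.toMatrix_one b
  · intro σ a hμ
    have h1 := hdet.2 1 σ a (fun μ hμ1 => hμ μ (by rwa [pow_one] at hμ1))
    have h2 : ((p ^ 1 : ℕ) : ResidueField 𝒪) = 0 := by rw [pow_one, hchar]
    rw [h2, Ideal.span_singleton_eq_bot.mpr rfl, Ideal.mem_bot, sub_eq_zero] at h1
    rw [rbarHom_apply, LinearMap.det_toMatrix]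
    exact h1
  · intro σ
    obtain ⟨α, β, h⟩ := hsplit σ
    refine ⟨α, β, ?_⟩
    rw [rbarHom_apply, LinearMap.charpoly_toMatrix]
    exact h
  · intro K _ _ G hG v hv
    rcases hG with hG | hG
    · obtain ⟨G', hG'⟩ := ResHyp.exists_subgroup_index_two
      have htop : G = ⊤ := Subgroup.index_eq_one.mp hG
      exact ResHyp.eigenvector_eq_zero_of_index_two ρbar b K G' (hTW K G' hG') v
        (fun σ _ => hv σ (by rw [htop]; exact Subgroup.mem_top σ))
    · exact ResHyp.eigenvector_eq_zero_of_index_two ρbar b K G (hTW K G hG) v hv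

namespace ResHyp

variable {k : Type} [Field k]

/-- The kernel of a non-zero `2 × 2` matrix is at most a line. -/
theorem exists_smul_of_mulVec_eq_zero {K : Type} [Field K] (Y : Mat2 K) (hY : Y ≠ 0)
    (v w : Fin 2 → K) (hv : v ≠ 0) (hYv : Y.mulVec v = 0) (hYw : Y.mulVec w = 0) :
    ∃ a : K, w = a • v := by
  have e : ∀ i, Y i 0 * v 0 + Y i 1 * v 1 = 0 := fun i => by
    have h := congrFun hYv i
    simpa [Matrix.mulVec, dotProduct, Fin.sum_univ_two] using h
  have e' : ∀ i, Y i 0 * w 0 + Y i 1 * w 1 = 0 := fun i => by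
    have h := congrFun hYw i
    simpa [Matrix.mulVec, dotProduct, Fin.sum_univ_two] using h
  have hd : v 0 * w 1 - v 1 * w 0 = 0 := by
    by_contra hd
    apply hY
    ext i j
    fin_cases j
    · have h1 : Y i 0 * (v 0 * w 1 - v 1 * w 0) = 0 := by
        linear_combination w 1 * e i - v 1 * e' i
      exact (mul_eq_zero.mp h1).resolve_right hd
    · have h1 : Y i 1 * (v 0 * w 1 - v 1 * w 0) = 0 := by
        linear_combination v 0 * e' i - w 0 * e i
      exact (mul_eq_zero.mp h1).resolve_right hd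
  by_cases hv0 : v 0 = 0
  · have hv1 : v 1 ≠ 0 := by
      intro hv1
      apply hv
      funext i
      fin_cases i
      · exact hv0
      · exact hv1
    refine ⟨w 1 / v 1, ?_⟩
    funext i
    fin_cases i
    · show w 0 = w 1 / v 1 * v 0
      rw [hv0, mul_zero]
      rw [hv0, zero_mul, zero_sub, neg_eq_zero] at hd
      exact (mul_eq_zero.mp hd).resolve_left hv1
    · show w 1 = w 1 / v 1 * v 1
      rw [div_mul_cancel₀ _ hv1]
  · refine ⟨w 0 / v 0, ?_⟩
    funext i
    fin_cases i
    · show w 0 = w 0 / v 0 * v 0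
      rw [div_mul_cancel₀ _ hv0]
    · show w 1 = w 0 / v 0 * v 1
      field_simp
      linear_combination hd

/-- In characteristic `p ≠ 2`, `2 ≠ 0`. -/
theorem two_ne_zero_of_natCast_eq_zero (p : ℕ) [Fact p.Prime] (hp2 : p ≠ 2)
    (hp : (p : k) = 0) : (2 : k) ≠ 0 := by
  intro h2
  obtain ⟨m, hm⟩ := (Fact.out : p.Prime).odd_of_ne_two hp2
  rw [hm] at hp
  push_cast at hp
  rw [h2, zero_mul, zero_add] at hp
  exact one_ne_zero hp

/-- Schur's lemma in the form needed: a trace-zero matrix commuting with `rb` on a subgroup of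
index `≤ 2` vanishes. -/
theorem eq_zero_of_commute (rb : GQ →* Mat2 k) (p : ℕ) [Fact p.Prime] (hp2 : p ≠ 2)
    (h : ResidualHyp rb p) (G : Subgroup GQ) (hG : G.index = 1 ∨ G.index = 2) (X : Mat2 k)
    (hX : X.trace = 0) (hcomm : ∀ σ ∈ G, rb σ * X = X * rb σ) : X = 0 := by
  have h2 : (2 : k) ≠ 0 := two_ne_zero_of_natCast_eq_zero p hp2 h.charP
  set K := AlgebraicClosure k with hK
  set XK : Mat2 K := X.map (algebraMap k K) with hXK
  obtain ⟨t, ht⟩ := IsAlgClosed.exists_root XK.charpoly
    (by rw [Matrix.charpoly_degree_eq_dim]; simp)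
  rw [IsRoot.def, Matrix.eval_charpoly] at ht
  obtain ⟨v, hv0, hv⟩ := Matrix.exists_mulVec_eq_zero_iff.mpr ht
  set Y : Mat2 K := Matrix.scalar (Fin 2) t - XK with hY
  have hYcomm : ∀ σ ∈ G, (rb σ).map (algebraMap k K) * Y = Y * (rb σ).map (algebraMap k K) := by
    intro σ hσ
    have h1 : (rb σ).map (algebraMap k K) * XK = XK * (rb σ).map (algebraMap k K) := by
      rw [hXK, ← Matrix.map_mul, ← Matrix.map_mul, hcomm σ hσ]
    rw [hY, mul_sub, sub_mul, h1]
    congr 1
    exact ((Matrix.scalar_commute t (fun r => Commute.all _ _)) _).symm.eq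
  have hY0 : Y = 0 := by
    by_contra hYne
    apply hv0
    apply h.irr K G hG v
    intro σ hσ
    apply exists_smul_of_mulVec_eq_zero Y hYne v _ hv0 hv
    rw [Matrix.mulVec_mulVec, ← hYcomm σ hσ, ← Matrix.mulVec_mulVec, hv, Matrix.mulVec_zero]
  have hXKt : XK = Matrix.scalar (Fin 2) t := (sub_eq_zero.mp hY0).symm
  have hent : ∀ i j, algebraMap k K (X i j) = if i = j then t else 0 := by
    intro i j
    have h1 := congrFun (congrFun hXKt i) j
    rw [hXK, Matrix.map_apply, Matrix.scalar_apply, Matrix.diagonal_apply] at h1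
    exact h1
  have ht0 : t = 0 := by
    have h00 := hent 0 0
    have h11 := hent 1 1
    rw [if_pos rfl] at h00 h11
    have hsum : algebraMap k K (X 0 0 + X 1 1) = t + t := by rw [map_add, h00, h11]
    rw [← Matrix.trace_fin_two X, hX, map_zero] at hsum
    have h2K : (2 : K) ≠ 0 := by
      have h3 : (algebraMap k K) 2 ≠ 0 := by
        rw [Ne, map_eq_zero]
        exact h2
      rwa [map_ofNat] at h3
    have h4 : (2 : K) * t = 0 := by linear_combination -hsum
    exact (mul_eq_zero.mp h4).resolve_left h2K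
  ext i j
  apply (algebraMap k K).injective
  rw [hent i j, ht0, ite_self, Matrix.zero_apply, map_zero]

/-- No invariants in `ad⁰`. -/
theorem eq_zero_of_adAct_one (rb : GQ →* Mat2 k) (p : ℕ) [Fact p.Prime] (hp2 : p ≠ 2)
    (h : ResidualHyp rb p) (X : Mat2 k) (hX : X.trace = 0)
    (hc : ∀ σ, adAct rb 1 σ X = X) : X = 0 := by
  apply eq_zero_of_commute rb p hp2 h ⊤ (Or.inl Subgroup.index_top) X hX
  intro σ _
  have h1 := hc σ
  rw [adAct_apply, MonoidHom.one_apply, Units.val_one, one_smul] at h1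
  calc rb σ * X = rb σ * X * (rb σ⁻¹ * rb σ) := by
        rw [← map_mul, inv_mul_cancel, map_one, mul_one]
    _ = (rb σ * X * rb σ⁻¹) * rb σ := by simp only [mul_assoc]
    _ = X * rb σ := by rw [h1]

/-- No invariants in `ad⁰(1)`. -/
theorem eq_zero_of_adAct_det (rb : GQ →* Mat2 k) (p : ℕ) [Fact p.Prime] (hp2 : p ≠ 2)
    (h : ResidualHyp rb p) (X : Mat2 k) (hX : X.trace = 0)
    (hc : ∀ σ, adAct rb (detChar rb) σ X = X) : X = 0 := by
  have h2 : (2 : k) ≠ 0 := two_ne_zero_of_natCast_eq_zero p hp2 h.charP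
  have hstar : ∀ σ, (rb σ).det • (rb σ * X) = X * rb σ := by
    intro σ
    have h1 := hc σ
    rw [adAct_apply, detChar_apply] at h1
    calc (rb σ).det • (rb σ * X) = (rb σ).det • (rb σ * X * (rb σ⁻¹ * rb σ)) := by
          rw [← map_mul, inv_mul_cancel, map_one, mul_one]
      _ = ((rb σ).det • (rb σ * X * rb σ⁻¹)) * rb σ := by
          rw [Matrix.smul_mul, mul_assoc (rb σ * X)]
      _ = X * rb σ := by rw [h1]
  have hdetne : ∀ σ, (rb σ).det ≠ 0 := fun σ => by
    rw [← detChar_apply]
    exact Units.ne_zero _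
  by_contra hX0
  by_cases hdet : X.det = 0
  · obtain ⟨v, hv0, hv⟩ := Matrix.exists_mulVec_eq_zero_iff.mpr hdet
    apply hv0
    apply h.irr k ⊤ (Or.inl Subgroup.index_top) v
    intro σ _
    have hid : (rb σ).map (algebraMap k k) = rb σ := by
      ext i j
      rfl
    rw [hid]
    apply exists_smul_of_mulVec_eq_zero X hX0 v _ hv0 hv
    rw [Matrix.mulVec_mulVec, ← hstar σ, Matrix.smul_mulVec, ← Matrix.mulVec_mulVec, hv,
      Matrix.mulVec_zero, smul_zero]
  · have hsq : ∀ σ, (rb σ).det = 1 ∨ (rb σ).det = -1 := by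
      intro σ
      have h1 := congrArg Matrix.det (hstar σ)
      rw [Matrix.det_smul, Matrix.det_mul, Matrix.det_mul, Fintype.card_fin] at h1
      have h3 : ((rb σ).det ^ 2 - 1) * ((rb σ).det * X.det) = 0 := by linear_combination h1
      rcases mul_eq_zero.mp h3 with h4 | h4
      · exact sq_eq_one_iff.mp (by linear_combination h4)
      · exact absurd h4 (mul_ne_zero (hdetne σ) hdet)
    have hmem : ∀ g, g ∈ (detChar rb).ker ↔ (rb g).det = 1 := by
      intro g
      rw [MonoidHom.mem_ker, ← detChar_apply, Units.ext_iff]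
      rfl
    have h1ne : (1 : k) ≠ -1 := by
      intro h1
      apply h2
      linear_combination h1
    have hGidx : (detChar rb).ker.index = 1 ∨ (detChar rb).ker.index = 2 := by
      by_cases hall : ∀ σ, (rb σ).det = 1
      · left
        rw [Subgroup.index_eq_one, eq_top_iff]
        intro σ _
        exact (hmem σ).2 (hall σ)
      · right
        push Not at hall
        obtain ⟨τ, hτ⟩ := hall
        have hτ' : (rb τ).det = -1 := (hsq τ).resolve_left hτ
        rw [Subgroup.index_eq_two_iff]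
        refine ⟨τ, fun σ => ?_⟩
        rw [hmem, hmem, map_mul, Matrix.det_mul, hτ']
        rcases hsq σ with h1 | h1
        · rw [h1]
          exact Or.inr ⟨rfl, fun h => h1ne (by linear_combination -h)⟩
        · rw [h1]
          exact Or.inl ⟨by ring, fun h => h1ne h.symm⟩
    apply hX0
    apply eq_zero_of_commute rb p hp2 h _ hGidx X hX
    intro σ hσ
    have hd1 : (rb σ).det = 1 := (hmem σ).1 hσ
    have h5 := hstar σ
    rw [hd1, one_smul] at h5
    exact h5

/-- The trace-zero `2 × 2` matrices over a finite field `k` have `#k ^ 3` elements. -/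
theorem card_sl2 [Finite k] : Nat.card (sl2 k) = Nat.card k ^ 3 := by
  have hfr : Module.finrank k (sl2 k) = 3 := by
    have h1 := LinearMap.finrank_range_add_finrank_ker (Matrix.traceLinearMap (Fin 2) k k)
    have h2 : LinearMap.range (Matrix.traceLinearMap (Fin 2) k k) = ⊤ := by
      rw [LinearMap.range_eq_top]
      intro a
      exact ⟨!![a, 0; 0, 0], by simp [Matrix.trace_fin_two]⟩
    rw [h2, finrank_top, Module.finrank_self, Module.finrank_matrix] at h1
    simp only [Fintype.card_fin, Module.finrank_self, mul_one] at h1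
    have h3 : Module.finrank k (sl2 k) =
        Module.finrank k (LinearMap.ker (Matrix.traceLinearMap (Fin 2) k k)) := rfl
    omega
  rw [Module.natCard_eq_pow_finrank (K := k) (V := sl2 k), hfr]

/-- If the twisted adjoint action has no invariants on trace-zero matrices, the coboundary
space has `#k ^ 3` elements. -/
theorem card_B1_of_no_invariants [Finite k] (rb : GQ →* Mat2 k) (χ : GQ →* kˣ)
    (hinj : ∀ X : Mat2 k, X.trace = 0 → (∀ σ, adAct rb χ σ X = X) → X = 0) :
    Nat.card (B1 rb χ) = Nat.card k ^ 3 := by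
  rw [← card_sl2]
  have hinjOn : Set.InjOn (cob rb χ) (sl2 k : Set (Mat2 k)) := by
    intro X hX Y hY hXY
    have h0 : cob rb χ (X - Y) = 0 := by rw [map_sub, hXY, sub_self]
    have hXY0 : X - Y = 0 := by
      apply hinj (X - Y)
      · rw [Matrix.trace_sub, (mem_sl2 X).1 hX, (mem_sl2 Y).1 hY, sub_self]
      · intro σ
        have h1 := congrFun h0 σ
        rw [cob_apply, Pi.zero_apply] at h1
        exact sub_eq_zero.mp h1
    exact sub_eq_zero.mp hXY0
  exact Nat.card_image_of_injOn hinjOn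

end ResHyp

/-- TW-H0: no invariants, so both coboundary spaces have `#k ^ 3` elements. -/
theorem card_B1_eq {k : Type} [Field k] [Finite k] (rb : GQ →* Mat2 k) (p : ℕ) [Fact p.Prime]
    (hp2 : p ≠ 2) (h : ResidualHyp rb p) :
    Nat.card (B1 rb 1) = Nat.card k ^ 3 ∧ Nat.card (B1 rb (detChar rb)) = Nat.card k ^ 3 :=
  ⟨ResHyp.card_B1_of_no_invariants rb 1 (ResHyp.eq_zero_of_adAct_one rb p hp2 h),
    ResHyp.card_B1_of_no_invariants rb (detChar rb) (ResHyp.eq_zero_of_adAct_det rb p hp2 h)⟩

end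

end Fermat.Agent.TW
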