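/-
TW (S56) — step R1: the commutative-algebra end of the Taylor–Wiles argument (owner helper32).

Let `R` be a complete Noetherian local `𝒪`-algebra with residue field `k = 𝒪/𝔪_𝒪` (`k` finite).
If `R` has at most `|k| ^ r` tangent vectors, i.e. `𝒪`-algebra maps `R → k[ε]`, then `R` is a
quotient of `𝒪⟦x₁, …, x_r⟧`.

Everything is phrased with cardinalities, so that no `k`-linear structure on `Hom(R, k[ε])`
is needed by the consumers.
-/
import Mathlib
import Fermat.Agent.S53.PowerSeriesMap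
import Fermat.Agent.S53.PowerSeriesComplete
import Fermat.Agent.S53.CompleteExtend

set_option autoImplicit false
set_option linter.style.haveILetI false

namespace Fermat.Agent.TW

open IsLocalRing Fermat.Agent.S53

noncomputable section

namespace TangentSurj

/-! ### Maps from power series rings to complete local algebras -/

section Complete

variable {𝒪 : Type} [CommRing 𝒪] [IsLocalRing 𝒪]
variable {R : Type} [CommRing R] [IsLocalRing R] [IsNoetherianRing R]
  [IsAdicComplete (maximalIdeal R) R] [Algebra 𝒪 R]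

/-- A family in the maximal ideal of a complete Noetherian local `𝒪`-algebra is the image of
the variables under an `𝒪`-algebra map from the power series ring. -/
theorem exists_algHom_mvPowerSeries_X_eq_of_complete
    (hloc : IsLocalHom (algebraMap 𝒪 R))
    (hres : Function.Surjective (residue R ∘ algebraMap 𝒪 R))
    {σ : Type} [Finite σ] (a : σ → R) (ha : ∀ s, a s ∈ maximalIdeal R) :
    ∃ θ : MvPowerSeries σ 𝒪 →ₐ[𝒪] R, ∀ s, θ (MvPowerSeries.X s) = a s := by
  have huniv : ∀ n : ℕ, ∃! φ : MvPowerSeries σ 𝒪 →ₐ[𝒪] R ⧸ maximalIdeal R ^ (n + 1),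
      ∀ i, φ (MvPowerSeries.X i) = Ideal.Quotient.mk _ (a i) := by
    intro n
    let _ := isLocalRing_quotient_maximalIdeal_pow_succ R n
    have hA := isArtinianTestAlgebra_quotient_maximalIdeal_pow_succ hloc hres n
    have ha' : ∀ s, Ideal.Quotient.mk (maximalIdeal R ^ (n + 1)) (a s) ∈
        maximalIdeal (R ⧸ maximalIdeal R ^ (n + 1)) := by
      intro s
      rw [mem_maximalIdeal, mem_nonunits_iff]
      intro hu
      have hl : IsLocalHom (Ideal.Quotient.mk (maximalIdeal R ^ (n + 1))) :=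
        IsLocalHom.of_surjective _ Ideal.Quotient.mk_surjective
      exact (mem_nonunits_iff.1 ((mem_maximalIdeal _).1 (ha s)))
        (isUnit_of_map_unit (Ideal.Quotient.mk (maximalIdeal R ^ (n + 1))) _ hu)
    obtain ⟨θ, hθ⟩ := exists_algHom_mvPowerSeries_X_eq hA
      (fun s => Ideal.Quotient.mk (maximalIdeal R ^ (n + 1)) (a s)) ha'
    exact ⟨θ, hθ, fun θ' hθ' => algHom_mvPowerSeries_ext hA θ' θ (fun s => by rw [hθ', hθ])⟩
  obtain ⟨θ, hθ, -⟩ :=
    exists_unique_algHom_of_forall_quotient (maximalIdeal R) MvPowerSeries.X a huniv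
  exact ⟨θ, hθ⟩

omit [IsAdicComplete (maximalIdeal R) R] in
/-- An `𝒪`-algebra map from a power series ring over a complete local ring `𝒪` to a complete
local `𝒪`-algebra is surjective as soon as the images of the variables generate the maximal
ideal modulo `𝔪_𝒪`. -/
theorem algHom_mvPowerSeries_surjective_of_complete [IsAdicComplete (maximalIdeal 𝒪) 𝒪]
    (hres : Function.Surjective (residue R ∘ algebraMap 𝒪 R))
    {σ : Type} [Finite σ] (θ : MvPowerSeries σ 𝒪 →ₐ[𝒪] R)
    (h : maximalIdeal R ≤ Ideal.span (Set.range fun s => θ (MvPowerSeries.X s)) ⊔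
      (maximalIdeal 𝒪).map (algebraMap 𝒪 R)) :
    Function.Surjective θ := by
  have hθloc := algHom_isLocalHom_of_residue_surjective hres θ
  have hmap : (maximalIdeal (MvPowerSeries σ 𝒪)).map (θ : MvPowerSeries σ 𝒪 →+* R) =
      maximalIdeal R := by
    apply le_antisymm
    · rw [Ideal.map_le_iff_le_comap]
      intro f hf
      rw [Ideal.mem_comap, mem_maximalIdeal, mem_nonunits_iff]
      intro hu
      exact (mem_nonunits_iff.1 ((mem_maximalIdeal _).1 hf))
        (isUnit_of_map_unit (θ : MvPowerSeries σ 𝒪 →+* R) f hu)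
    · refine h.trans (sup_le ?_ ?_)
      · rw [Ideal.span_le]
        rintro _ ⟨s, rfl⟩
        exact Ideal.mem_map_of_mem (θ : MvPowerSeries σ 𝒪 →+* R) (mvps_X_mem_maximalIdeal s)
      · rw [Ideal.map_le_iff_le_comap]
        intro c hc
        rw [Ideal.mem_comap, ← θ.commutes c]
        refine Ideal.mem_map_of_mem (θ : MvPowerSeries σ 𝒪 →+* R) ?_
        rw [MvPowerSeries.algebraMap_apply, Algebra.algebraMap_self, RingHom.id_apply]
        exact mvps_C_mem_maximalIdeal hc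
  have := mvPowerSeries_isAdicComplete 𝒪 σ
  have : IsHausdorff ((maximalIdeal (MvPowerSeries σ 𝒪)).map (θ : MvPowerSeries σ 𝒪 →+* R)) R := by
    rw [hmap]; infer_instance
  have hsurj : Function.Surjective ((Ideal.Quotient.mk
      ((maximalIdeal (MvPowerSeries σ 𝒪)).map (θ : MvPowerSeries σ 𝒪 →+* R))).comp
        (θ : MvPowerSeries σ 𝒪 →+* R)) := by
    intro y
    obtain ⟨x, rfl⟩ := Ideal.Quotient.mk_surjective y
    obtain ⟨c, hc⟩ := hres (residue R x)
    refine ⟨algebraMap 𝒪 (MvPowerSeries σ 𝒪) c, ?_⟩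
    rw [RingHom.comp_apply, Ideal.Quotient.eq, hmap]
    have h1 : (θ : MvPowerSeries σ 𝒪 →+* R) (algebraMap 𝒪 (MvPowerSeries σ 𝒪) c) =
        algebraMap 𝒪 R c := θ.commutes c
    rw [h1, ← residue_eq_zero_iff, map_sub, sub_eq_zero]
    exact hc
  exact surjective_of_mk_map_comp_surjective (θ : MvPowerSeries σ 𝒪 →+* R) hsurj

end Complete

/-! ### The relative cotangent space -/

section Cotangent

variable (𝒪 : Type) [CommRing 𝒪] [IsLocalRing 𝒪]
variable (A : Type) [CommRing A] [IsLocalRing A] [Algebra 𝒪 A]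

/-- The ideal `𝔪_A ^ 2 + 𝔪_𝒪 A`. -/
def relIdeal : Ideal A := maximalIdeal A ^ 2 ⊔ (maximalIdeal 𝒪).map (algebraMap 𝒪 A)

/-- The ring `A / (𝔪_A ^ 2 + 𝔪_𝒪 A)`. -/
def RelQuot : Type := A ⧸ relIdeal 𝒪 A

noncomputable instance RelQuot.instCommRing : CommRing (RelQuot 𝒪 A) :=
  inferInstanceAs (CommRing (A ⧸ relIdeal 𝒪 A))

/-- The projection `A → A / (𝔪_A ^ 2 + 𝔪_𝒪 A)`. -/
def RelQuot.mk : A →+* RelQuot 𝒪 A := Ideal.Quotient.mk (relIdeal 𝒪 A)

theorem RelQuot.mk_surjective : Function.Surjective (RelQuot.mk 𝒪 A) :=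
  Ideal.Quotient.mk_surjective

variable {𝒪 A} in
theorem RelQuot.mk_eq_zero_iff (a : A) : RelQuot.mk 𝒪 A a = 0 ↔ a ∈ relIdeal 𝒪 A :=
  Ideal.Quotient.eq_zero_iff_mem

variable {𝒪 A} in
theorem RelQuot.mk_eq_mk_iff (a b : A) :
    RelQuot.mk 𝒪 A a = RelQuot.mk 𝒪 A b ↔ a - b ∈ relIdeal 𝒪 A :=
  Ideal.Quotient.eq

/-- The section `k → A / (𝔪_A ^ 2 + 𝔪_𝒪 A)`. -/
def RelQuot.sec : ResidueField 𝒪 →+* RelQuot 𝒪 A :=
  Ideal.Quotient.lift (maximalIdeal 𝒪) ((RelQuot.mk 𝒪 A).comp (algebraMap 𝒪 A)) (fun c hc => by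
    rw [RingHom.comp_apply, RelQuot.mk_eq_zero_iff]
    exact Ideal.mem_sup_right (Ideal.mem_map_of_mem _ hc))

noncomputable instance RelQuot.instAlgebra : Algebra (ResidueField 𝒪) (RelQuot 𝒪 A) :=
  (RelQuot.sec 𝒪 A).toAlgebra

variable {𝒪 A}

theorem RelQuot.residue_smul (c : 𝒪) (b : RelQuot 𝒪 A) :
    residue 𝒪 c • b = RelQuot.mk 𝒪 A (algebraMap 𝒪 A c) * b := by
  rw [Algebra.smul_def]
  rfl

theorem relIdeal_le_maximalIdeal [IsLocalHom (algebraMap 𝒪 A)] :
    relIdeal 𝒪 A ≤ maximalIdeal A := by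
  refine sup_le (Ideal.pow_le_self two_ne_zero) ?_
  rw [Ideal.map_le_iff_le_comap]
  intro c hc
  rw [Ideal.mem_comap]
  exact map_nonunit (algebraMap 𝒪 A) c hc

theorem mul_mem_relIdeal {m m' : A} (hm : m ∈ maximalIdeal A) (hm' : m' ∈ maximalIdeal A) :
    m * m' ∈ relIdeal 𝒪 A :=
  Ideal.mem_sup_left (by rw [pow_two]; exact Ideal.mul_mem_mul hm hm')

/-- The image of an ideal of `A` in `A / (𝔪_A ^ 2 + 𝔪_𝒪 A)`, as a `k`-subspace. -/
def imgSub (I : Ideal A) : Submodule (ResidueField 𝒪) (RelQuot 𝒪 A) where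
  carrier := RelQuot.mk 𝒪 A '' I
  add_mem' := by
    rintro _ _ ⟨a, ha, rfl⟩ ⟨b, hb, rfl⟩
    exact ⟨a + b, I.add_mem ha hb, map_add _ _ _⟩
  zero_mem' := ⟨0, I.zero_mem, map_zero _⟩
  smul_mem' := by
    rintro c _ ⟨a, ha, rfl⟩
    obtain ⟨c, rfl⟩ := residue_surjective c
    exact ⟨algebraMap 𝒪 A c * a, I.mul_mem_left _ ha, by rw [RelQuot.residue_smul, map_mul]⟩

theorem mem_imgSub {I : Ideal A} {b : RelQuot 𝒪 A} :
    b ∈ imgSub (𝒪 := 𝒪) I ↔ ∃ a ∈ I, RelQuot.mk 𝒪 A a = b := Iff.rfl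

/-- The augmentation `A → k`. -/
theorem exists_aug [IsLocalHom (algebraMap 𝒪 A)]
    (hsurj : Function.Surjective (residue A ∘ algebraMap 𝒪 A)) :
    ∃ aug : A →+* ResidueField 𝒪, (∀ c, aug (algebraMap 𝒪 A c) = residue 𝒪 c) ∧
      ∀ a, aug a = 0 ↔ a ∈ maximalIdeal A := by
  let e : ResidueField 𝒪 →+* ResidueField A := ResidueField.map (algebraMap 𝒪 A)
  have he : Function.Bijective e := by
    refine ⟨e.injective, fun x => ?_⟩
    obtain ⟨a, rfl⟩ := residue_surjective x
    obtain ⟨c, hc⟩ := hsurj (residue A a)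
    exact ⟨residue 𝒪 c, by rw [← hc]; exact ResidueField.map_residue _ c⟩
  let eE : ResidueField 𝒪 ≃+* ResidueField A := RingEquiv.ofBijective e he
  refine ⟨(eE.symm : ResidueField A →+* ResidueField 𝒪).comp (residue A), fun c => ?_, fun a => ?_⟩
  · show eE.symm (residue A (algebraMap 𝒪 A c)) = residue 𝒪 c
    rw [RingEquiv.symm_apply_eq]
    exact (ResidueField.map_residue _ c).symm
  · show eE.symm (residue A a) = 0 ↔ _
    rw [map_eq_zero_iff _ eE.symm.injective, residue_eq_zero_iff]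

theorem exists_sub_mem_maximalIdeal (aug : A →+* ResidueField 𝒪)
    (haug : ∀ c, aug (algebraMap 𝒪 A c) = residue 𝒪 c)
    (hker : ∀ a, aug a = 0 ↔ a ∈ maximalIdeal A) (a : A) :
    ∃ c : 𝒪, residue 𝒪 c = aug a ∧ a - algebraMap 𝒪 A c ∈ maximalIdeal A := by
  obtain ⟨c, hc⟩ := residue_surjective (aug a)
  refine ⟨c, hc, ?_⟩
  rw [← hker, map_sub, haug, hc, sub_self]

/-- Modulo `𝔪_A ^ 2 + 𝔪_𝒪 A`, an ideal contained in `𝔪_A` is spanned over `k` by its
generators. -/
theorem imgSub_span_le [IsLocalHom (algebraMap 𝒪 A)]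
    (hsurj : Function.Surjective (residue A ∘ algebraMap 𝒪 A))
    (G : Set A) (hG : G ⊆ maximalIdeal A) :
    imgSub (𝒪 := 𝒪) (Ideal.span G) ≤ Submodule.span (ResidueField 𝒪) (RelQuot.mk 𝒪 A '' G) := by
  obtain ⟨aug, haug, hker⟩ := exists_aug (𝒪 := 𝒪) (A := A) hsurj
  have hGle : Ideal.span G ≤ maximalIdeal A := Ideal.span_le.2 hG
  rintro _ ⟨a, ha, rfl⟩
  induction ha using Submodule.span_induction with
  | mem g hg => exact Submodule.subset_span ⟨g, hg, rfl⟩
  | zero => rw [map_zero]; exact Submodule.zero_mem _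
  | add x y _ _ hx hy => rw [map_add]; exact Submodule.add_mem _ hx hy
  | smul a x hx ih =>
    obtain ⟨c, -, hn⟩ := exists_sub_mem_maximalIdeal aug haug hker a
    have h1 : RelQuot.mk 𝒪 A (a • x) = residue 𝒪 c • RelQuot.mk 𝒪 A x := by
      rw [RelQuot.residue_smul, ← map_mul, RelQuot.mk_eq_mk_iff, smul_eq_mul, ← sub_mul]
      exact mul_mem_relIdeal hn (hGle hx)
    rw [h1]
    exact Submodule.smul_mem _ _ ih

/-- `A / (𝔪_A ^ 2 + 𝔪_𝒪 A)` is a finite-dimensional `k`-vector space for Noetherian `A`. -/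
theorem RelQuot.moduleFinite [IsNoetherianRing A] [IsLocalHom (algebraMap 𝒪 A)]
    (hsurj : Function.Surjective (residue A ∘ algebraMap 𝒪 A)) :
    Module.Finite (ResidueField 𝒪) (RelQuot 𝒪 A) := by
  obtain ⟨aug, haug, hker⟩ := exists_aug (𝒪 := 𝒪) (A := A) hsurj
  obtain ⟨G, hG⟩ := (isNoetherianRing_iff_ideal_fg A).1 inferInstance (maximalIdeal A)
  have hGsub : (G : Set A) ⊆ maximalIdeal A := by
    intro g hg
    have : g ∈ Ideal.span (G : Set A) := Ideal.subset_span hg
    rwa [hG] at this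
  refine ⟨Submodule.fg_def.2 ⟨insert 1 (RelQuot.mk 𝒪 A '' (G : Set A)),
    (G.finite_toSet.image _).insert _, ?_⟩⟩
  rw [eq_top_iff]
  rintro b -
  obtain ⟨a, rfl⟩ := RelQuot.mk_surjective 𝒪 A b
  obtain ⟨c, -, hn⟩ := exists_sub_mem_maximalIdeal aug haug hker a
  have h1 : RelQuot.mk 𝒪 A a = residue 𝒪 c • 1 + RelQuot.mk 𝒪 A (a - algebraMap 𝒪 A c) := by
    rw [RelQuot.residue_smul, mul_one, ← map_add]
    congr 1
    ring
  rw [h1]
  refine Submodule.add_mem _ (Submodule.smul_mem _ _ (Submodule.subset_span (Set.mem_insert _ _)))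
    ?_
  have h2 : RelQuot.mk 𝒪 A (a - algebraMap 𝒪 A c) ∈ imgSub (𝒪 := 𝒪) (Ideal.span (G : Set A)) :=
    ⟨_, by rw [hG]; exact hn, rfl⟩
  exact Submodule.span_mono (Set.subset_insert _ _) (imgSub_span_le hsurj _ hGsub h2)

end Cotangent

/-! ### Tangent vectors: `𝒪`-algebra maps to the dual numbers -/

section Tangent

variable {𝒪 : Type} [CommRing 𝒪] [IsLocalRing 𝒪]
variable {A : Type} [CommRing A] [IsLocalRing A] [Algebra 𝒪 A]

/-- Every `k`-linear functional on `A / (𝔪_A ^ 2 + 𝔪_𝒪 A)` killing `1` is the `ε`-component of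
an `𝒪`-algebra map `A → k[ε]`. -/
theorem exists_algHom_dualNumber_of_linearMap
    (aug : A →+* ResidueField 𝒪) (haug : ∀ c, aug (algebraMap 𝒪 A c) = residue 𝒪 c)
    (hker : ∀ a, aug a = 0 ↔ a ∈ maximalIdeal A)
    (f : RelQuot 𝒪 A →ₗ[ResidueField 𝒪] ResidueField 𝒪) (hf1 : f 1 = 0) :
    letI := dualNumberAlgebra 𝒪
    ∃ u : A →ₐ[𝒪] DualNumber (ResidueField 𝒪), ∀ a, u a =
      TrivSqZeroExt.inl (aug a) + TrivSqZeroExt.inr (f (RelQuot.mk 𝒪 A a)) := by
  letI := dualNumberAlgebra 𝒪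
  let D : A → ResidueField 𝒪 := fun a => f (RelQuot.mk 𝒪 A a)
  have hD_add : ∀ a b, D (a + b) = D a + D b := fun a b => by simp [D]
  have hD_alg_mul : ∀ (c : 𝒪) (a : A), D (algebraMap 𝒪 A c * a) = residue 𝒪 c * D a := by
    intro c a
    show f (RelQuot.mk 𝒪 A (algebraMap 𝒪 A c * a)) = residue 𝒪 c * f (RelQuot.mk 𝒪 A a)
    rw [map_mul, ← RelQuot.residue_smul, map_smul, smul_eq_mul]
  have hD_alg : ∀ c : 𝒪, D (algebraMap 𝒪 A c) = 0 := by
    intro c
    have := hD_alg_mul c 1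
    rw [mul_one] at this
    rw [this]
    show residue 𝒪 c * f (RelQuot.mk 𝒪 A 1) = 0
    rw [map_one, hf1, mul_zero]
  have hD_mm : ∀ n n' : A, n ∈ maximalIdeal A → n' ∈ maximalIdeal A → D (n * n') = 0 := by
    intro n n' hn hn'
    show f (RelQuot.mk 𝒪 A (n * n')) = 0
    rw [(RelQuot.mk_eq_zero_iff _).2 (mul_mem_relIdeal hn hn'), map_zero]
  have hD_mul : ∀ a a' : A, D (a * a') = aug a * D a' + aug a' * D a := by
    intro a a'
    obtain ⟨c, hc, hn⟩ := exists_sub_mem_maximalIdeal aug haug hker a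
    obtain ⟨c', hc', hn'⟩ := exists_sub_mem_maximalIdeal aug haug hker a'
    have e1 : a * a' = algebraMap 𝒪 A c * a' + algebraMap 𝒪 A c' * (a - algebraMap 𝒪 A c)
        + (a - algebraMap 𝒪 A c) * (a' - algebraMap 𝒪 A c') := by ring
    have e2 : D a = D (a - algebraMap 𝒪 A c) := by
      have : a = algebraMap 𝒪 A c + (a - algebraMap 𝒪 A c) := by ring
      conv_lhs => rw [this]
      rw [hD_add, hD_alg, zero_add]
    rw [e1, hD_add, hD_add, hD_alg_mul, hD_alg_mul, hD_mm _ _ hn hn', add_zero, hc, hc', ← e2]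
  let u₀ : A →+* DualNumber (ResidueField 𝒪) :=
    { toFun := fun a => TrivSqZeroExt.inl (aug a) + TrivSqZeroExt.inr (D a)
      map_one' := by
        have : D 1 = 0 := by
          show f (RelQuot.mk 𝒪 A 1) = 0
          rw [map_one, hf1]
        rw [map_one, this]
        simp
      map_mul' := by
        intro a a'
        refine TrivSqZeroExt.ext ?_ ?_
        · simp
        · simp only [TrivSqZeroExt.snd_add, TrivSqZeroExt.snd_inl, TrivSqZeroExt.snd_inr,
            TrivSqZeroExt.snd_mul, TrivSqZeroExt.fst_add, TrivSqZeroExt.fst_inl,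
            TrivSqZeroExt.fst_inr, zero_add, add_zero, smul_eq_mul, MulOpposite.smul_eq_mul_unop,
            MulOpposite.unop_op]
          rw [hD_mul]
          ring
      map_zero' := by
        have : D 0 = 0 := by
          show f (RelQuot.mk 𝒪 A 0) = 0
          rw [map_zero, map_zero]
        rw [map_zero, this]
        simp
      map_add' := by
        intro a a'
        rw [map_add, hD_add]
        refine TrivSqZeroExt.ext ?_ ?_ <;> simp }
  have hu₀ : ∀ a, u₀ a = TrivSqZeroExt.inl (aug a) + TrivSqZeroExt.inr (D a) := fun a => rfl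
  exact ⟨{ u₀ with
    commutes' := by
      intro c
      show u₀ (algebraMap 𝒪 A c) = _
      rw [hu₀, haug, hD_alg]
      simp only [TrivSqZeroExt.inr_zero, add_zero]
      rfl }, fun a => rfl⟩

/-- Every `𝒪`-algebra map `A → k[ε]` kills `𝔪_A ^ 2 + 𝔪_𝒪 A`, and maps `𝔪_A` into `k ε`. -/
theorem algHom_dualNumber_fst_eq_zero :
    letI := dualNumberAlgebra 𝒪
    ∀ (u : A →ₐ[𝒪] DualNumber (ResidueField 𝒪)) (m : A), m ∈ maximalIdeal A →
      (u m).fst = 0 := by
  letI := dualNumberAlgebra 𝒪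
  intro u
  have halg : ∀ c : 𝒪, u (algebraMap 𝒪 A c) = TrivSqZeroExt.inl (residue 𝒪 c) := fun c => by
    rw [u.commutes]; rfl
  let g : A →+* ResidueField 𝒪 :=
    ((TrivSqZeroExt.fstHom (ResidueField 𝒪) (ResidueField 𝒪) (ResidueField 𝒪)) :
      DualNumber (ResidueField 𝒪) →+* ResidueField 𝒪).comp (u : A →+* DualNumber (ResidueField 𝒪))
  have hgapp : ∀ a, g a = (u a).fst := fun a => rfl
  have hg : Function.Surjective g := by
    intro x
    obtain ⟨c, rfl⟩ := residue_surjective x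
    exact ⟨algebraMap 𝒪 A c, by rw [hgapp, halg]; rfl⟩
  have hkerg : RingHom.ker g = maximalIdeal A :=
    eq_maximalIdeal (RingHom.ker_isMaximal_of_surjective g hg)
  intro m hm
  rw [← hkerg] at hm
  rw [← hgapp]
  exact hm

theorem relIdeal_le_ker_algHom_dualNumber :
    letI := dualNumberAlgebra 𝒪
    ∀ (u : A →ₐ[𝒪] DualNumber (ResidueField 𝒪)) (a : A), a ∈ relIdeal 𝒪 A → u a = 0 := by
  letI := dualNumberAlgebra 𝒪
  intro u
  have halg : ∀ c : 𝒪, u (algebraMap 𝒪 A c) = TrivSqZeroExt.inl (residue 𝒪 c) := fun c => by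
    rw [u.commutes]; rfl
  have hfst := algHom_dualNumber_fst_eq_zero u
  have hle : relIdeal 𝒪 A ≤ RingHom.ker (u : A →+* DualNumber (ResidueField 𝒪)) := by
    refine sup_le ?_ ?_
    · rw [pow_two, Ideal.mul_le]
      intro m hm m' hm'
      rw [RingHom.mem_ker]
      show u (m * m') = 0
      rw [map_mul]
      refine TrivSqZeroExt.ext ?_ ?_
      · simp [hfst m hm]
      · simp [hfst m hm, hfst m' hm']
    · rw [Ideal.map_le_iff_le_comap]
      intro c hc
      rw [Ideal.mem_comap, RingHom.mem_ker]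
      show u (algebraMap 𝒪 A c) = 0
      rw [halg, (residue_eq_zero_iff c).2 hc]
      simp
  intro a ha
  exact hle ha

/-- Two tangent vectors agreeing modulo `𝔪_A ^ 2 + 𝔪_𝒪 A` (trivially) agree: a tangent
vector is determined by the induced function on `A / (𝔪_A ^ 2 + 𝔪_𝒪 A)`. -/
theorem finite_algHom_dualNumber_of_finite [Finite (ResidueField 𝒪)] [Finite (RelQuot 𝒪 A)] :
    letI := dualNumberAlgebra 𝒪
    Finite (A →ₐ[𝒪] DualNumber (ResidueField 𝒪)) := by
  letI := dualNumberAlgebra 𝒪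
  let F : (A →ₐ[𝒪] DualNumber (ResidueField 𝒪)) →
      (RelQuot 𝒪 A → ResidueField 𝒪 × ResidueField 𝒪) := fun u b =>
    ((u (Function.surjInv (RelQuot.mk_surjective 𝒪 A) b)).fst,
      (u (Function.surjInv (RelQuot.mk_surjective 𝒪 A) b)).snd)
  refine Finite.of_injective F ?_
  intro u v huv
  refine AlgHom.ext fun a => ?_
  have h1 : ∀ w : A →ₐ[𝒪] DualNumber (ResidueField 𝒪),
      w a = w (Function.surjInv (RelQuot.mk_surjective 𝒪 A) (RelQuot.mk 𝒪 A a)) := by
    intro w
    rw [← sub_eq_zero, ← map_sub]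
    refine relIdeal_le_ker_algHom_dualNumber w _ ?_
    rw [← RelQuot.mk_eq_mk_iff, Function.surjInv_eq (RelQuot.mk_surjective 𝒪 A)]
  have h2 := congrFun huv (RelQuot.mk 𝒪 A a)
  rw [h1 u, h1 v]
  exact TrivSqZeroExt.ext (congrArg Prod.fst h2) (congrArg Prod.snd h2)

end Tangent

/-! ### Counting -/

section Counting

/-- A finite-dimensional space `B` over a finite field `k` has at least `|k| ^ (dim B - 1)`
linear functionals killing a given vector. -/
theorem card_pow_le_card_dual_ker {k : Type} [Field k] [Finite k] {B : Type} [AddCommGroup B]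
    [Module k B] [Module.Finite k B] (b₀ : B) :
    Nat.card k ^ (Module.finrank k B - 1) ≤
      Nat.card (LinearMap.ker (Module.Dual.eval k B b₀)) := by
  have h1 := LinearMap.finrank_range_add_finrank_ker (Module.Dual.eval k B b₀)
  have h2 : Module.finrank k (LinearMap.range (Module.Dual.eval k B b₀)) ≤ 1 := by
    have := Submodule.finrank_le (LinearMap.range (Module.Dual.eval k B b₀))
    rwa [Module.finrank_self] at this
  have h3 : Module.finrank k (Module.Dual k B) = Module.finrank k B := Subspace.dual_finrank_eq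
  rw [Module.natCard_eq_pow_finrank (K := k) (V := LinearMap.ker (Module.Dual.eval k B b₀))]
  exact Nat.pow_le_pow_right (Nat.card_pos (α := k)) (by omega)

end Counting

/-! ### Generators of the maximal ideal from a bound on the number of tangent vectors -/

section Generators

variable {𝒪 : Type} [CommRing 𝒪] [IsLocalRing 𝒪] [Finite (ResidueField 𝒪)]
variable {A : Type} [CommRing A] [IsLocalRing A] [IsNoetherianRing A] [Algebra 𝒪 A]
  [IsLocalHom (algebraMap 𝒪 A)]

theorem finite_algHom_dualNumber_aux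
    (hsurj : Function.Surjective (residue A ∘ algebraMap 𝒪 A)) :
    letI := dualNumberAlgebra 𝒪
    Finite (A →ₐ[𝒪] DualNumber (ResidueField 𝒪)) := by
  haveI := RelQuot.moduleFinite (𝒪 := 𝒪) (A := A) hsurj
  haveI : Finite (RelQuot 𝒪 A) := Module.finite_of_finite (ResidueField 𝒪)
  exact finite_algHom_dualNumber_of_finite

theorem finrank_relQuot_le
    (hsurj : Function.Surjective (residue A ∘ algebraMap 𝒪 A)) (r : ℕ)
    (h : letI := dualNumberAlgebra 𝒪
      Nat.card (A →ₐ[𝒪] DualNumber (ResidueField 𝒪)) ≤ Nat.card (ResidueField 𝒪) ^ r) :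
    Module.finrank (ResidueField 𝒪) (RelQuot 𝒪 A) - 1 ≤ r := by
  letI := dualNumberAlgebra 𝒪
  haveI := RelQuot.moduleFinite (𝒪 := 𝒪) (A := A) hsurj
  haveI := finite_algHom_dualNumber_aux (𝒪 := 𝒪) (A := A) hsurj
  obtain ⟨aug, haug, hker⟩ := exists_aug (𝒪 := 𝒪) (A := A) hsurj
  have hex : ∀ f : LinearMap.ker (Module.Dual.eval (ResidueField 𝒪) (RelQuot 𝒪 A) 1),
      ∃ u : A →ₐ[𝒪] DualNumber (ResidueField 𝒪), ∀ a, u a =
        TrivSqZeroExt.inl (aug a) + TrivSqZeroExt.inr (f.1 (RelQuot.mk 𝒪 A a)) :=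
    fun f => exists_algHom_dualNumber_of_linearMap aug haug hker f.1 (LinearMap.mem_ker.1 f.2)
  choose U hU using hex
  have hinj : Function.Injective U := by
    intro f g hfg
    apply Subtype.ext
    apply LinearMap.ext
    intro b
    obtain ⟨a, rfl⟩ := RelQuot.mk_surjective 𝒪 A b
    have h1 := congrArg TrivSqZeroExt.snd (hU f a)
    have h2 := congrArg TrivSqZeroExt.snd (hU g a)
    rw [hfg] at h1
    rw [h1] at h2
    simpa using h2
  have hc := Nat.card_le_card_of_injective U hinj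
  have h5 := card_pow_le_card_dual_ker (k := ResidueField 𝒪) (B := RelQuot 𝒪 A) 1
  exact (Nat.pow_le_pow_iff_right Finite.one_lt_card).1 ((h5.trans hc).trans h)

/-- If a Noetherian local `𝒪`-algebra `A` with residue field `k` has at most `|k| ^ r` tangent
vectors, then `𝔪_A` is generated by `r` elements together with `𝔪_𝒪`. -/
theorem exists_generators_of_card_le
    (hsurj : Function.Surjective (residue A ∘ algebraMap 𝒪 A)) (r : ℕ)
    (h : letI := dualNumberAlgebra 𝒪
      Nat.card (A →ₐ[𝒪] DualNumber (ResidueField 𝒪)) ≤ Nat.card (ResidueField 𝒪) ^ r) :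
    ∃ y : Fin r → A, (∀ i, y i ∈ maximalIdeal A) ∧
      maximalIdeal A ≤ Ideal.span (Set.range y) ⊔ (maximalIdeal 𝒪).map (algebraMap 𝒪 A) := by
  haveI := RelQuot.moduleFinite (𝒪 := 𝒪) (A := A) hsurj
  have hr := finrank_relQuot_le hsurj r h
  set V : Submodule (ResidueField 𝒪) (RelQuot 𝒪 A) := imgSub (maximalIdeal A) with hV
  have hVne : V ≠ ⊤ := by
    intro htop
    have h1 : (1 : RelQuot 𝒪 A) ∈ V := by rw [htop]; trivial
    obtain ⟨m, hm, hm1⟩ := h1
    have h2 : m - 1 ∈ relIdeal 𝒪 A := by rw [← RelQuot.mk_eq_mk_iff, hm1, map_one]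
    have h3 : (1 : A) ∈ maximalIdeal A := by
      have h4 := (maximalIdeal A).sub_mem hm (relIdeal_le_maximalIdeal h2)
      rwa [sub_sub_cancel] at h4
    exact (Ideal.ne_top_iff_one _).1 (maximalIdeal.isMaximal A).ne_top h3
  have hlt := Submodule.finrank_lt hVne
  have hVr : Module.finrank (ResidueField 𝒪) V ≤ r := by omega
  let bV := Module.finBasis (ResidueField 𝒪) V
  let x : Fin r → RelQuot 𝒪 A := fun i =>
    if hi : (i : ℕ) < Module.finrank (ResidueField 𝒪) V then ((bV ⟨i, hi⟩ : V) : RelQuot 𝒪 A)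
    else 0
  have hxV : ∀ i, x i ∈ V := by
    intro i
    by_cases hi : (i : ℕ) < Module.finrank (ResidueField 𝒪) V
    · simp only [x, dif_pos hi]
      exact (bV ⟨i, hi⟩).2
    · simp only [x, dif_neg hi]
      exact V.zero_mem
  have hxspan : V ≤ Submodule.span (ResidueField 𝒪) (Set.range x) := by
    have h1 : V = Submodule.span (ResidueField 𝒪) (V.subtype '' Set.range bV) := by
      rw [← Submodule.map_span, bV.span_eq, Submodule.map_subtype_top]
    rw [h1]
    refine Submodule.span_mono ?_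
    rintro _ ⟨_, ⟨j, rfl⟩, rfl⟩
    refine ⟨⟨j, lt_of_lt_of_le j.2 hVr⟩, ?_⟩
    simp only [x, dif_pos j.2]
    rfl
  have hlift : ∀ i, ∃ y ∈ maximalIdeal A, RelQuot.mk 𝒪 A y = x i := fun i => hxV i
  choose y hy hyx using hlift
  refine ⟨y, hy, ?_⟩
  have hstep : maximalIdeal A ≤ Ideal.span (Set.range y) ⊔ relIdeal 𝒪 A := by
    intro m hm
    have hmB : RelQuot.mk 𝒪 A m ∈ Submodule.span (ResidueField 𝒪) (Set.range x) :=
      hxspan ⟨m, hm, rfl⟩
    have hle : Submodule.span (ResidueField 𝒪) (Set.range x) ≤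
        imgSub (𝒪 := 𝒪) (Ideal.span (Set.range y)) := by
      rw [Submodule.span_le]
      rintro _ ⟨i, rfl⟩
      exact ⟨y i, Ideal.subset_span ⟨i, rfl⟩, hyx i⟩
    obtain ⟨z, hz, hzm⟩ := hle hmB
    have h1 : m - z ∈ relIdeal 𝒪 A := by rw [← RelQuot.mk_eq_mk_iff, hzm]
    have h2 : m = z + (m - z) := by ring
    rw [h2]
    exact Ideal.add_mem _ (Ideal.mem_sup_left hz) (Ideal.mem_sup_right h1)
  refine Submodule.le_of_le_smul_of_le_jacobson_bot (I := maximalIdeal A)
    (IsNoetherian.noetherian _) (maximalIdeal_le_jacobson _) ?_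
  refine hstep.trans ?_
  rw [relIdeal, smul_eq_mul, ← pow_two]
  exact sup_le (le_sup_of_le_left le_sup_left)
    (sup_le le_sup_right (le_sup_of_le_left le_sup_right))

end Generators

end TangentSurj

/-! ### Main statements -/

section Main

variable {𝒪 : Type} [CommRing 𝒪] [IsLocalRing 𝒪] [Finite (ResidueField 𝒪)]
variable {R : Type} [CommRing R] [IsLocalRing R] [IsNoetherianRing R] [Algebra 𝒪 R]
  [IsLocalHom (algebraMap 𝒪 R)]

/-- A Noetherian local `𝒪`-algebra with residue field `k = 𝒪/𝔪_𝒪` finite has finitely many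
tangent vectors (`𝒪`-algebra maps to `k[ε]`). -/
theorem finite_algHom_dualNumber
    (hres : Function.Surjective (residue R ∘ algebraMap 𝒪 R)) :
    letI := dualNumberAlgebra 𝒪
    Finite (R →ₐ[𝒪] DualNumber (ResidueField 𝒪)) :=
  TangentSurj.finite_algHom_dualNumber_aux hres

/-- **Taylor–Wiles, commutative algebra end.** A complete Noetherian local `𝒪`-algebra `R` with
residue field `k = 𝒪/𝔪_𝒪` (finite) and at most `|k| ^ r` tangent vectors `R → k[ε]` is a
quotient of `𝒪⟦x₁, …, x_r⟧`. -/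
theorem exists_surjective_mvPowerSeries_of_card_le [IsAdicComplete (maximalIdeal 𝒪) 𝒪]
    [IsAdicComplete (maximalIdeal R) R]
    (hres : Function.Surjective (residue R ∘ algebraMap 𝒪 R)) (r : ℕ)
    (h : letI := dualNumberAlgebra 𝒪
      Nat.card (R →ₐ[𝒪] DualNumber (ResidueField 𝒪)) ≤ Nat.card (ResidueField 𝒪) ^ r) :
    ∃ γ : MvPowerSeries (Fin r) 𝒪 →ₐ[𝒪] R, Function.Surjective γ := by
  obtain ⟨y, hy, hgen⟩ := TangentSurj.exists_generators_of_card_le hres r h
  obtain ⟨θ, hθ⟩ := TangentSurj.exists_algHom_mvPowerSeries_X_eq_of_complete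
    (inferInstance : IsLocalHom (algebraMap 𝒪 R)) hres y hy
  refine ⟨θ, TangentSurj.algHom_mvPowerSeries_surjective_of_complete hres θ ?_⟩
  have : (fun s => θ (MvPowerSeries.X s)) = y := funext hθ
  rw [this]
  exact hgen

/-- Injection form: if the tangent vectors of `R` inject into a finite set of cardinality at
most `|k| ^ r`, then `R` is a quotient of `𝒪⟦x₁, …, x_r⟧`. -/
theorem exists_surjective_mvPowerSeries_of_injective [IsAdicComplete (maximalIdeal 𝒪) 𝒪]
    [IsAdicComplete (maximalIdeal R) R]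
    (hres : Function.Surjective (residue R ∘ algebraMap 𝒪 R)) (r : ℕ)
    {ι : Type*} [Finite ι] (hι : Nat.card ι ≤ Nat.card (ResidueField 𝒪) ^ r)
    (F : letI := dualNumberAlgebra 𝒪
      (R →ₐ[𝒪] DualNumber (ResidueField 𝒪)) → ι) (hF : Function.Injective F) :
    ∃ γ : MvPowerSeries (Fin r) 𝒪 →ₐ[𝒪] R, Function.Surjective γ :=
  exists_surjective_mvPowerSeries_of_card_le hres r
    ((Nat.card_le_card_of_injective F hF).trans hι)

end Main

end

end Fermat.Agent.TW
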