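/-
TW (S56) — bridge R1 → R2 (owner helper32).

Let `DQ : GaloisRep.DeformationRingData 𝒪 ρbar 𝒟`.

* `algHom_eq_of_baseChangeAlong_isEquiv`: two `𝒪`-algebra maps `DQ.R → A` whose push-forwards of
  the universal deformation are equivalent are equal (uniqueness half of `DQ.universal`; the
  residual condition is checked here, the type condition `𝒟` is a hypothesis on ONE of the two).
* first-order matrix calculus over `k[ε]`: `fstM`, `sndM`, the tangent cocycle `tanCocycle r`
  of a lift `r : G_ℚ → GL₂(k[ε])`, the cocycle identity, and "cohomologous ⇒ equivalent".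
* `exists_tangent_matrix_model`: matrix models `Φ φ : G_ℚ →* M₂(k[ε])` of all the tangent
  vectors `φ : DQ.R → k[ε]`, reducing to the fixed matrices of `ρbar`, such that `φ` is
  determined by the class of `tanCocycle (Φ φ)` modulo coboundaries.
-/
import Mathlib
import Fermat.Agent.S53.Final
import Fermat.Agent.TW.TangentSurj

set_option autoImplicit false
set_option linter.style.haveILetI false
set_option linter.unusedSectionVars false

namespace Fermat.Agent.TW

open IsLocalRing Fermat.Agent.S53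

noncomputable section

namespace TangentLift

/-! ### Push-forwards of lifts -/

section Residual

variable {𝒪 : Type} [CommRing 𝒪] [IsLocalRing 𝒪] {ρbar : ResidualGaloisRep (ResidueField 𝒪)}
  (S : Setup 𝒪 ρbar)
  {R : Type} [CommRing R] [IsLocalRing R] [Algebra 𝒪 R]
  {A : Type} [CommRing A] [IsLocalRing A] [Algebra 𝒪 A]

/-- Matrix lifts of the residual matrices are preserved by local `𝒪`-algebra maps. -/
theorem lifts_mapHom (φ : R →ₐ[𝒪] A) (hφ : IsLocalHom (φ : R →+* A)) (r : GQ →* Mat2 R)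
    (hl : Lifts S (entries r)) : Lifts S (entries (mapHom (φ : R →+* A) r)) := by
  intro p
  have h1 : entries (mapHom (φ : R →+* A) r) p - algebraMap 𝒪 A (S.x0 p) =
      φ (entries r p - algebraMap 𝒪 R (S.x0 p)) := by
    rw [map_sub, AlgHom.commutes]
    rfl
  rw [h1]
  by_contra hne
  rw [notMem_maximalIdeal] at hne
  have hu := hφ.map_nonunit _ hne
  exact (mem_nonunits_iff.mp ((mem_maximalIdeal _).mp (hl p))) hu

/-- The push-forward of a representation with a lifting matrix model is equivalent to the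
pushed-forward matrix model. -/
theorem baseChangeAlong_isEquiv_repOfMat_mapHom (φ : R →+* A) (hφ : IsLocalHom φ)
    (ρ : GaloisRepAdic R) (r : GQ →* Mat2 R) (hr : MatCont r) (e : ρ.IsEquiv (repOfMat r hr)) :
    (ρ.baseChangeAlong φ hφ).IsEquiv (repOfMat (mapHom φ r) (matCont_mapHom φ hφ r hr)) := by
  obtain ⟨e'⟩ := e
  exact final_isEquiv_trans ⟨e'.baseChangeAlong φ hφ⟩ (baseChangeAlong_repOfMat_isEquiv φ hφ r hr)

/-- The residual representation of a push-forward of a lift of `ρbar` is again `ρbar`. -/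
theorem residual_baseChangeAlong_isEquiv [IsLocalHom (algebraMap 𝒪 A)] (φ : R →ₐ[𝒪] A)
    (hφ : IsLocalHom (φ : R →+* A)) (ρ : GaloisRepAdic R) (r : GQ →* Mat2 R) (hr : MatCont r)
    (hl : Lifts S (entries r)) (e : ρ.IsEquiv (repOfMat r hr)) :
    (ρ.baseChangeAlong (φ : R →+* A) hφ).residual.IsEquiv
      (ρbar.baseChangeAlong (ResidueField.map (algebraMap 𝒪 A))) := by
  obtain ⟨e3⟩ := baseChangeAlong_isEquiv_repOfMat_mapHom (φ : R →+* A) hφ ρ r hr e
  obtain ⟨e4⟩ := residual_isEquiv_baseChangeAlong_of_lifts S (ResidueField.map (algebraMap 𝒪 A))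
    (fun a => ResidueField.map_residue _ a) (mapHom (φ : R →+* A) r)
    (matCont_mapHom _ hφ r hr) (lifts_mapHom S φ hφ r hl)
  exact ⟨e3.residual.trans e4⟩

end Residual

end TangentLift

/-! ### Uniqueness half of the universal property -/

section Universal

variable {𝒪 : Type} [CommRing 𝒪] [IsDomain 𝒪] [IsDiscreteValuationRing 𝒪]
  [IsAdicComplete (maximalIdeal 𝒪) 𝒪] {ρbar : ResidualGaloisRep (ResidueField 𝒪)}
  {𝒟 : ∀ ⦃A : Type⦄ [CommRing A] [IsLocalRing A] [Algebra 𝒪 A], GaloisRepAdic A → Prop}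

/-- A matrix model of the universal deformation lifting the fixed residual matrices. -/
theorem exists_lifting_matrix_model (DQ : GaloisRep.DeformationRingData 𝒪 ρbar 𝒟)
    (S : Setup 𝒪 ρbar) :
    ∃ (r : GQ →* Mat2 DQ.R) (hr : MatCont r), Lifts S (entries r) ∧
      DQ.ρ.IsEquiv (repOfMat r hr) := by
  obtain ⟨r, hr, hl, -, e⟩ := final_exists_rigid_model S DQ.ρ DQ.residual_isEquiv
  exact ⟨r, hr, hl, e⟩

/-- **Uniqueness half of the universal property.** Two `𝒪`-algebra maps from a universal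
deformation ring to a complete Noetherian local `𝒪`-algebra `A` whose push-forwards of the
universal deformation are equivalent are equal, as soon as one of the push-forwards is of
type `𝒟`. -/
theorem algHom_eq_of_baseChangeAlong_isEquiv (DQ : GaloisRep.DeformationRingData 𝒪 ρbar 𝒟)
    {A : Type} [CommRing A] [IsLocalRing A] [IsNoetherianRing A]
    [IsAdicComplete (maximalIdeal A) A] [Algebra 𝒪 A] [IsLocalHom (algebraMap 𝒪 A)]
    (hres : Function.Surjective (residue A ∘ algebraMap 𝒪 A))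
    (φ ψ : DQ.R →ₐ[𝒪] A) (hφ : IsLocalHom (φ : DQ.R →+* A)) (hψ : IsLocalHom (ψ : DQ.R →+* A))
    (hψ𝒟 : 𝒟 (DQ.ρ.baseChangeAlong (ψ : DQ.R →+* A) hψ))
    (h : (DQ.ρ.baseChangeAlong (φ : DQ.R →+* A) hφ).IsEquiv
      (DQ.ρ.baseChangeAlong (ψ : DQ.R →+* A) hψ)) : φ = ψ := by
  obtain ⟨S⟩ := nonempty_setup 𝒪 ρbar DQ.absIrr
  obtain ⟨r, hr, hl, e⟩ := exists_lifting_matrix_model DQ S
  have hresid := TangentLift.residual_baseChangeAlong_isEquiv S ψ hψ DQ.ρ r hr hl e
  obtain ⟨χ, -, huniq⟩ := DQ.universal A hres _ hψ𝒟 hresid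
  rw [huniq φ ⟨hφ, h⟩, huniq ψ ⟨hψ, ⟨GaloisRepAdic.Equiv.refl _⟩⟩]

end Universal

/-! ### First-order matrix calculus over `K[ε]` -/

namespace TangentLift

section Cocycle

variable {K : Type} [Field K]

/-- The constant term of a matrix over `K[ε]`. -/
def fstM (N : Mat2 (DualNumber K)) : Mat2 K := N.map TrivSqZeroExt.fst

/-- The `ε`-coefficient of a matrix over `K[ε]`. -/
def sndM (N : Mat2 (DualNumber K)) : Mat2 K := N.map TrivSqZeroExt.snd

theorem fstM_apply (N : Mat2 (DualNumber K)) (i j : Fin 2) : fstM N i j = (N i j).fst := rfl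

theorem sndM_apply (N : Mat2 (DualNumber K)) (i j : Fin 2) : sndM N i j = (N i j).snd := rfl

theorem eq_of_fstM_eq_of_sndM_eq {M N : Mat2 (DualNumber K)} (h1 : fstM M = fstM N)
    (h2 : sndM M = sndM N) : M = N :=
  Matrix.ext fun i j => TrivSqZeroExt.ext (congrFun (congrFun h1 i) j) (congrFun (congrFun h2 i) j)

theorem fstM_mul (M N : Mat2 (DualNumber K)) : fstM (M * N) = fstM M * fstM N := by
  ext i j
  simp only [fstM_apply, Matrix.mul_apply, TrivSqZeroExt.fst_sum, TrivSqZeroExt.fst_mul]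

theorem sndM_mul (M N : Mat2 (DualNumber K)) :
    sndM (M * N) = fstM M * sndM N + sndM M * fstM N := by
  ext i j
  simp only [sndM_apply, fstM_apply, Matrix.mul_apply, Matrix.add_apply, TrivSqZeroExt.snd_sum,
    TrivSqZeroExt.snd_mul, smul_eq_mul, MulOpposite.smul_eq_mul_unop, MulOpposite.unop_op,
    Finset.sum_add_distrib]

theorem fstM_one : fstM (1 : Mat2 (DualNumber K)) = 1 := by
  ext i j
  rw [fstM_apply, Matrix.one_apply, Matrix.one_apply]
  split_ifs <;> simp

theorem sndM_one : sndM (1 : Mat2 (DualNumber K)) = 0 := by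
  ext i j
  rw [sndM_apply, Matrix.one_apply]
  split_ifs <;> simp

/-- The tangent cocycle of a matrix representation `r` over `K[ε]`: if `r = (1 + ε c) r̄` then
`c = tanCocycle r`. -/
def tanCocycle (r : GQ →* Mat2 (DualNumber K)) (σ : GQ) : Mat2 K :=
  sndM (r σ) * fstM (r σ⁻¹)

theorem fstM_mul_fstM_inv (r : GQ →* Mat2 (DualNumber K)) (σ : GQ) :
    fstM (r σ) * fstM (r σ⁻¹) = 1 := by
  rw [← fstM_mul, ← map_mul, mul_inv_cancel, map_one, fstM_one]

theorem fstM_inv_mul_fstM (r : GQ →* Mat2 (DualNumber K)) (σ : GQ) :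
    fstM (r σ⁻¹) * fstM (r σ) = 1 := by
  rw [← fstM_mul, ← map_mul, inv_mul_cancel, map_one, fstM_one]

/-- The cocycle identity `c(στ) = c(σ) + r̄(σ) c(τ) r̄(σ)⁻¹`. -/
theorem tanCocycle_mul (r : GQ →* Mat2 (DualNumber K)) (σ τ : GQ) :
    tanCocycle r (σ * τ) =
      tanCocycle r σ + fstM (r σ) * tanCocycle r τ * fstM (r σ⁻¹) := by
  unfold tanCocycle
  rw [map_mul, sndM_mul, mul_inv_rev, map_mul, fstM_mul, add_mul]
  have e1 : sndM (r σ) * fstM (r τ) * (fstM (r τ⁻¹) * fstM (r σ⁻¹)) =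
      sndM (r σ) * (fstM (r τ) * fstM (r τ⁻¹)) * fstM (r σ⁻¹) := by
    simp only [mul_assoc]
  have e2 : fstM (r σ) * sndM (r τ) * (fstM (r τ⁻¹) * fstM (r σ⁻¹)) =
      fstM (r σ) * (sndM (r τ) * fstM (r τ⁻¹)) * fstM (r σ⁻¹) := by
    simp only [mul_assoc]
  rw [e1, e2, fstM_mul_fstM_inv, mul_one, add_comm]

theorem tanCocycle_one (r : GQ →* Mat2 (DualNumber K)) : tanCocycle r 1 = 0 := by
  unfold tanCocycle
  rw [map_one, sndM_one, zero_mul]

/-- A lift is determined by its reduction and its tangent cocycle. -/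
theorem eq_of_tanCocycle_eq (r r' : GQ →* Mat2 (DualNumber K))
    (hfst : ∀ σ, fstM (r σ) = fstM (r' σ)) (h : ∀ σ, tanCocycle r σ = tanCocycle r' σ) :
    r = r' := by
  apply DFunLike.ext
  intro σ
  refine eq_of_fstM_eq_of_sndM_eq (hfst σ) ?_
  have h1 := congrArg (fun Z => Z * fstM (r σ)) (h σ)
  simp only [tanCocycle] at h1
  rw [mul_assoc, fstM_inv_mul_fstM, mul_one, hfst σ, mul_assoc, fstM_inv_mul_fstM, mul_one] at h1
  exact h1

/-- The matrix `1 + ε X`. -/
def onePlusEps (X : Mat2 K) : Mat2 (DualNumber K) :=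
  Matrix.of fun i j => TrivSqZeroExt.inl ((1 : Mat2 K) i j) + TrivSqZeroExt.inr (X i j)

theorem fstM_onePlusEps (X : Mat2 K) : fstM (onePlusEps X) = 1 := by
  ext i j
  simp [fstM_apply, onePlusEps]

theorem sndM_onePlusEps (X : Mat2 K) : sndM (onePlusEps X) = X := by
  ext i j
  simp [sndM_apply, onePlusEps]

theorem onePlusEps_mul_neg (X : Mat2 K) : onePlusEps X * onePlusEps (-X) = 1 := by
  refine eq_of_fstM_eq_of_sndM_eq ?_ ?_
  · rw [fstM_mul, fstM_onePlusEps, fstM_onePlusEps, mul_one, fstM_one]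
  · rw [sndM_mul, fstM_onePlusEps, fstM_onePlusEps, sndM_onePlusEps, sndM_onePlusEps, one_mul,
      mul_one, sndM_one, neg_add_cancel]

/-- Two lifts of the same reduction whose tangent cocycles differ by the coboundary of `X` are
conjugate by `1 + ε X`, hence equivalent. -/
theorem isEquiv_of_tanCocycle_sub_eq [IsLocalRing (DualNumber K)]
    (r r' : GQ →* Mat2 (DualNumber K)) (hr : MatCont r)
    (hr' : MatCont r') (hfst : ∀ σ, fstM (r σ) = fstM (r' σ)) (X : Mat2 K)
    (hX : ∀ σ, tanCocycle r' σ - tanCocycle r σ = X - fstM (r σ) * X * fstM (r σ⁻¹)) :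
    (repOfMat r hr).IsEquiv (repOfMat r' hr') := by
  rw [repOfMat_isEquiv_iff]
  refine ⟨onePlusEps X, onePlusEps (-X), onePlusEps_mul_neg X, ?_, fun σ => ?_⟩
  · have := onePlusEps_mul_neg (-X)
    rwa [neg_neg] at this
  refine eq_of_fstM_eq_of_sndM_eq ?_ ?_
  · rw [fstM_mul, fstM_mul, fstM_onePlusEps, one_mul, mul_one, hfst]
  · rw [sndM_mul, sndM_mul, fstM_onePlusEps, sndM_onePlusEps, one_mul, mul_one, ← hfst σ]
    have ha'a := fstM_inv_mul_fstM r σ
    have h := hX σ
    unfold tanCocycle at h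
    rw [← hfst σ⁻¹] at h
    have h3 := congrArg (fun Z => Z * fstM (r σ)) h
    simp only [sub_mul, mul_assoc, ha'a, mul_one] at h3
    have h4 : sndM (r' σ) = sndM (r σ) + (X * fstM (r σ) - fstM (r σ) * X) := by
      rw [← h3]; abel
    rw [h4]
    abel

/-- `tr(c(σ)) · det r̄(σ)` is the `ε`-coefficient of `det r(σ)`. -/
theorem trace_tanCocycle_mul_det (r : GQ →* Mat2 (DualNumber K)) (σ : GQ) :
    (tanCocycle r σ).trace * (fstM (r σ)).det = ((r σ).det).snd := by
  have hadj : (fstM (r σ)).det • fstM (r σ⁻¹) = (fstM (r σ)).adjugate := by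
    calc (fstM (r σ)).det • fstM (r σ⁻¹)
        = ((fstM (r σ)).det • (1 : Mat2 K)) * fstM (r σ⁻¹) := by rw [smul_mul_assoc, one_mul]
      _ = (fstM (r σ)).adjugate * fstM (r σ) * fstM (r σ⁻¹) := by rw [Matrix.adjugate_mul]
      _ = (fstM (r σ)).adjugate := by rw [mul_assoc, fstM_mul_fstM_inv, mul_one]
  have h1 : (tanCocycle r σ).trace * (fstM (r σ)).det =
      (sndM (r σ) * (fstM (r σ)).adjugate).trace := by
    rw [← hadj, Matrix.mul_smul, Matrix.trace_smul, smul_eq_mul, mul_comm]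
    rfl
  rw [h1, Matrix.det_fin_two, Matrix.adjugate_fin_two, Matrix.trace_fin_two]
  simp only [Matrix.mul_apply, Fin.sum_univ_two, Matrix.of_apply, Matrix.cons_val_zero,
    Matrix.cons_val_one, sndM_apply, fstM_apply, TrivSqZeroExt.snd_sub, TrivSqZeroExt.snd_mul,
    smul_eq_mul, MulOpposite.smul_eq_mul_unop, MulOpposite.unop_op]
  simp
  ring

/-- If all determinants of `r` are constants (no `ε`-term), the tangent cocycle is
trace-free. -/
theorem trace_tanCocycle_eq_zero (r : GQ →* Mat2 (DualNumber K)) (σ : GQ)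
    (h : ((r σ).det).snd = 0) : (tanCocycle r σ).trace = 0 := by
  have h1 := trace_tanCocycle_mul_det r σ
  rw [h] at h1
  have hdet : (fstM (r σ)).det ≠ 0 := by
    intro h0
    have h2 := congrArg Matrix.det (fstM_mul_fstM_inv r σ)
    rw [Matrix.det_mul, h0, zero_mul, Matrix.det_one] at h2
    exact zero_ne_one h2
  exact (mul_eq_zero.1 h1).resolve_right hdet

/-- The square of the maximal ideal of `K[ε]` is zero. -/
theorem maximalIdeal_dualNumber_sq : maximalIdeal (DualNumber K) ^ 2 = ⊥ := by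
  rw [eq_bot_iff, pow_two, Ideal.mul_le]
  intro x hx y hy
  rw [mem_maximalIdeal, mem_nonunits_iff, TrivSqZeroExt.isUnit_iff_isUnit_fst, isUnit_iff_ne_zero,
    not_not] at hx hy
  rw [Ideal.mem_bot]
  refine TrivSqZeroExt.ext ?_ ?_
  · simp [hx]
  · simp [hx, hy]

/-- An adically continuous matrix representation over `K[ε]` has finite level. -/
theorem exists_finiteLevel_of_matCont (r : GQ →* Mat2 (DualNumber K)) (hr : MatCont r) :
    ∃ L : IntermediateField ℚ (AlgebraicClosure ℚ), FiniteDimensional ℚ L ∧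
      ∀ σ : GQ, (∀ x ∈ L, σ x = x) → r σ = 1 := by
  obtain ⟨L, hL, h⟩ := hr 2
  refine ⟨L, hL, fun σ hσ => Matrix.ext fun i j => ?_⟩
  have h1 := h σ hσ i j
  rw [maximalIdeal_dualNumber_sq, Ideal.mem_bot, Matrix.sub_apply, sub_eq_zero] at h1
  exact h1

/-- The tangent cocycle of an adically continuous lift is constant on the cosets of the fixer
of a finite extension (and vanishes on that fixer). -/
theorem exists_tanCocycle_levelConstant (r : GQ →* Mat2 (DualNumber K)) (hr : MatCont r) :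
    ∃ L : IntermediateField ℚ (AlgebraicClosure ℚ), FiniteDimensional ℚ L ∧
      (∀ s : GQ, (∀ x ∈ L, s x = x) → tanCocycle r s = 0) ∧
      ∀ g s : GQ, (∀ x ∈ L, s x = x) → tanCocycle r (g * s) = tanCocycle r g := by
  obtain ⟨L, hL, h⟩ := exists_finiteLevel_of_matCont r hr
  have h0 : ∀ s : GQ, (∀ x ∈ L, s x = x) → tanCocycle r s = 0 := by
    intro s hs
    unfold tanCocycle
    rw [h s hs, sndM_one, zero_mul]
  refine ⟨L, hL, h0, fun g s hs => ?_⟩
  rw [tanCocycle_mul, h0 s hs, mul_zero, zero_mul, add_zero]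

end Cocycle

/-! ### The dual numbers as a coefficient ring -/

section DualNumberRing

/-- A ring is adically complete with respect to a nilpotent ideal. -/
theorem isAdicComplete_of_pow_eq_bot {A : Type*} [CommRing A] (I : Ideal A) (n : ℕ)
    (hn : I ^ n = ⊥) : IsAdicComplete I A := by
  have hbot : (I ^ n • ⊤ : Submodule A A) = ⊥ := by
    rw [smul_eq_mul, Ideal.mul_top, hn]
  haveI : IsHausdorff I A := ⟨fun x hx => by
    have h := hx n
    rw [hbot, SModEq.zero, Submodule.mem_bot] at h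
    exact h⟩
  haveI : IsPrecomplete I A := ⟨fun f hf => ⟨f n, fun m => by
    by_cases hmn : m ≤ n
    · exact hf hmn
    · have h := hf (le_of_not_ge hmn)
      rw [hbot, SModEq.bot] at h
      rw [h]⟩⟩
  exact {}

variable (𝒪 : Type) [CommRing 𝒪] [IsLocalRing 𝒪]

theorem isAdicComplete_dualNumber :
    IsAdicComplete (maximalIdeal (DualNumber (ResidueField 𝒪))) (DualNumber (ResidueField 𝒪)) := by
  letI := dualNumberAlgebra 𝒪
  haveI := (isArtinianTestAlgebra_dualNumber (𝒪 := 𝒪)).isArtinian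
  obtain ⟨n, hn⟩ := exists_maximalIdeal_pow_eq_bot_of_isArtinianRing (DualNumber (ResidueField 𝒪))
  exact isAdicComplete_of_pow_eq_bot _ n hn

theorem isNoetherianRing_dualNumber : IsNoetherianRing (DualNumber (ResidueField 𝒪)) := by
  letI := dualNumberAlgebra 𝒪
  haveI := (isArtinianTestAlgebra_dualNumber (𝒪 := 𝒪)).isArtinian
  infer_instance

variable {𝒪}

theorem mem_maximalIdeal_dualNumber_iff {K : Type} [Field K] (x : DualNumber K) :
    x ∈ maximalIdeal (DualNumber K) ↔ x.fst = 0 := by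
  rw [mem_maximalIdeal, mem_nonunits_iff, TrivSqZeroExt.isUnit_iff_isUnit_fst, isUnit_iff_ne_zero,
    not_not]

end DualNumberRing

/-! ### Tangent vectors of a universal deformation ring -/

section Trivial

variable {𝒪 : Type} [CommRing 𝒪] [IsLocalRing 𝒪]

/-- Two non-surjective `𝒪`-algebra maps to `k[ε]` agree (both are the trivial tangent
vector). -/
theorem algHom_dualNumber_eq_of_not_surjective {R : Type} [CommRing R] [IsLocalRing R]
    [Algebra 𝒪 R] (hres : Function.Surjective (residue R ∘ algebraMap 𝒪 R)) :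
    letI := dualNumberAlgebra 𝒪
    ∀ φ ψ : R →ₐ[𝒪] DualNumber (ResidueField 𝒪), ¬ Function.Surjective φ →
      ¬ Function.Surjective ψ → φ = ψ := by
  letI := dualNumberAlgebra 𝒪
  have halg : ∀ c : 𝒪, algebraMap 𝒪 (DualNumber (ResidueField 𝒪)) c =
      TrivSqZeroExt.inl (residue 𝒪 c) := fun c => rfl
  have hkill : ∀ φ : R →ₐ[𝒪] DualNumber (ResidueField 𝒪), ¬ Function.Surjective φ →
      ∀ m ∈ maximalIdeal R, φ m = 0 := by
    intro φ hφ m hm
    by_contra hne
    apply hφ
    have hfst : (φ m).fst = 0 := TangentSurj.algHom_dualNumber_fst_eq_zero φ m hm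
    have hsnd : (φ m).snd ≠ 0 := fun h0 => hne (TrivSqZeroExt.ext hfst h0)
    intro y
    obtain ⟨c, hc⟩ := residue_surjective y.fst
    obtain ⟨d, hd⟩ := residue_surjective (y.snd / (φ m).snd)
    refine ⟨algebraMap 𝒪 R c + algebraMap 𝒪 R d * m, ?_⟩
    rw [map_add, map_mul, AlgHom.commutes, AlgHom.commutes, halg, halg, hc, hd]
    refine TrivSqZeroExt.ext ?_ ?_
    · simp [hfst]
    · simp [hfst, div_mul_cancel₀ _ hsnd]
  intro φ ψ hφ hψ
  refine AlgHom.ext fun a => ?_
  obtain ⟨c, hc⟩ := hres (residue R a)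
  have hm : a - algebraMap 𝒪 R c ∈ maximalIdeal R := by
    rw [← residue_eq_zero_iff, map_sub, sub_eq_zero]
    exact hc.symm
  have h1 := hkill φ hφ _ hm
  have h2 := hkill ψ hψ _ hm
  rw [map_sub, sub_eq_zero, AlgHom.commutes] at h1 h2
  rw [h1, h2]

end Trivial

end TangentLift

section TangentModel

open TangentLift

variable {𝒪 : Type} [CommRing 𝒪] [IsDomain 𝒪] [IsDiscreteValuationRing 𝒪]
  [IsAdicComplete (maximalIdeal 𝒪) 𝒪] {ρbar : ResidualGaloisRep (ResidueField 𝒪)}
  {𝒟 : ∀ ⦃A : Type⦄ [CommRing A] [IsLocalRing A] [Algebra 𝒪 A], GaloisRepAdic A → Prop}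

/-- **Matrix models of the tangent vectors of a universal deformation ring.**
Let `hbc` say that the push-forward of the universal deformation along every SURJECTIVE
`𝒪`-algebra map `DQ.R → k[ε]` is of type `𝒟`. Then there are matrix representations
`Φ φ : G_ℚ →* M₂(k[ε])`, one for each tangent vector `φ : DQ.R → k[ε]`, such that
* `Φ φ` reduces to the fixed matrices `rbarHom ρbar S.b` of `ρbar`;
* `Φ φ` is a matrix model of the push-forward of the universal deformation along `φ`;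
* `φ` is determined by the class of the cocycle `tanCocycle (Φ φ) : G_ℚ → M₂(k)` modulo
  coboundaries `σ ↦ X - r̄(σ) X r̄(σ)⁻¹`. -/
theorem exists_tangent_matrix_model (DQ : GaloisRep.DeformationRingData 𝒪 ρbar 𝒟)
    (S : Setup 𝒪 ρbar)
    (hbc : letI := dualNumberAlgebra 𝒪
      ∀ (ψ : DQ.R →ₐ[𝒪] DualNumber (ResidueField 𝒪))
        (hψ : IsLocalHom (ψ : DQ.R →+* DualNumber (ResidueField 𝒪))),
        Function.Surjective ψ →
          𝒟 (DQ.ρ.baseChangeAlong (ψ : DQ.R →+* DualNumber (ResidueField 𝒪)) hψ)) :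
    letI := dualNumberAlgebra 𝒪
    ∃ Φ : (DQ.R →ₐ[𝒪] DualNumber (ResidueField 𝒪)) →
        (GQ →* Mat2 (DualNumber (ResidueField 𝒪))),
      (∀ φ σ, fstM (Φ φ σ) = rbarHom ρbar S.b σ) ∧
      (∀ (φ : DQ.R →ₐ[𝒪] DualNumber (ResidueField 𝒪))
          (hφ : IsLocalHom (φ : DQ.R →+* DualNumber (ResidueField 𝒪))),
        ∃ hc : MatCont (Φ φ),
          (DQ.ρ.baseChangeAlong (φ : DQ.R →+* DualNumber (ResidueField 𝒪)) hφ).IsEquiv
            (repOfMat (Φ φ) hc)) ∧
      (∀ φ ψ (X : Mat2 (ResidueField 𝒪)),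
        (∀ σ, tanCocycle (Φ ψ) σ - tanCocycle (Φ φ) σ =
          X - rbarHom ρbar S.b σ * X * rbarHom ρbar S.b σ⁻¹) → φ = ψ) := by
  letI := dualNumberAlgebra 𝒪
  have hT := isArtinianTestAlgebra_dualNumber (𝒪 := 𝒪)
  haveI := hT.isLocalHom
  haveI := isNoetherianRing_dualNumber 𝒪
  haveI := isAdicComplete_dualNumber 𝒪
  have hres := hT.residue_surjective
  have hloc : ∀ φ : DQ.R →ₐ[𝒪] DualNumber (ResidueField 𝒪),
      IsLocalHom (φ : DQ.R →+* DualNumber (ResidueField 𝒪)) := fun φ => isLocalHom_algHom hres φ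
  obtain ⟨r, hr, hl, e⟩ := exists_lifting_matrix_model DQ S
  have hfst : ∀ (φ : DQ.R →ₐ[𝒪] DualNumber (ResidueField 𝒪)) (σ : GQ),
      fstM (mapHom (φ : DQ.R →+* DualNumber (ResidueField 𝒪)) r σ) = rbarHom ρbar S.b σ := by
    intro φ σ
    ext i j
    have h := lifts_mapHom S φ (hloc φ) r hl (σ, i, j)
    rw [mem_maximalIdeal_dualNumber_iff, TrivSqZeroExt.fst_sub, sub_eq_zero] at h
    rw [fstM_apply, ← S.hx0]
    exact h
  have key : ∀ (φ ψ : DQ.R →ₐ[𝒪] DualNumber (ResidueField 𝒪)) (X : Mat2 (ResidueField 𝒪)),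
      Function.Surjective ψ →
      (∀ σ, tanCocycle (mapHom (ψ : DQ.R →+* DualNumber (ResidueField 𝒪)) r) σ -
          tanCocycle (mapHom (φ : DQ.R →+* DualNumber (ResidueField 𝒪)) r) σ =
        X - rbarHom ρbar S.b σ * X * rbarHom ρbar S.b σ⁻¹) → φ = ψ := by
    intro φ ψ X hψs hX
    refine algHom_eq_of_baseChangeAlong_isEquiv DQ hres φ ψ (hloc φ) (hloc ψ)
      (hbc ψ (hloc ψ) hψs) ?_
    have e1 := baseChangeAlong_isEquiv_repOfMat_mapHom
      (φ : DQ.R →+* DualNumber (ResidueField 𝒪)) (hloc φ) DQ.ρ r hr e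
    have e2 := baseChangeAlong_isEquiv_repOfMat_mapHom
      (ψ : DQ.R →+* DualNumber (ResidueField 𝒪)) (hloc ψ) DQ.ρ r hr e
    have e3 := isEquiv_of_tanCocycle_sub_eq
      (mapHom (φ : DQ.R →+* DualNumber (ResidueField 𝒪)) r)
      (mapHom (ψ : DQ.R →+* DualNumber (ResidueField 𝒪)) r)
      (matCont_mapHom _ (hloc φ) r hr) (matCont_mapHom _ (hloc ψ) r hr)
      (fun σ => by rw [hfst, hfst]) X (fun σ => by rw [hfst, hfst]; exact hX σ)
    exact final_isEquiv_trans e1 (final_isEquiv_trans e3 (final_isEquiv_symm e2))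
  refine ⟨fun φ => mapHom (φ : DQ.R →+* DualNumber (ResidueField 𝒪)) r, hfst,
    fun φ hφ => ⟨matCont_mapHom _ hφ r hr,
      baseChangeAlong_isEquiv_repOfMat_mapHom _ hφ DQ.ρ r hr e⟩, ?_⟩
  intro φ ψ X hX
  by_cases hψs : Function.Surjective ψ
  · exact key φ ψ X hψs hX
  · by_cases hφs : Function.Surjective φ
    · refine (key ψ φ (-X) hφs (fun σ => ?_)).symm
      rw [← neg_sub, hX σ]
      simp only [mul_neg, neg_mul, sub_neg_eq_add, neg_sub]
      abel
    · exact algHom_dualNumber_eq_of_not_surjective DQ.residue_surjective φ ψ hφs hψs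

end TangentModel

end

end Fermat.Agent.TW
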