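/-
TW (S56): the deformation-theoretic core of the assembly.

`exists_surjective_mvPowerSeries_of_selmer_bound`: let `DQ` be a universal deformation ring of
type `𝒟`, where `𝒟` (over the dual numbers) is invariant under equivalence and holds for the
push-forwards of the universal deformation along surjections `DQ.R → k[ε]`.  If the cocycles of
first-order deformations of type `𝒟` lie in a finite space `𝒮 ⊇ B¹` of cocycles with
`#𝒮 ≤ #k ^ r · #B¹`, then `DQ.R` is a quotient of `𝒪⟦x₁, …, x_r⟧`.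
-/
import Mathlib
import Fermat.Agent.TW.Defs
import Fermat.Agent.TW.TangentLift

set_option autoImplicit false
set_option linter.style.haveILetI false
set_option linter.unusedSectionVars false

namespace Fermat.Agent.TW

open IsLocalRing Fermat.Agent.S53 TangentLift

noncomputable section

section Trivial

variable {𝒪 : Type} [CommRing 𝒪] [IsLocalRing 𝒪]

/-- A non-surjective `𝒪`-algebra map to `k[ε]` has no `ε`-component. -/
theorem algHom_dualNumber_snd_eq_zero_of_not_surjective {R : Type} [CommRing R] [IsLocalRing R]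
    [Algebra 𝒪 R] (hres : Function.Surjective (residue R ∘ algebraMap 𝒪 R)) :
    letI := dualNumberAlgebra 𝒪
    ∀ φ : R →ₐ[𝒪] DualNumber (ResidueField 𝒪), ¬ Function.Surjective φ →
      ∀ a : R, (φ a).snd = 0 := by
  letI := dualNumberAlgebra 𝒪
  have halg : ∀ c : 𝒪, algebraMap 𝒪 (DualNumber (ResidueField 𝒪)) c =
      TrivSqZeroExt.inl (residue 𝒪 c) := fun c => rfl
  intro φ hφ a
  have hkill : ∀ m ∈ maximalIdeal R, φ m = 0 := by
    intro m hm
    by_contra hne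
    apply hφ
    have hfst : (φ m).fst = 0 := TangentSurj.algHom_dualNumber_fst_eq_zero φ m hm
    have hsnd : (φ m).snd ≠ 0 := fun h0 => hne (TrivSqZeroExt.ext hfst h0)
    intro y
    obtain ⟨c, hc⟩ := residue_surjective y.fst
    obtain ⟨d, hd⟩ := residue_surjective (y.snd / (φ m).snd)
    refine ⟨algebraMap 𝒪 R c + algebraMap 𝒪 R d * m, ?_⟩
    rw [map_add, map_mul, AlgHom.commutes, AlgHom.commutes, halg, halg, hc, hd]
    refine TrivSqZeroExt.ext ?_ ?_
    · simp [hfst]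
    · simp [hfst, div_mul_cancel₀ _ hsnd]
  obtain ⟨c, hc⟩ := hres (residue R a)
  have hm : a - algebraMap 𝒪 R c ∈ maximalIdeal R := by
    rw [← residue_eq_zero_iff, map_sub, sub_eq_zero]
    exact hc.symm
  have h1 := hkill _ hm
  rw [map_sub, sub_eq_zero, AlgHom.commutes] at h1
  rw [h1, halg]
  rfl

end Trivial

section TangentModel

variable {𝒪 : Type} [CommRing 𝒪] [IsDomain 𝒪] [IsDiscreteValuationRing 𝒪]
  [IsAdicComplete (maximalIdeal 𝒪) 𝒪] {ρbar : ResidualGaloisRep (ResidueField 𝒪)}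
  {𝒟 : ∀ ⦃A : Type⦄ [CommRing A] [IsLocalRing A] [Algebra 𝒪 A], GaloisRepAdic A → Prop}

/-- Matrix models of the tangent vectors of a universal deformation ring (the statement of
`exists_tangent_matrix_model`, with the additional clause that the trivial tangent vector has
tangent cocycle `0`). -/
theorem exists_tangent_matrix_model_strong (DQ : GaloisRep.DeformationRingData 𝒪 ρbar 𝒟)
    (S : Setup 𝒪 ρbar)
    (hbc : letI := dualNumberAlgebra 𝒪
      ∀ (ψ : DQ.R →ₐ[𝒪] DualNumber (ResidueField 𝒪))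
        (hψ : IsLocalHom (ψ : DQ.R →+* DualNumber (ResidueField 𝒪))),
        Function.Surjective ψ →
          𝒟 (DQ.ρ.baseChangeAlong (ψ : DQ.R →+* DualNumber (ResidueField 𝒪)) hψ)) :
    letI := dualNumberAlgebra 𝒪
    ∃ Φ : (DQ.R →ₐ[𝒪] DualNumber (ResidueField 𝒪)) →
        (GQ →* Mat2 (DualNumber (ResidueField 𝒪))),
      (∀ φ σ, fstM (Φ φ σ) = rbarHom ρbar S.b σ) ∧
      (∀ (φ : DQ.R →ₐ[𝒪] DualNumber (ResidueField 𝒪))
          (hφ : IsLocalHom (φ : DQ.R →+* DualNumber (ResidueField 𝒪))),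
        ∃ hc : MatCont (Φ φ),
          (DQ.ρ.baseChangeAlong (φ : DQ.R →+* DualNumber (ResidueField 𝒪)) hφ).IsEquiv
            (repOfMat (Φ φ) hc)) ∧
      (∀ φ ψ (X : Mat2 (ResidueField 𝒪)),
        (∀ σ, tanCocycle (Φ ψ) σ - tanCocycle (Φ φ) σ =
          X - rbarHom ρbar S.b σ * X * rbarHom ρbar S.b σ⁻¹) → φ = ψ) ∧
      (∀ φ : DQ.R →ₐ[𝒪] DualNumber (ResidueField 𝒪), ¬ Function.Surjective φ →
        ∀ σ, tanCocycle (Φ φ) σ = 0) := by
  letI := dualNumberAlgebra 𝒪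
  have hT := isArtinianTestAlgebra_dualNumber (𝒪 := 𝒪)
  haveI := hT.isLocalHom
  haveI := isNoetherianRing_dualNumber 𝒪
  haveI := isAdicComplete_dualNumber 𝒪
  have hres := hT.residue_surjective
  have hloc : ∀ φ : DQ.R →ₐ[𝒪] DualNumber (ResidueField 𝒪),
      IsLocalHom (φ : DQ.R →+* DualNumber (ResidueField 𝒪)) := fun φ => isLocalHom_algHom hres φ
  obtain ⟨r, hr, hl, e⟩ := exists_lifting_matrix_model DQ S
  have hfst : ∀ (φ : DQ.R →ₐ[𝒪] DualNumber (ResidueField 𝒪)) (σ : GQ),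
      fstM (mapHom (φ : DQ.R →+* DualNumber (ResidueField 𝒪)) r σ) = rbarHom ρbar S.b σ := by
    intro φ σ
    ext i j
    have h := lifts_mapHom S φ (hloc φ) r hl (σ, i, j)
    rw [mem_maximalIdeal_dualNumber_iff, TrivSqZeroExt.fst_sub, sub_eq_zero] at h
    rw [fstM_apply, ← S.hx0]
    exact h
  have key : ∀ (φ ψ : DQ.R →ₐ[𝒪] DualNumber (ResidueField 𝒪)) (X : Mat2 (ResidueField 𝒪)),
      Function.Surjective ψ →
      (∀ σ, tanCocycle (mapHom (ψ : DQ.R →+* DualNumber (ResidueField 𝒪)) r) σ -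
          tanCocycle (mapHom (φ : DQ.R →+* DualNumber (ResidueField 𝒪)) r) σ =
        X - rbarHom ρbar S.b σ * X * rbarHom ρbar S.b σ⁻¹) → φ = ψ := by
    intro φ ψ X hψs hX
    refine algHom_eq_of_baseChangeAlong_isEquiv DQ hres φ ψ (hloc φ) (hloc ψ)
      (hbc ψ (hloc ψ) hψs) ?_
    have e1 := baseChangeAlong_isEquiv_repOfMat_mapHom
      (φ : DQ.R →+* DualNumber (ResidueField 𝒪)) (hloc φ) DQ.ρ r hr e
    have e2 := baseChangeAlong_isEquiv_repOfMat_mapHom
      (ψ : DQ.R →+* DualNumber (ResidueField 𝒪)) (hloc ψ) DQ.ρ r hr e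
    have e3 := isEquiv_of_tanCocycle_sub_eq
      (mapHom (φ : DQ.R →+* DualNumber (ResidueField 𝒪)) r)
      (mapHom (ψ : DQ.R →+* DualNumber (ResidueField 𝒪)) r)
      (matCont_mapHom _ (hloc φ) r hr) (matCont_mapHom _ (hloc ψ) r hr)
      (fun σ => by rw [hfst, hfst]) X (fun σ => by rw [hfst, hfst]; exact hX σ)
    exact final_isEquiv_trans e1 (final_isEquiv_trans e3 (final_isEquiv_symm e2))
  refine ⟨fun φ => mapHom (φ : DQ.R →+* DualNumber (ResidueField 𝒪)) r, hfst,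
    fun φ hφ => ⟨matCont_mapHom _ hφ r hr,
      baseChangeAlong_isEquiv_repOfMat_mapHom _ hφ DQ.ρ r hr e⟩, ?_, ?_⟩
  · intro φ ψ X hX
    by_cases hψs : Function.Surjective ψ
    · exact key φ ψ X hψs hX
    · by_cases hφs : Function.Surjective φ
      · refine (key ψ φ (-X) hφs (fun σ => ?_)).symm
        rw [← neg_sub, hX σ]
        simp only [mul_neg, neg_mul, sub_neg_eq_add, neg_sub]
        abel
      · exact algHom_dualNumber_eq_of_not_surjective DQ.residue_surjective φ ψ hφs hψs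
  · intro φ hφ σ
    have h0 : sndM (mapHom (φ : DQ.R →+* DualNumber (ResidueField 𝒪)) r σ) = 0 := by
      ext i j
      rw [sndM_apply, mapHom_apply]
      exact algHom_dualNumber_snd_eq_zero_of_not_surjective DQ.residue_surjective φ hφ _
    unfold tanCocycle
    rw [h0, zero_mul]

end TangentModel

section Core

variable {𝒪 : Type} [CommRing 𝒪] [IsDomain 𝒪] [IsDiscreteValuationRing 𝒪]
  [IsAdicComplete (maximalIdeal 𝒪) 𝒪] [Finite (ResidueField 𝒪)]
  {ρbar : ResidualGaloisRep (ResidueField 𝒪)}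
  {𝒟 : ∀ ⦃A : Type⦄ [CommRing A] [IsLocalRing A] [Algebra 𝒪 A], GaloisRepAdic A → Prop}

/-- A lift over `k[ε]` with reduction `rb` is the lift attached to its tangent cocycle. -/
theorem eq_liftMat_tanCocycle {K : Type} [Field K] (rb : GQ →* Mat2 K)
    (r : GQ →* Mat2 (DualNumber K)) (hfst : ∀ σ, fstM (r σ) = rb σ) (σ : GQ) :
    r σ = liftMat rb (tanCocycle r) σ := by
  have h1 : tanCocycle r σ * rb σ = sndM (r σ) := by
    unfold tanCocycle
    rw [← hfst σ, mul_assoc, fstM_inv_mul_fstM, mul_one]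
  ext i j
  · rw [liftMat_apply, h1, ← hfst σ]
    simp [fstM_apply]
  · rw [liftMat_apply, h1, ← hfst σ]
    simp [sndM_apply]

/-- **The deformation-theoretic core of S56.**  If the first-order deformations of type `𝒟`
have cocycles in a finite space `𝒮 ⊇ B¹` with `#𝒮 ≤ #k ^ r · #B¹`, the universal deformation
ring of type `𝒟` is a quotient of a power series ring in `r` variables. -/
theorem exists_surjective_mvPowerSeries_of_selmer_bound
    (DQ : GaloisRep.DeformationRingData 𝒪 ρbar 𝒟) (S : Setup 𝒪 ρbar)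
    (hequiv : letI := dualNumberAlgebra 𝒪
      ∀ ρ ρ' : GaloisRepAdic (DualNumber (ResidueField 𝒪)), ρ.IsEquiv ρ' → 𝒟 ρ → 𝒟 ρ')
    (hbc : letI := dualNumberAlgebra 𝒪
      ∀ (ψ : DQ.R →ₐ[𝒪] DualNumber (ResidueField 𝒪))
        (hψ : IsLocalHom (ψ : DQ.R →+* DualNumber (ResidueField 𝒪))),
        Function.Surjective ψ →
          𝒟 (DQ.ρ.baseChangeAlong (ψ : DQ.R →+* DualNumber (ResidueField 𝒪)) hψ))
    (𝒮 : Submodule (ResidueField 𝒪) (GQ → Mat2 (ResidueField 𝒪))) (hfin : Finite 𝒮)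
    (hB : B1 (rbarHom ρbar S.b) 1 ≤ 𝒮)
    (hdef : DefCocycles 𝒪 𝒟 (rbarHom ρbar S.b) ⊆ 𝒮)
    (r : ℕ)
    (hcard : Nat.card 𝒮 ≤ Nat.card (ResidueField 𝒪) ^ r * Nat.card (B1 (rbarHom ρbar S.b) 1)) :
    ∃ γ : MvPowerSeries (Fin r) 𝒪 →ₐ[𝒪] DQ.R, Function.Surjective γ := by
  letI := dualNumberAlgebra 𝒪
  have hT := isArtinianTestAlgebra_dualNumber (𝒪 := 𝒪)
  have hres := hT.residue_surjective
  have hloc : ∀ φ : DQ.R →ₐ[𝒪] DualNumber (ResidueField 𝒪),
      IsLocalHom (φ : DQ.R →+* DualNumber (ResidueField 𝒪)) := fun φ => isLocalHom_algHom hres φ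
  obtain ⟨Φ, hfst, hmodel, hinj, htriv⟩ := exists_tangent_matrix_model_strong DQ S hbc
  -- the tangent cocycles lie in `𝒮`
  have hmem : ∀ φ : DQ.R →ₐ[𝒪] DualNumber (ResidueField 𝒪), tanCocycle (Φ φ) ∈ 𝒮 := by
    intro φ
    by_cases hφs : Function.Surjective φ
    · apply hdef
      obtain ⟨hc, he⟩ := hmodel φ (hloc φ)
      exact ⟨Φ φ, hc, eq_liftMat_tanCocycle _ _ (hfst φ), hequiv _ _ he (hbc φ (hloc φ) hφs)⟩
    · have h0 : tanCocycle (Φ φ) = 0 := funext fun σ => htriv φ hφs σ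
      rw [h0]
      exact 𝒮.zero_mem
  -- the quotient `𝒮 / B¹`
  let B' : Submodule (ResidueField 𝒪) 𝒮 := (B1 (rbarHom ρbar S.b) 1).comap 𝒮.subtype
  have hcardB : Nat.card B' = Nat.card (B1 (rbarHom ρbar S.b) 1) :=
    Nat.card_congr (Submodule.comapSubtypeEquivOfLe hB).toEquiv
  have hmul : Nat.card 𝒮 = Nat.card B' * Nat.card (↥𝒮 ⧸ B') :=
    Submodule.card_eq_card_quotient_mul_card B'
  have hBpos : 0 < Nat.card B' := Nat.card_pos
  haveI : Finite (↥𝒮 ⧸ B') := Finite.of_surjective _ (Submodule.Quotient.mk_surjective B')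
  have hι : Nat.card (↥𝒮 ⧸ B') ≤ Nat.card (ResidueField 𝒪) ^ r := by
    rw [hmul, hcardB.symm, mul_comm] at hcard
    exact Nat.le_of_mul_le_mul_right hcard hBpos
  refine exists_surjective_mvPowerSeries_of_injective DQ.residue_surjective r hι
    (fun φ => Submodule.Quotient.mk ⟨tanCocycle (Φ φ), hmem φ⟩) ?_
  intro φ ψ hφψ
  rw [Submodule.Quotient.eq] at hφψ
  have hB1 : tanCocycle (Φ φ) - tanCocycle (Φ ψ) ∈ B1 (rbarHom ρbar S.b) 1 := hφψ
  obtain ⟨X, -, hX⟩ := (mem_B1 _ _ _).1 hB1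
  refine hinj φ ψ X fun σ => ?_
  have h := hX σ
  rw [adAct_apply, Pi.sub_apply] at h
  have h1 : (((1 : GQ →* (ResidueField 𝒪)ˣ) σ : (ResidueField 𝒪)ˣ) : ResidueField 𝒪) = 1 := rfl
  rw [h1, one_smul] at h
  rw [← neg_sub, h, neg_sub]

end Core

end

end Fermat.Agent.TW
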