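/-
TW (S56), task TW-C2: containment.  The cocycle of a first-order lift of type `𝒟_Q`
(strict-ordinary or flat at `p`, cyclotomic determinant, unramified outside `Smin ∪ Q`, unipotent on
inertia at the primes of `Smin ∖ {p}`) lies in the Selmer space `SelSpace rb p Smin Q Lp`, as soon
as the local condition `Lp` at `p` contains the cocycles of the local lifts of the given type.

The only non-formal point is the class at `q ∈ Smin`, `q ≠ p`: there the lift is unipotent on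
inertia and `rb` is ramified, so the cocycle is a coboundary on inertia
(`Contain.exists_cob_of_unipotent`, which uses the procyclicity of tame inertia in the form
`TameProp`, proved in `Lib/TameProp.lean`).
-/
import Mathlib
import Fermat.Agent.TW.Basic
import Fermat.Agent.TW.TangentLift
import Fermat.Agent.TW.ResHyp
import Fermat.Agent.Lib.PlaceConj
import Fermat.Agent.TW.Contain.Unip
import Fermat.Agent.Lib.TameProp

set_option autoImplicit false

namespace Fermat.Agent.TW.Contain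

open Fermat.Agent.S53 Fermat.Agent.TW IsLocalRing Polynomial TangentLift

noncomputable section

variable {k : Type} [Field k]

/-- The tame-inertia input (`Lib/Tame.lean`, `tame_proportional`): two level-constant additive
functions on an inertia group at `q ≠ p` with values in a field of characteristic `p` are
proportional. -/
def TameProp (k : Type) [Field k] (p : ℕ) : Prop :=
  ∀ q : ℕ, q.Prime → q ≠ p → ∀ P : ValuationSubring (AlgebraicClosure ℚ), P.LiesOverPrime q →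
    ∀ f g : GQ → k,
      (∀ σ ∈ P.inertiaSubgroupIn ℚ, ∀ τ ∈ P.inertiaSubgroupIn ℚ, f (σ * τ) = f σ + f τ) →
      LevelConst f →
      (∀ σ ∈ P.inertiaSubgroupIn ℚ, ∀ τ ∈ P.inertiaSubgroupIn ℚ, g (σ * τ) = g σ + g τ) →
      LevelConst g →
      (∃ σ ∈ P.inertiaSubgroupIn ℚ, g σ ≠ 0) → ∃ x : k, ∀ σ ∈ P.inertiaSubgroupIn ℚ, f σ = x * g σ

theorem fstM_liftMat (rb : GQ →* Mat2 k) (c : GQ → Mat2 k) (σ : GQ) :
    fstM (liftMat rb c σ) = rb σ := by
  ext i j
  simp [fstM_apply, liftMat_apply]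

theorem sndM_liftMat (rb : GQ →* Mat2 k) (c : GQ → Mat2 k) (σ : GQ) :
    sndM (liftMat rb c σ) = c σ * rb σ := by
  ext i j
  simp [sndM_apply, liftMat_apply]

/-- The tangent cocycle of the lift attached to `c` is `c`. -/
theorem tanCocycle_eq_of_lift (rb : GQ →* Mat2 k) (c : GQ → Mat2 k)
    (r : GQ →* Mat2 (DualNumber k)) (hrc : ∀ σ, r σ = liftMat rb c σ) (σ : GQ) :
    tanCocycle r σ = c σ := by
  unfold tanCocycle
  rw [hrc, hrc, sndM_liftMat, fstM_liftMat, mul_assoc, rb_mul_rb_inv, mul_one]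

/-- Every element of `GQ` acts on the `p`-th roots of unity by some power. -/
theorem exists_cyclo_exponent (p : ℕ) [Fact p.Prime] (σ : GQ) :
    ∃ a : ℕ, ∀ μ : AlgebraicClosure ℚ, μ ^ p = 1 → σ μ = μ ^ a := by
  have hp : p.Prime := Fact.out
  have : NeZero (p : ℚ) := ⟨by exact_mod_cast hp.ne_zero⟩
  have : NeZero p := ⟨hp.ne_zero⟩
  obtain ⟨ζ, hζ⟩ := HasEnoughRootsOfUnity.exists_primitiveRoot (AlgebraicClosure ℚ) p
  have h1 : (σ ζ) ^ p = 1 := by rw [← map_pow, hζ.pow_eq_one, map_one]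
  obtain ⟨a, -, ha⟩ := hζ.eq_pow_of_pow_eq_one h1
  refine ⟨a, fun μ hμ => ?_⟩
  obtain ⟨j, -, hj⟩ := hζ.eq_pow_of_pow_eq_one hμ
  rw [← hj, map_pow, ← ha, ← pow_mul, ← pow_mul, mul_comm]

/-- A first-order lift with cyclotomic determinant has determinants without `ε`-term. -/
theorem det_snd_eq_zero_of_lift (p : ℕ) [Fact p.Prime] (hp : (p : k) = 0)
    (r : GQ →* Mat2 (DualNumber k)) (hr : MatCont r)
    (hdet : (repOfMat r hr).DetIsCyclotomic p) (σ : GQ) : ((r σ).det).snd = 0 := by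
  obtain ⟨a, ha⟩ := exists_cyclo_exponent p σ
  have h1 := hdet.2 1 σ a (by simpa using ha)
  have h0 : ((p ^ 1 : ℕ) : DualNumber k) = 0 := by
    rw [pow_one]
    refine TrivSqZeroExt.ext ?_ ?_
    · rw [TrivSqZeroExt.fst_natCast, hp, TrivSqZeroExt.fst_zero]
    · rw [TrivSqZeroExt.snd_natCast, TrivSqZeroExt.snd_zero]
  rw [h0, Ideal.span_singleton_eq_bot.mpr rfl, Ideal.mem_bot, sub_eq_zero] at h1
  have h2 : LinearMap.det ((repOfMat r hr).ρ σ) = (r σ).det := LinearMap.det_toLin' (r σ)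
  rw [← h2, h1, TrivSqZeroExt.snd_natCast]

/-- The cocycle of a first-order lift with cyclotomic determinant is a (trace-zero, continuous)
cocycle. -/
theorem mem_Z1_of_lift (rb : GQ →* Mat2 k) (p : ℕ) [Fact p.Prime] (hp : (p : k) = 0)
    (c : GQ → Mat2 k) (r : GQ →* Mat2 (DualNumber k)) (hr : MatCont r)
    (hrc : ∀ σ, r σ = liftMat rb c σ) (hdet : (repOfMat r hr).DetIsCyclotomic p) :
    c ∈ Z1 rb 1 := by
  have hfst : ∀ σ, fstM (r σ) = rb σ := fun σ => by rw [hrc, fstM_liftMat]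
  have htan := tanCocycle_eq_of_lift rb c r hrc
  refine ⟨fun σ => ?_, fun σ τ => ?_, ?_⟩
  · rw [← htan]
    exact trace_tanCocycle_eq_zero r σ (det_snd_eq_zero_of_lift p hp r hr hdet σ)
  · have h1 := tanCocycle_mul r σ τ
    rw [htan, htan, htan, hfst, hfst] at h1
    rw [h1, adAct_apply, one_hom_apply_coe, one_smul]
  · obtain ⟨L, hL, -, h2⟩ := exists_tanCocycle_levelConstant r hr
    refine ⟨L, hL, fun g s hs => ?_⟩
    rw [← htan, ← htan, h2 g s hs]

/-- If the linear action of `σ` is trivial, so is its matrix. -/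
theorem eq_one_of_rho_eq_one (r : GQ →* Mat2 (DualNumber k)) (hr : MatCont r) (σ : GQ)
    (h : (repOfMat r hr).ρ σ = 1) : r σ = 1 := by
  have h1 : Matrix.toLin' (r σ) = Matrix.toLin' (1 : Mat2 (DualNumber k)) := by
    rw [Matrix.toLin'_one]
    exact h
  exact Matrix.toLin'.injective h1

/-- The cocycle of a lift vanishes where the lift is trivial. -/
theorem eq_zero_of_lift_eq_one (rb : GQ →* Mat2 k) (c : GQ → Mat2 k)
    (r : GQ →* Mat2 (DualNumber k)) (hrc : ∀ σ, r σ = liftMat rb c σ) (σ : GQ) (h : r σ = 1) :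
    c σ = 0 := by
  rw [← tanCocycle_eq_of_lift rb c r hrc σ]
  unfold tanCocycle
  rw [h, sndM_one, zero_mul]

/-- Trace and determinant of a matrix over `k[ε]` with characteristic polynomial `(X - 1)²`. -/
theorem trace_det_of_charpoly (M : Mat2 (DualNumber k))
    (h : M.charpoly = (X - 1) ^ 2) : M.trace = 2 ∧ M.det = 1 := by
  rw [Matrix.charpoly_fin_two] at h
  have key : (C (M.trace - 2) * X + C (1 - M.det) : (DualNumber k)[X]) = 0 := by
    have e : (X - 1 : (DualNumber k)[X]) ^ 2 = X ^ 2 - C 2 * X + C 1 := by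
      simp only [map_ofNat, map_one]
      ring
    rw [e] at h
    simp only [map_sub]
    linear_combination (-1 : (DualNumber k)[X]) * h
  have e1 := congrArg (fun f => f.coeff 1) key
  have e0 := congrArg (fun f => f.coeff 0) key
  simp [Polynomial.coeff_one] at e1 e0
  exact ⟨sub_eq_zero.1 e1, (sub_eq_zero.1 e0).symm⟩

/-- The unipotent clause, read off the matrices: on an element acting with characteristic
polynomial `(X - 1)²`, `rb` has trace `2` and determinant `1`, and `tr (c σ * rb σ) = 0`. -/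
theorem unip_of_lift (rb : GQ →* Mat2 k) (c : GQ → Mat2 k)
    (r : GQ →* Mat2 (DualNumber k)) (hr : MatCont r) (hrc : ∀ σ, r σ = liftMat rb c σ) (σ : GQ)
    (h : LinearMap.charpoly ((repOfMat r hr).ρ σ) = (X - 1) ^ 2) :
    ((rb σ).trace = 2 ∧ (rb σ).det = 1) ∧ (c σ * rb σ).trace = 0 := by
  have h1 : LinearMap.charpoly ((repOfMat r hr).ρ σ) = (r σ).charpoly :=
    Matrix.charpoly_toLin' (r σ)
  obtain ⟨ht, hd⟩ := trace_det_of_charpoly (r σ) (h1.symm.trans h)
  have ht1 : ((r σ).trace).fst = (fstM (r σ)).trace := by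
    simp [Matrix.trace_fin_two, fstM_apply]
  have ht2 : ((r σ).trace).snd = (sndM (r σ)).trace := by
    simp [Matrix.trace_fin_two, sndM_apply]
  have hd1 : ((r σ).det).fst = (fstM (r σ)).det := by
    simp [Matrix.det_fin_two, fstM_apply]
  rw [hrc, fstM_liftMat, ← hrc] at ht1 hd1
  rw [hrc, sndM_liftMat, ← hrc] at ht2
  have two_fst : ((2 : DualNumber k)).fst = 2 := by
    rw [← one_add_one_eq_two, TrivSqZeroExt.fst_add, TrivSqZeroExt.fst_one, one_add_one_eq_two]
  have two_snd : ((2 : DualNumber k)).snd = 0 := by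
    rw [← one_add_one_eq_two, TrivSqZeroExt.snd_add, TrivSqZeroExt.snd_one, add_zero]
  refine ⟨⟨?_, ?_⟩, ?_⟩
  · rw [← ht1, ht, two_fst]
  · rw [← hd1, hd, TrivSqZeroExt.fst_one]
  · rw [← ht2, ht, two_snd]

/-- **Containment, generic form.**  The cocycle of a first-order lift `r = (1 + ε c) rb` with
cyclotomic determinant, unramified outside `Smin ∪ Q`, unipotent on inertia at the primes of
`Smin ∖ {p}` (where `rb` is ramified), and whose restrictions at `p` satisfy `Lp`, lies in the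
Selmer space. -/
theorem mem_selSpace_of_lift {rb : GQ →* Mat2 k} (p : ℕ) [Fact p.Prime] (hp2 : p ≠ 2)
    (h : ResidualHyp rb p) (Smin Q : Finset ℕ) (hSp : ∀ q ∈ Smin, q.Prime)
    (hram : ∀ q ∈ Smin, q ≠ p → ∃ P : ValuationSubring (AlgebraicClosure ℚ),
      P.LiesOverPrime q ∧ ∃ σ ∈ P.inertiaSubgroupIn ℚ, rb σ ≠ 1)
    (htame : TameProp k p) (Lp : LocFamily k)
    (c : GQ → Mat2 k) (r : GQ →* Mat2 (DualNumber k)) (hr : MatCont r)
    (hrc : ∀ σ, r σ = liftMat rb c σ)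
    (hdet : (repOfMat r hr).DetIsCyclotomic p)
    (hunr : ∀ q : ℕ, q.Prime → q ∉ Smin ∪ Q → (repOfMat r hr).IsUnramifiedAt q)
    (hunip : ∀ q ∈ Smin, q.Prime → q ≠ p → (repOfMat r hr).IsUnipotentOnInertiaAt q)
    (hLp : ∀ P : ValuationSubring (AlgebraicClosure ℚ), P.LiesOverPrime p →
      resOn (P.decompositionSubgroup ℚ) c ∈ Lp P) :
    c ∈ SelSpace rb p Smin Q Lp := by
  have hcZ : c ∈ Z1 rb 1 := mem_Z1_of_lift rb p h.charP c r hr hrc hdet
  have h2 : (2 : k) ≠ 0 := ResHyp.two_ne_zero_of_natCast_eq_zero p hp2 h.charP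
  have hlc : ∀ φ : Mat2 k → Mat2 k → k, LevelConst (fun σ => φ (c σ) (rb σ)) := by
    intro φ
    obtain ⟨F, hF, hF'⟩ := hcZ.2.2
    obtain ⟨F', hF2, hF2'⟩ := h.finiteLevel
    refine ⟨F ⊔ F', IntermediateField.finiteDimensional_sup F F', fun g s hs => ?_⟩
    have e1 : c (g * s) = c g := hF' g s fun x hx => hs x ((le_sup_left : F ≤ F ⊔ F') hx)
    have e2 : rb s = 1 := hF2' s fun x hx => hs x ((le_sup_right : F' ≤ F ⊔ F') hx)
    show φ (c (g * s)) (rb (g * s)) = φ (c g) (rb g)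
    rw [e1, map_mul, e2, mul_one]
  refine ⟨hcZ, fun ℓ hℓ hn P hP σ hσ => ?_, fun q hq hqp P hP => ?_, hLp⟩
  · exact eq_zero_of_lift_eq_one rb c r hrc σ
      (eq_one_of_rho_eq_one r hr σ (hunr ℓ hℓ hn P hP σ hσ))
  · have hqpr : q.Prime := hSp q hq
    have hU := fun σ (hσ : σ ∈ P.inertiaSubgroupIn ℚ) =>
      unip_of_lift rb c r hr hrc σ (hunip q hq hqpr hqp P hP σ hσ)
    have hne : ∃ σ ∈ P.inertiaSubgroupIn ℚ, rb σ ≠ 1 := by
      obtain ⟨P', hP', σ₀, hσ₀, hne⟩ := hram q hq hqp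
      obtain ⟨τ, -, hI, -⟩ := Fermat.Agent.Lib.PlaceConj.exists_conj hqpr P' P hP' hP
      refine ⟨τ * σ₀ * τ⁻¹, (hI σ₀).2 hσ₀, fun h1 => hne ?_⟩
      have e : rb σ₀ = rb τ⁻¹ * rb (τ * σ₀ * τ⁻¹) * rb τ := by
        rw [← map_mul, ← map_mul]
        congr 1
        group
      rw [e, h1, mul_one, rb_inv_mul_rb]
    obtain ⟨X, hX, hX'⟩ := exists_cob_of_unipotent h2 (P.inertiaSubgroupIn ℚ) rb c
      (fun σ hσ => (hU σ hσ).1) (fun σ _ => hcZ.1 σ) (fun σ hσ => (hU σ hσ).2)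
      (fun σ _ τ _ => by
        rw [hcZ.2.1 σ τ, adAct_apply, one_hom_apply_coe, one_smul])
      hne
      (fun φ ψ hφ hψ hψ0 => htame q hqpr hqp P hP (fun σ => φ (c σ) (rb σ))
        (fun σ => ψ (c σ) (rb σ)) hφ (hlc φ) hψ (hlc ψ) hψ0)
    refine ⟨X, hX, fun σ hσ => ?_⟩
    rw [hX' σ hσ, adAct_apply, one_hom_apply_coe, one_smul]

end

end Fermat.Agent.TW.Contain

namespace Fermat.Agent.TW

open Fermat.Agent.S53 IsLocalRing Polynomial

noncomputable section

variable {𝒪 : Type} [CommRing 𝒪] [IsDomain 𝒪] [IsDiscreteValuationRing 𝒪]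

/-- **TW-C2, strict-ordinary case** (with the tame-inertia input as a hypothesis). -/
theorem defCocycles_so_subset_of_tame (p : ℕ) [Fact p.Prime] (hp2 : p ≠ 2)
    (rb : GQ →* Mat2 (ResidueField 𝒪)) (h : ResidualHyp rb p) (Smin Q : Finset ℕ)
    (hSp : ∀ q ∈ Smin, q.Prime)
    (hram : ∀ q ∈ Smin, q ≠ p → ∃ P : ValuationSubring (AlgebraicClosure ℚ),
      P.LiesOverPrime q ∧ ∃ σ ∈ P.inertiaSubgroupIn ℚ, rb σ ≠ 1)
    (htame : Contain.TameProp (ResidueField 𝒪) p)
    (Lp : LocFamily (ResidueField 𝒪))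
    (hLp : ∀ P : ValuationSubring (AlgebraicClosure ℚ), P.LiesOverPrime p →
      ∀ (c : GQ → Mat2 (ResidueField 𝒪)) (r : GQ →* Mat2 (DualNumber (ResidueField 𝒪)))
        (hr : MatCont r), (∀ σ, r σ = liftMat rb c σ) → (repOfMat r hr).DetIsCyclotomic p →
        (repOfMat r hr).IsStrictOrdinaryAt p → resOn (P.decompositionSubgroup ℚ) c ∈ Lp P) :
    DefCocycles 𝒪 (soCond 𝒪 p Smin Q) rb ⊆ SelSpace rb p Smin Q Lp := by
  rintro c ⟨r, hr, hrc, ⟨hdet, hso, hunr⟩, hunip⟩
  exact Contain.mem_selSpace_of_lift p hp2 h Smin Q hSp hram htame Lp c r hr hrc hdet hunr hunip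
    fun P hP => hLp P hP c r hr hrc hdet hso

/-- **TW-C2, flat case** (with the tame-inertia input as a hypothesis). -/
theorem defCocycles_fl_subset_of_tame (p : ℕ) [Fact p.Prime] (hp2 : p ≠ 2)
    (rb : GQ →* Mat2 (ResidueField 𝒪)) (h : ResidualHyp rb p) (Smin Q : Finset ℕ)
    (hSp : ∀ q ∈ Smin, q.Prime)
    (hram : ∀ q ∈ Smin, q ≠ p → ∃ P : ValuationSubring (AlgebraicClosure ℚ),
      P.LiesOverPrime q ∧ ∃ σ ∈ P.inertiaSubgroupIn ℚ, rb σ ≠ 1)
    (htame : Contain.TameProp (ResidueField 𝒪) p)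
    (Lp : LocFamily (ResidueField 𝒪))
    (hLp : ∀ P : ValuationSubring (AlgebraicClosure ℚ), P.LiesOverPrime p →
      ∀ (c : GQ → Mat2 (ResidueField 𝒪)) (r : GQ →* Mat2 (DualNumber (ResidueField 𝒪)))
        (hr : MatCont r), (∀ σ, r σ = liftMat rb c σ) → (repOfMat r hr).DetIsCyclotomic p →
        (repOfMat r hr).IsFlatAt p → resOn (P.decompositionSubgroup ℚ) c ∈ Lp P) :
    DefCocycles 𝒪 (flCond 𝒪 p Smin Q) rb ⊆ SelSpace rb p Smin Q Lp := by
  rintro c ⟨r, hr, hrc, ⟨hdet, hfl, hunr⟩, hunip⟩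
  exact Contain.mem_selSpace_of_lift p hp2 h Smin Q hSp hram htame Lp c r hr hrc hdet hunr hunip
    fun P hP => hLp P hP c r hr hrc hdet hfl

/-- The tame-inertia input holds (`Lib/TameProp.lean`). -/
theorem Contain.tameProp {k : Type} [Field k] (p : ℕ) [Fact p.Prime] (hk : (p : k) = 0) :
    Contain.TameProp k p :=
  fun q hq hqp P hP f g hf hfc hg hgc hg0 =>
    Fermat.Agent.Lib.TameProp.tame_proportional p q Fact.out hq hqp hk P hP f g hf hfc hg hgc hg0

/-- **TW-C2, strict-ordinary case**: the cocycles of the first-order deformations of type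
`soCond` lie in the Selmer space, as soon as `Lp` contains the cocycles of the strict-ordinary
local lifts at `p`. -/
theorem defCocycles_so_subset [Finite (ResidueField 𝒪)] (p : ℕ) [Fact p.Prime] (hp2 : p ≠ 2)
    (rb : GQ →* Mat2 (ResidueField 𝒪)) (h : ResidualHyp rb p) (Smin Q : Finset ℕ)
    (_hpS : p ∈ Smin) (hSp : ∀ q ∈ Smin, q.Prime)
    (hram : ∀ q ∈ Smin, q ≠ p → ∃ P : ValuationSubring (AlgebraicClosure ℚ),
      P.LiesOverPrime q ∧ ∃ σ ∈ P.inertiaSubgroupIn ℚ, rb σ ≠ 1)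
    (Lp : LocFamily (ResidueField 𝒪))
    (hLp : ∀ P : ValuationSubring (AlgebraicClosure ℚ), P.LiesOverPrime p →
      ∀ (c : GQ → Mat2 (ResidueField 𝒪)) (r : GQ →* Mat2 (DualNumber (ResidueField 𝒪)))
        (hr : MatCont r), (∀ σ, r σ = liftMat rb c σ) → (repOfMat r hr).DetIsCyclotomic p →
        (repOfMat r hr).IsStrictOrdinaryAt p → resOn (P.decompositionSubgroup ℚ) c ∈ Lp P) :
    DefCocycles 𝒪 (soCond 𝒪 p Smin Q) rb ⊆ SelSpace rb p Smin Q Lp :=
  defCocycles_so_subset_of_tame p hp2 rb h Smin Q hSp hram (Contain.tameProp p h.charP) Lp hLp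

/-- **TW-C2, flat case**: the cocycles of the first-order deformations of type `flCond` lie in
the Selmer space, as soon as `Lp` contains the cocycles of the flat local lifts at `p`. -/
theorem defCocycles_fl_subset [Finite (ResidueField 𝒪)] (p : ℕ) [Fact p.Prime] (hp2 : p ≠ 2)
    (rb : GQ →* Mat2 (ResidueField 𝒪)) (h : ResidualHyp rb p) (Smin Q : Finset ℕ)
    (_hpS : p ∈ Smin) (hSp : ∀ q ∈ Smin, q.Prime)
    (hram : ∀ q ∈ Smin, q ≠ p → ∃ P : ValuationSubring (AlgebraicClosure ℚ),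
      P.LiesOverPrime q ∧ ∃ σ ∈ P.inertiaSubgroupIn ℚ, rb σ ≠ 1)
    (Lp : LocFamily (ResidueField 𝒪))
    (hLp : ∀ P : ValuationSubring (AlgebraicClosure ℚ), P.LiesOverPrime p →
      ∀ (c : GQ → Mat2 (ResidueField 𝒪)) (r : GQ →* Mat2 (DualNumber (ResidueField 𝒪)))
        (hr : MatCont r), (∀ σ, r σ = liftMat rb c σ) → (repOfMat r hr).DetIsCyclotomic p →
        (repOfMat r hr).IsFlatAt p → resOn (P.decompositionSubgroup ℚ) c ∈ Lp P) :
    DefCocycles 𝒪 (flCond 𝒪 p Smin Q) rb ⊆ SelSpace rb p Smin Q Lp :=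
  defCocycles_fl_subset_of_tame p hp2 rb h Smin Q hSp hram (Contain.tameProp p h.charP) Lp hLp

end

end Fermat.Agent.TW
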