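/-
TW (S56, Taylor–Wiles primes): the abstract choice of the auxiliary primes.

From the two named hypotheses of `TW/Defs.lean`
* `GWBound` : `#𝒮(Q) ≤ #k ^ #Q · #{d ∈ D locally trivial on Q}` for a fixed finite "dual Selmer"
  space `D ⊇ B¹`,
* `KillHyp` : every class of `Z¹ ∖ B¹` is not locally trivial at some Taylor–Wiles prime of any level
  outside any finite set,
we get `r := dim D − dim B¹` and, for every level `n`, `r` distinct Taylor–Wiles primes of level `n`
with `#𝒮(Q) ≤ #k ^ r · #B¹`.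
-/
import Mathlib
import Fermat.Agent.TW.Defs

set_option autoImplicit false

namespace Fermat.Agent.TW

open Fermat.Agent.S53 IsLocalRing Polynomial Module

noncomputable section

variable {k : Type} [Field k]

/-- The cocycles of `D` which are locally trivial at all primes of `Q`. -/
def locTrivSub (rb : GQ →* Mat2 k) (χ : GQ →* kˣ) (D : Submodule k (GQ → Mat2 k))
    (Q : Finset ℕ) : Submodule k (GQ → Mat2 k) where
  carrier := {d | d ∈ D ∧ ∀ q ∈ Q, LocTrivAt rb χ d q}
  add_mem' := by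
    rintro d d' ⟨h1, h2⟩ ⟨h1', h2'⟩
    refine ⟨D.add_mem h1 h1', fun q hq P hP => ?_⟩
    obtain ⟨X, hX, hXd⟩ := h2 q hq P hP
    obtain ⟨X', hX', hXd'⟩ := h2' q hq P hP
    refine ⟨X + X', by rw [Matrix.trace_add, hX, hX', add_zero], fun σ hσ => ?_⟩
    rw [Pi.add_apply, hXd σ hσ, hXd' σ hσ, map_add]
    abel
  zero_mem' := ⟨D.zero_mem, fun q _ P _ =>
    ⟨0, Matrix.trace_zero _ _, fun σ _ => by rw [map_zero, sub_zero, Pi.zero_apply]⟩⟩
  smul_mem' := by
    rintro a d ⟨h1, h2⟩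
    refine ⟨D.smul_mem a h1, fun q hq P hP => ?_⟩
    obtain ⟨X, hX, hXd⟩ := h2 q hq P hP
    refine ⟨a • X, by rw [Matrix.trace_smul, hX, smul_zero], fun σ hσ => ?_⟩
    rw [Pi.smul_apply, hXd σ hσ, map_smul, smul_sub]

theorem mem_locTrivSub (rb : GQ →* Mat2 k) (χ : GQ →* kˣ) (D : Submodule k (GQ → Mat2 k))
    (Q : Finset ℕ) (d : GQ → Mat2 k) :
    d ∈ locTrivSub rb χ D Q ↔ d ∈ D ∧ ∀ q ∈ Q, LocTrivAt rb χ d q := Iff.rfl

theorem locTrivSub_le (rb : GQ →* Mat2 k) (χ : GQ →* kˣ) (D : Submodule k (GQ → Mat2 k))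
    (Q : Finset ℕ) : locTrivSub rb χ D Q ≤ D := fun _ h => h.1

theorem locTrivSub_empty (rb : GQ →* Mat2 k) (χ : GQ →* kˣ) (D : Submodule k (GQ → Mat2 k)) :
    locTrivSub rb χ D ∅ = D :=
  le_antisymm (locTrivSub_le rb χ D ∅) fun _ h => ⟨h, fun _ hq => absurd hq (Finset.notMem_empty _)⟩

theorem locTrivSub_anti (rb : GQ →* Mat2 k) (χ : GQ →* kˣ) (D : Submodule k (GQ → Mat2 k))
    {Q Q' : Finset ℕ} (h : Q ⊆ Q') : locTrivSub rb χ D Q' ≤ locTrivSub rb χ D Q :=
  fun _ hd => ⟨hd.1, fun q hq => hd.2 q (h hq)⟩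

/-- Global coboundaries are locally trivial everywhere. -/
theorem B1_le_locTrivSub (rb : GQ →* Mat2 k) (χ : GQ →* kˣ) (D : Submodule k (GQ → Mat2 k))
    (hB : B1 rb χ ≤ D) (Q : Finset ℕ) : B1 rb χ ≤ locTrivSub rb χ D Q := by
  intro d hd
  refine ⟨hB hd, fun q _ P _ => ?_⟩
  obtain ⟨X, hX, h⟩ := (mem_B1 rb χ d).1 hd
  exact ⟨X, hX, fun σ _ => h σ⟩

/-- The inductive choice: `j` Taylor–Wiles primes of level `n` which cut the dimension of the
locally trivial part of `D` down by `j`, or all the way down to `B¹`. -/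
theorem exists_tw_finset [Finite k] (rb : GQ →* Mat2 k) (χ : GQ →* kˣ) (p : ℕ) (S : Finset ℕ)
    (D : Submodule k (GQ → Mat2 k)) [Finite D] (hB1D : B1 rb χ ≤ D) (hDZ1 : D ≤ Z1 rb χ)
    (hKill : KillHyp rb χ p S) (n : ℕ) :
    ∀ j : ℕ, j + finrank k (B1 rb χ) ≤ finrank k D →
      ∃ Q : Finset ℕ, Q.card = j ∧ (∀ q ∈ Q, IsTWPrime rb p n S q) ∧
        (finrank k (locTrivSub rb χ D Q) + j ≤ finrank k D ∨
          locTrivSub rb χ D Q = B1 rb χ) := by
  have : Module.Finite k D := Module.Finite.of_finite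
  intro j
  induction j with
  | zero =>
    intro _
    exact ⟨∅, Finset.card_empty, fun q hq => absurd hq (Finset.notMem_empty _),
      Or.inl (by rw [locTrivSub_empty, add_zero])⟩
  | succ j ih =>
    intro hj
    obtain ⟨Q, hcard, hTW, hQ⟩ := ih (by omega)
    have hfinQ : Module.Finite k (locTrivSub rb χ D Q) :=
      Submodule.finiteDimensional_of_le (locTrivSub_le rb χ D Q)
    by_cases heq : locTrivSub rb χ D Q = B1 rb χ
    · -- already down to `B¹`: add any further Taylor–Wiles prime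
      have hne : ¬ D ≤ B1 rb χ := by
        intro hle
        have : finrank k D ≤ finrank k (B1 rb χ) := by
          rw [le_antisymm hle hB1D]
        omega
      obtain ⟨d₀, hd₀, hd₀'⟩ := SetLike.not_le_iff_exists.1 hne
      obtain ⟨q, hqQ, hq, -⟩ := hKill d₀ (hDZ1 hd₀) hd₀' n Q
      refine ⟨insert q Q, by rw [Finset.card_insert_of_notMem hqQ, hcard], ?_, Or.inr ?_⟩
      · intro q' hq'
        rcases Finset.mem_insert.1 hq' with rfl | hq'
        · exact hq
        · exact hTW q' hq'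
      · exact le_antisymm
          ((locTrivSub_anti rb χ D (Finset.subset_insert q Q)).trans heq.le)
          (B1_le_locTrivSub rb χ D hB1D _)
    · -- a class survives: kill it
      have hlt : B1 rb χ < locTrivSub rb χ D Q :=
        lt_of_le_of_ne (B1_le_locTrivSub rb χ D hB1D Q) (Ne.symm heq)
      obtain ⟨d, hd, hd'⟩ := SetLike.exists_of_lt hlt
      obtain ⟨q, hqQ, hq, hqd⟩ := hKill d (hDZ1 hd.1) hd' n Q
      have hlt' : locTrivSub rb χ D (insert q Q) < locTrivSub rb χ D Q := by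
        refine lt_of_le_of_ne (locTrivSub_anti rb χ D (Finset.subset_insert q Q)) fun h => ?_
        have hdm : d ∈ locTrivSub rb χ D (insert q Q) := by rw [h]; exact hd
        exact hqd (hdm.2 q (Finset.mem_insert_self q Q))
      have hfr := Submodule.finrank_lt_finrank_of_lt hlt'
      refine ⟨insert q Q, by rw [Finset.card_insert_of_notMem hqQ, hcard], ?_, Or.inl ?_⟩
      · intro q' hq'
        rcases Finset.mem_insert.1 hq' with rfl | hq'
        · exact hq
        · exact hTW q' hq'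
      · rcases hQ with hQ | hQ
        · omega
        · exact absurd hQ heq

/-- Level `n` Taylor–Wiles primes for `S` are level `0` Taylor–Wiles primes for any `Smin ⊆ S`. -/
theorem IsTWPrime.mono {rb : GQ →* Mat2 k} {p n : ℕ} {S Smin : Finset ℕ} (hSmin : Smin ⊆ S)
    {q : ℕ} (h : IsTWPrime rb p n S q) : IsTWPrime rb p 0 Smin q :=
  ⟨h.1, fun hq => h.2.1 (hSmin hq),
    (pow_dvd_pow p (Nat.succ_le_succ (Nat.zero_le n))).trans h.2.2.1, h.2.2.2⟩

/-- **TW-ABS.**  The abstract Taylor–Wiles choice of primes. -/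
theorem exists_tw_sets [Finite k] (rb : GQ →* Mat2 k) (χ : GQ →* kˣ) (p : ℕ)
    (S Smin : Finset ℕ) (hSmin : Smin ⊆ S) (𝒮 : Finset ℕ → Submodule k (GQ → Mat2 k))
    (hGW : GWBound rb χ (IsTWPrime rb p 0 Smin) 𝒮) (hKill : KillHyp rb χ p S) :
    ∃ r : ℕ, ∀ n : ℕ, ∃ qv : Fin r → ℕ, Function.Injective qv ∧
      (∀ i, IsTWPrime rb p n S (qv i)) ∧ Finite (𝒮 (Finset.univ.image qv)) ∧
      Nat.card (𝒮 (Finset.univ.image qv)) ≤ Nat.card k ^ r * Nat.card (B1 rb χ) := by
  obtain ⟨D, hDfin, hB1D, hDZ1, hGW⟩ := hGW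
  have : Module.Finite k D := Module.Finite.of_finite
  refine ⟨finrank k D - finrank k (B1 rb χ), fun n => ?_⟩
  have hmono : finrank k (B1 rb χ) ≤ finrank k D := Submodule.finrank_mono hB1D
  obtain ⟨Q, hcard, hTW, hQ⟩ := exists_tw_finset rb χ p S D hB1D hDZ1 hKill n
    (finrank k D - finrank k (B1 rb χ)) (by omega)
  have hfinQ : Module.Finite k (locTrivSub rb χ D Q) :=
    Submodule.finiteDimensional_of_le (locTrivSub_le rb χ D Q)
  have heq : locTrivSub rb χ D Q = B1 rb χ := by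
    rcases hQ with hQ | hQ
    · exact (Submodule.eq_of_le_of_finrank_le (B1_le_locTrivSub rb χ D hB1D Q) (by omega)).symm
    · exact hQ
  let e := Finset.equivFinOfCardEq hcard
  have himg : Finset.univ.image (fun i => ((e.symm i : Q) : ℕ)) = Q := by
    ext x
    simp only [Finset.mem_image, Finset.mem_univ, true_and]
    constructor
    · rintro ⟨i, rfl⟩
      exact (e.symm i).2
    · intro hx
      exact ⟨e ⟨x, hx⟩, by rw [Equiv.symm_apply_apply]⟩
  refine ⟨fun i => ((e.symm i : Q) : ℕ), Subtype.val_injective.comp e.symm.injective,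
    fun i => hTW _ (e.symm i).2, ?_⟩
  rw [himg]
  obtain ⟨hfin, hle⟩ := hGW Q fun q hq => (hTW q hq).mono hSmin
  refine ⟨hfin, ?_⟩
  have hc : Nat.card {d : D // ∀ q ∈ Q, LocTrivAt rb χ (d : GQ → Mat2 k) q} =
      Nat.card (B1 rb χ) := by
    rw [← heq]
    exact Nat.card_congr
      { toFun := fun d => ⟨d.1.1, d.1.2, d.2⟩
        invFun := fun d => ⟨⟨d.1, d.2.1⟩, d.2.2⟩
        left_inv := fun _ => rfl
        right_inv := fun _ => rfl }
  rw [hcard] at hle
  rw [← hc]
  exact hle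

end

end Fermat.Agent.TW
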