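/-
TW (S56): the assembly, generic in the deformation condition.

`exists_tw_mvPowerSeries_surjective`: for a family `cond Q` of deformation conditions indexed by
the auxiliary sets `Q`, the conclusion of (each conjunct of) S56 follows from
* (C1) `cond Q` over `k[ε]` is invariant under equivalence and holds for the push-forwards of the
  universal deformation along surjections to `k[ε]`;
* (C2) the cocycles of first-order deformations of type `cond Q` lie in a space `𝒮 Q ⊇ B¹`;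
* (GW) the Greenberg–Wiles bound `GWBound` for `𝒮`, (KILL) the killing hypothesis `KillHyp`;
* (H0) `#B¹(ad⁰(1)) = #B¹(ad⁰)`.
Also: the translations of the hypothesis `hmin` of S56 into the matrix form.
-/
import Mathlib
import Fermat.Agent.TW.Basic
import Fermat.Agent.TW.Abstract
import Fermat.Agent.TW.Core

set_option autoImplicit false

namespace Fermat.Agent.TW

open IsLocalRing Fermat.Agent.S53 TangentLift Polynomial

noncomputable section

variable {𝒪 : Type} [CommRing 𝒪] [IsDomain 𝒪] [IsDiscreteValuationRing 𝒪]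
  [IsAdicComplete (maximalIdeal 𝒪) 𝒪] [Finite (ResidueField 𝒪)]

/-- **The assembly of S56**, generic in the family of deformation conditions. -/
theorem exists_tw_mvPowerSeries_surjective
    (p : ℕ) (ρbar : ResidualGaloisRep (ResidueField 𝒪)) (S0 : Setup 𝒪 ρbar)
    (S Smin : Finset ℕ) (hSmin : Smin ⊆ S)
    (cond : Finset ℕ →
      ∀ ⦃A : Type⦄ [CommRing A] [IsLocalRing A] [Algebra 𝒪 A], GaloisRepAdic A → Prop)
    (hequiv : letI := dualNumberAlgebra 𝒪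
      ∀ (Q : Finset ℕ) (ρ ρ' : GaloisRepAdic (DualNumber (ResidueField 𝒪))),
        ρ.IsEquiv ρ' → cond Q ρ → cond Q ρ')
    (hbc : letI := dualNumberAlgebra 𝒪
      ∀ (Q : Finset ℕ) (DQ : GaloisRep.DeformationRingData 𝒪 ρbar (cond Q))
        (ψ : DQ.R →ₐ[𝒪] DualNumber (ResidueField 𝒪))
        (hψ : IsLocalHom (ψ : DQ.R →+* DualNumber (ResidueField 𝒪))),
        Function.Surjective ψ →
          cond Q (DQ.ρ.baseChangeAlong (ψ : DQ.R →+* DualNumber (ResidueField 𝒪)) hψ))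
    (𝒮 : Finset ℕ → Submodule (ResidueField 𝒪) (GQ → Mat2 (ResidueField 𝒪)))
    (hB : ∀ Q, B1 (rbarHom ρbar S0.b) 1 ≤ 𝒮 Q)
    (hdef : ∀ Q, DefCocycles 𝒪 (cond Q) (rbarHom ρbar S0.b) ⊆ 𝒮 Q)
    (hGW : GWBound (rbarHom ρbar S0.b) (detChar (rbarHom ρbar S0.b))
      (IsTWPrime (rbarHom ρbar S0.b) p 0 Smin) 𝒮)
    (hKill : KillHyp (rbarHom ρbar S0.b) (detChar (rbarHom ρbar S0.b)) p S)
    (hcardB : Nat.card (B1 (rbarHom ρbar S0.b) (detChar (rbarHom ρbar S0.b))) =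
      Nat.card (B1 (rbarHom ρbar S0.b) 1)) :
    ∃ r : ℕ, ∀ n : ℕ, ∃ qv : Fin r → ℕ, Function.Injective qv ∧
      (∀ i, (qv i).Prime ∧ qv i ∉ S ∧ p ^ (n + 1) ∣ qv i - 1) ∧
      (∀ i, ∀ P : ValuationSubring (AlgebraicClosure ℚ), P.LiesOverPrime (qv i) →
        ∀ φ : AlgebraicClosure ℚ ≃ₐ[ℚ] AlgebraicClosure ℚ, P.IsFrobeniusAt φ (qv i) →
          ∃ α β : ResidueField 𝒪, α ≠ β ∧
            LinearMap.charpoly (ρbar.ρ φ) = (X - C α) * (X - C β)) ∧
      ∀ DQ : GaloisRep.DeformationRingData 𝒪 ρbar (cond (Finset.univ.image qv)),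
        ∃ γ : MvPowerSeries (Fin r) 𝒪 →ₐ[𝒪] DQ.R, Function.Surjective γ := by
  obtain ⟨r, hr⟩ := exists_tw_sets (rbarHom ρbar S0.b) (detChar (rbarHom ρbar S0.b)) p S Smin
    hSmin 𝒮 hGW hKill
  refine ⟨r, fun n => ?_⟩
  obtain ⟨qv, hinj, hTW, hfin, hcard⟩ := hr n
  refine ⟨qv, hinj, fun i => ⟨(hTW i).1, (hTW i).2.1, (hTW i).2.2.1⟩,
    fun i P hP φ hφ => ?_, fun DQ => ?_⟩
  · obtain ⟨α, β, hne, h⟩ := (hTW i).2.2.2 P hP φ hφ
    refine ⟨α, β, hne, ?_⟩
    rw [← h, rbarHom_apply, LinearMap.charpoly_toMatrix]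
  · exact exists_surjective_mvPowerSeries_of_selmer_bound DQ S0 (hequiv _) (hbc _ DQ) (𝒮 _) hfin
      (hB _) (hdef _) r (by rw [← hcardB]; exact hcard)

omit [IsDomain 𝒪] [IsDiscreteValuationRing 𝒪] [IsAdicComplete (maximalIdeal 𝒪) 𝒪]
  [Finite (ResidueField 𝒪)] in
/-- `hmin` of S56, unramified half, in matrix form: `rb` is trivial on inertia outside `Smin`. -/
theorem rbarHom_unramified_of_hmin {k : Type} [Field k] (ρbar : ResidualGaloisRep k)
    (b : Module.Basis (Fin 2) k ρbar.V) (p : ℕ) (Smin : Finset ℕ) (hpSmin : p ∈ Smin)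
    (hmin : ∀ q : ℕ, q.Prime → q ≠ p → (q ∈ Smin ↔ ¬ ρbar.IsUnramifiedAt q)) :
    ∀ q : ℕ, q.Prime → q ∉ Smin → ∀ P : ValuationSubring (AlgebraicClosure ℚ),
      P.LiesOverPrime q → ∀ σ ∈ P.inertiaSubgroupIn ℚ, rbarHom ρbar b σ = 1 := by
  intro q hq hqS P hP σ hσ
  have hqp : q ≠ p := fun h => hqS (h ▸ hpSmin)
  have hunr : ρbar.IsUnramifiedAt q := by
    by_contra hne
    exact hqS ((hmin q hq hqp).2 hne)
  rw [rbarHom_apply, hunr P hP σ hσ]
  exact LinearMap.toMatrix_one b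

omit [IsDomain 𝒪] [IsDiscreteValuationRing 𝒪] [IsAdicComplete (maximalIdeal 𝒪) 𝒪]
  [Finite (ResidueField 𝒪)] in
/-- `hmin` of S56, ramified half, in matrix form: `rb` is ramified at the primes of `Smin ∖ {p}`. -/
theorem rbarHom_ramified_of_hmin {k : Type} [Field k] (ρbar : ResidualGaloisRep k)
    (b : Module.Basis (Fin 2) k ρbar.V) (p : ℕ) (Smin : Finset ℕ)
    (hS : ∀ q ∈ Smin, q.Prime)
    (hmin : ∀ q : ℕ, q.Prime → q ≠ p → (q ∈ Smin ↔ ¬ ρbar.IsUnramifiedAt q)) :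
    ∀ q ∈ Smin, q ≠ p → ∃ P : ValuationSubring (AlgebraicClosure ℚ),
      P.LiesOverPrime q ∧ ∃ σ ∈ P.inertiaSubgroupIn ℚ, rbarHom ρbar b σ ≠ 1 := by
  intro q hqS hqp
  have hram := (hmin q (hS q hqS) hqp).1 hqS
  unfold ResidualGaloisRep.IsUnramifiedAt at hram
  push Not at hram
  obtain ⟨P, hP, σ, hσ, hne⟩ := hram
  refine ⟨P, hP, σ, hσ, fun h => hne ?_⟩
  rw [rbarHom_apply] at h
  have h1 : LinearMap.toMatrix b b (ρbar.ρ σ) = LinearMap.toMatrix b b 1 := by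
    rw [h]
    exact (LinearMap.toMatrix_one b).symm
  exact (LinearMap.toMatrix b b).injective h1

end

end Fermat.Agent.TW
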