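/-
TW (S56): the deformation conditions `soCond` / `flCond` of `TW/Defs.lean` are invariant under
equivalence of representations and stable under base change along surjective local maps.

Main results (namespace `Fermat.Agent.TW`):
* `soCond_of_isEquiv`, `flCond_of_isEquiv`;
* `soCond_baseChangeAlong_of_surjective`, `flCond_baseChangeAlong_of_surjective`.

The component lemmas (for `DetIsCyclotomic`, `IsUnramifiedAt`, `IsUnipotentOnInertiaAt`,
`IsStrictOrdinaryAt`, `IsFlatAt`) are in the namespace `Fermat.Agent.TW.CondBaseChange`.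
-/
import Mathlib
import Fermat.Agent.TW.Defs

set_option autoImplicit false
set_option linter.style.haveILetI false
set_option linter.unusedSectionVars false

namespace Fermat.Agent.TW

open Fermat.Agent.S53 IsLocalRing TensorProduct

namespace CondBaseChange

section Equiv

variable {A : Type} [CommRing A] [IsLocalRing A]

/-- Under an equivalence `e : ρ ≃ ρ'`, the action of `ρ'` is the conjugate of that of `ρ`. -/
theorem rho_eq_conj {ρ ρ' : GaloisRepAdic A} (e : GaloisRepAdic.Equiv ρ ρ') (σ : GQ) :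
    ρ'.ρ σ = e.toLinearEquiv.conj (ρ.ρ σ) := by
  refine LinearMap.ext fun x => ?_
  rw [LinearEquiv.conj_apply, LinearMap.comp_apply, LinearMap.comp_apply, LinearEquiv.coe_coe,
    LinearEquiv.coe_coe, e.map_apply, LinearEquiv.apply_symm_apply]

theorem det_rho_eq {ρ ρ' : GaloisRepAdic A} (e : GaloisRepAdic.Equiv ρ ρ') (σ : GQ) :
    LinearMap.det (ρ'.ρ σ) = LinearMap.det (ρ.ρ σ) := by
  rw [rho_eq_conj e σ, LinearEquiv.conj_apply]
  exact LinearMap.det_conj (ρ.ρ σ) e.toLinearEquiv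

theorem charpoly_rho_eq {ρ ρ' : GaloisRepAdic A} (e : GaloisRepAdic.Equiv ρ ρ') (σ : GQ) :
    LinearMap.charpoly (ρ'.ρ σ) = LinearMap.charpoly (ρ.ρ σ) := by
  rw [rho_eq_conj e σ, LinearEquiv.charpoly_conj]

theorem detIsCyclotomic_of_equiv {ρ ρ' : GaloisRepAdic A} (e : GaloisRepAdic.Equiv ρ ρ')
    {p : ℕ} (h : ρ.DetIsCyclotomic p) : ρ'.DetIsCyclotomic p :=
  ⟨h.1, fun n σ a ha => by rw [det_rho_eq e σ]; exact h.2 n σ a ha⟩

theorem isUnramifiedAt_of_equiv {ρ ρ' : GaloisRepAdic A} (e : GaloisRepAdic.Equiv ρ ρ')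
    {q : ℕ} (h : ρ.IsUnramifiedAt q) : ρ'.IsUnramifiedAt q := fun P hP σ hσ => by
  rw [rho_eq_conj e σ, h P hP σ hσ]
  refine LinearMap.ext fun x => ?_
  rw [LinearEquiv.conj_apply, LinearMap.comp_apply, LinearMap.comp_apply, LinearEquiv.coe_coe,
    LinearEquiv.coe_coe, Module.End.one_apply, LinearEquiv.apply_symm_apply, Module.End.one_apply]

theorem isUnipotentOnInertiaAt_of_equiv {ρ ρ' : GaloisRepAdic A}
    (e : GaloisRepAdic.Equiv ρ ρ') {q : ℕ} (h : ρ.IsUnipotentOnInertiaAt q) :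
    ρ'.IsUnipotentOnInertiaAt q := fun P hP σ hσ => by
  rw [charpoly_rho_eq e σ]
  exact h P hP σ hσ

theorem isStrictOrdinaryAt_of_equiv {ρ ρ' : GaloisRepAdic A} (e : GaloisRepAdic.Equiv ρ ρ')
    {p : ℕ} (h : ρ.IsStrictOrdinaryAt p) : ρ'.IsStrictOrdinaryAt p := by
  refine ⟨h.1, fun P hP => ?_⟩
  obtain ⟨L, ⟨b, hb⟩, hD, hI, hxz⟩ := h.2 P hP
  have hmem : ∀ v : ρ'.V, v ∈ L.map (e.toLinearEquiv : ρ.V →ₗ[A] ρ'.V) ↔
      e.toLinearEquiv.symm v ∈ L := by
    intro v
    constructor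
    · rintro ⟨w, hw, rfl⟩
      rw [LinearEquiv.coe_coe, LinearEquiv.symm_apply_apply]
      exact hw
    · intro hv
      exact ⟨_, hv, by rw [LinearEquiv.coe_coe, LinearEquiv.apply_symm_apply]⟩
  have hsymm : ∀ (σ : GQ) (v : ρ'.V),
      e.toLinearEquiv.symm (ρ'.ρ σ v) = ρ.ρ σ (e.toLinearEquiv.symm v) := by
    intro σ v
    apply e.toLinearEquiv.injective
    rw [LinearEquiv.apply_symm_apply, e.map_apply, LinearEquiv.apply_symm_apply]
  refine ⟨L.map (e.toLinearEquiv : ρ.V →ₗ[A] ρ'.V), ⟨b.map e.toLinearEquiv, ?_⟩, ?_, ?_, ?_⟩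
  · rw [hb, Submodule.map_span, Set.image_singleton, Module.Basis.map_apply]
    rfl
  · intro σ hσ v hv
    rw [hmem] at hv ⊢
    rw [hsymm]
    exact hD σ hσ _ hv
  · intro σ hσ v
    rw [hmem, map_sub, hsymm]
    exact hI σ hσ _
  · intro σ hσ
    obtain ⟨x, z, h1, h2, h3⟩ := hxz σ hσ
    refine ⟨x, z, fun w hw => ?_, fun v => ?_, h3⟩
    · rw [hmem] at hw
      apply e.toLinearEquiv.symm.injective
      rw [hsymm, map_smul]
      exact h1 _ hw
    · rw [hmem, map_sub, hsymm, map_smul]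
      exact h2 _

/-- The additive equivalence of the quotients modulo `I` induced by an equivalence. -/
theorem exists_quotEquiv_of_equiv {ρ ρ' : GaloisRepAdic A} (e : GaloisRepAdic.Equiv ρ ρ')
    (I : Ideal A) :
    ∃ T : (ρ.V ⧸ (I • (⊤ : Submodule A ρ.V))) ≃ₗ[A] (ρ'.V ⧸ (I • (⊤ : Submodule A ρ'.V))),
      ∀ (σ : GQ) (x : ρ.V ⧸ (I • (⊤ : Submodule A ρ.V))),
        T (ρ.levelAction I σ x) = ρ'.levelAction I σ (T x) := by
  have hmap : (I • (⊤ : Submodule A ρ.V)).map (e.toLinearEquiv : ρ.V →ₗ[A] ρ'.V) =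
      I • (⊤ : Submodule A ρ'.V) := by
    rw [Submodule.map_smul'', Submodule.map_top, LinearEquiv.range]
  refine ⟨Submodule.Quotient.equiv _ _ e.toLinearEquiv hmap, fun σ x => ?_⟩
  obtain ⟨v, rfl⟩ := Submodule.Quotient.mk_surjective _ x
  show Submodule.Quotient.mk (e.toLinearEquiv (ρ.ρ σ v)) =
    Submodule.Quotient.mk (ρ'.ρ σ (e.toLinearEquiv v))
  rw [e.map_apply]

theorem isFlatAt_of_equiv {ρ ρ' : GaloisRepAdic A} (e : GaloisRepAdic.Equiv ρ ρ')
    {p : ℕ} (h : ρ.IsFlatAt p) : ρ'.IsFlatAt p := by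
  refine ⟨h.1, fun I hI => ?_⟩
  obtain ⟨H, i1, i2, h1, h2, h3, ε, hε1, hε2⟩ := h.2 I hI
  obtain ⟨T, hT⟩ := exists_quotEquiv_of_equiv e I
  refine ⟨H, i1, i2, h1, h2, h3, ε.trans T.toEquiv, fun f g => ?_, fun σ f g hfg => ?_⟩
  · rw [Equiv.trans_apply, Equiv.trans_apply, Equiv.trans_apply, hε1]
    exact map_add T _ _
  · rw [Equiv.trans_apply, Equiv.trans_apply, hε2 σ f g hfg]
    exact hT σ _

end Equiv

section Coord

/-- Membership in `I • ⊤` of a free module is coordinatewise membership in `I`. -/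
theorem mem_smul_top_iff_repr {R M ι : Type*} [CommRing R] [AddCommGroup M] [Module R M]
    (b : Module.Basis ι R M) (I : Ideal R) (x : M) :
    x ∈ I • (⊤ : Submodule R M) ↔ ∀ i, b.repr x i ∈ I := by
  constructor
  · intro hx
    refine Submodule.smul_induction_on hx (fun a ha m _ i => ?_) (fun x y hx hy i => ?_)
    · rw [map_smul, Finsupp.smul_apply, smul_eq_mul]
      exact I.mul_mem_right _ ha
    · rw [map_add, Finsupp.add_apply]
      exact I.add_mem (hx i) (hy i)
  · intro h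
    rw [← b.linearCombination_repr x, Finsupp.linearCombination_apply]
    exact Submodule.sum_mem _ fun i _ => Submodule.smul_mem_smul (h i) Submodule.mem_top

/-- Every endomorphism preserves `I • ⊤`. -/
theorem smul_top_le_comap {R M : Type*} [CommRing R] [AddCommGroup M] [Module R M]
    (I : Ideal R) (f : M →ₗ[R] M) :
    I • (⊤ : Submodule R M) ≤ (I • (⊤ : Submodule R M)).comap f := by
  rw [← Submodule.map_le_iff_le_comap, Submodule.map_smul'']
  exact Submodule.smul_mono le_rfl le_top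

end Coord

section BaseChangeModule

variable {A B : Type} [CommRing A] [CommRing B] [Algebra A B] {V : Type} [AddCommGroup V]
  [Module A V]

/-- For a surjective `A → B`, every element of `B ⊗[A] V` is of the form `1 ⊗ v`. -/
theorem exists_one_tmul_eq (hs : Function.Surjective (algebraMap A B)) (w : B ⊗[A] V) :
    ∃ v : V, (1 : B) ⊗ₜ[A] v = w := by
  induction w using TensorProduct.induction_on with
  | zero => exact ⟨0, TensorProduct.tmul_zero _ _⟩
  | tmul c v =>
    obtain ⟨a, rfl⟩ := hs c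
    refine ⟨a • v, ?_⟩
    rw [TensorProduct.tmul_smul, TensorProduct.smul_tmul', Algebra.smul_def, mul_one]
  | add x y hx hy =>
    obtain ⟨v, rfl⟩ := hx
    obtain ⟨v', rfl⟩ := hy
    exact ⟨v + v', TensorProduct.tmul_add _ _ _⟩

/-- For a surjective `A → B`, an ideal `I` of `B` and a free `A`-module `V`, the quotient of
`B ⊗[A] V` by `I` is the quotient of `V` by the preimage of `I`, compatibly with the maps induced
by the endomorphisms of `V`. -/
theorem exists_quotEquiv_baseChange [Module.Free A V]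
    (hs : Function.Surjective (algebraMap A B)) (I : Ideal B) :
    ∃ T : (V ⧸ ((I.comap (algebraMap A B)) • (⊤ : Submodule A V))) ≃+
        ((B ⊗[A] V) ⧸ (I • (⊤ : Submodule B (B ⊗[A] V)))),
      ∀ (f : V →ₗ[A] V) (x : V ⧸ ((I.comap (algebraMap A B)) • (⊤ : Submodule A V))),
        T (Submodule.mapQ _ _ f (smul_top_le_comap _ f) x) =
          Submodule.mapQ _ _ (f.baseChange B) (smul_top_le_comap I (f.baseChange B)) (T x) := by
  let g : V →ₗ[A] ((B ⊗[A] V) ⧸ (I • (⊤ : Submodule B (B ⊗[A] V)))) :=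
    ((I • (⊤ : Submodule B (B ⊗[A] V))).mkQ.restrictScalars A).comp (TensorProduct.mk A B V 1)
  have hg : ∀ v : V, g v = Submodule.Quotient.mk ((1 : B) ⊗ₜ[A] v) := fun v => rfl
  let b := Module.Free.chooseBasis A V
  have hker : ∀ v : V, g v = 0 ↔ v ∈ (I.comap (algebraMap A B)) • (⊤ : Submodule A V) := by
    intro v
    rw [hg, Submodule.Quotient.mk_eq_zero, mem_smul_top_iff_repr (b.baseChange B),
      mem_smul_top_iff_repr b]
    refine forall_congr' fun i => ?_
    rw [Module.Basis.baseChange_repr_tmul, Ideal.mem_comap, Algebra.smul_def, mul_one]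
  have hle : (I.comap (algebraMap A B)) • (⊤ : Submodule A V) ≤ LinearMap.ker g :=
    fun v hv => (hker v).2 hv
  have hinj : Function.Injective (Submodule.liftQ _ g hle) := by
    rw [← LinearMap.ker_eq_bot]
    exact Submodule.ker_liftQ_eq_bot _ g hle fun v hv => (hker v).1 hv
  have hsurj : Function.Surjective (Submodule.liftQ _ g hle) := by
    intro y
    obtain ⟨w, rfl⟩ := Submodule.Quotient.mk_surjective _ y
    obtain ⟨v, rfl⟩ := exists_one_tmul_eq hs w
    exact ⟨Submodule.Quotient.mk v, rfl⟩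
  refine ⟨(LinearEquiv.ofBijective (Submodule.liftQ _ g hle) ⟨hinj, hsurj⟩).toAddEquiv,
    fun f x => ?_⟩
  obtain ⟨v, rfl⟩ := Submodule.Quotient.mk_surjective _ x
  show Submodule.Quotient.mk ((1 : B) ⊗ₜ[A] f v) =
    Submodule.Quotient.mk (f.baseChange B ((1 : B) ⊗ₜ[A] v))
  rw [LinearMap.baseChange_tmul]

/-- The base change of a line spanned by a basis vector, with the properties of the
(strict) ordinary condition. -/
theorem exists_line_baseChange (L : Submodule A V) (b : Module.Basis (Fin 2) A V)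
    (hb : L = A ∙ b 0) :
    ∃ L' : Submodule B (B ⊗[A] V),
      (∃ b' : Module.Basis (Fin 2) B (B ⊗[A] V), L' = B ∙ b' 0) ∧
      (∀ f : V →ₗ[A] V, (∀ v ∈ L, f v ∈ L) → ∀ v ∈ L', f.baseChange B v ∈ L') ∧
      (∀ f : V →ₗ[A] V, (∀ v, f v - v ∈ L) → ∀ v, f.baseChange B v - v ∈ L') ∧
      (∀ (f : V →ₗ[A] V) (x : A), (∀ w ∈ L, f w = x • w) →
        ∀ w ∈ L', f.baseChange B w = algebraMap A B x • w) ∧
      (∀ (f : V →ₗ[A] V) (z : A), (∀ v, f v - z • v ∈ L) →
        ∀ v, f.baseChange B v - algebraMap A B z • v ∈ L') := by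
  -- a `B`-linear endomorphism mapping all pure tensors into `L'` has range in `L'`
  have hrange : ∀ g : (B ⊗[A] V) →ₗ[B] (B ⊗[A] V),
      (∀ (c : B) (w : V), g (c ⊗ₜ[A] w) ∈ L.baseChange B) →
      ∀ v : B ⊗[A] V, g v ∈ L.baseChange B := by
    intro g hg v
    induction v using TensorProduct.induction_on with
    | zero => rw [map_zero]; exact Submodule.zero_mem _
    | tmul c w => exact hg c w
    | add x y hx hy => rw [map_add]; exact Submodule.add_mem _ hx hy
  refine ⟨L.baseChange B, ⟨b.baseChange B, ?_⟩, ?_, ?_, ?_, ?_⟩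
  · rw [hb, Submodule.baseChange_span, Set.image_singleton, Module.Basis.baseChange_apply]
    rfl
  · intro f hf v hv
    have hle : L.baseChange B ≤ (L.baseChange B).comap (f.baseChange B) := by
      conv_lhs => rw [Submodule.baseChange_eq_span]
      refine Submodule.span_le.2 ?_
      rintro _ ⟨w, hw, rfl⟩
      show f.baseChange B ((1 : B) ⊗ₜ[A] w) ∈ L.baseChange B
      rw [LinearMap.baseChange_tmul]
      exact Submodule.tmul_mem_baseChange_of_mem _ (hf w hw)
    exact hle hv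
  · intro f hf v
    have h1 := hrange (f.baseChange B - LinearMap.id) (fun c w => ?_) v
    · rwa [LinearMap.sub_apply, LinearMap.id_apply] at h1
    · rw [LinearMap.sub_apply, LinearMap.id_apply, LinearMap.baseChange_tmul,
        ← TensorProduct.tmul_sub]
      exact Submodule.tmul_mem_baseChange_of_mem _ (hf w)
  · intro f x hf w hw
    have hle : L.baseChange B ≤
        LinearMap.eqLocus (f.baseChange B) (algebraMap A B x • LinearMap.id) := by
      conv_lhs => rw [Submodule.baseChange_eq_span]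
      refine Submodule.span_le.2 ?_
      rintro _ ⟨u, hu, rfl⟩
      show f.baseChange B ((1 : B) ⊗ₜ[A] u) =
        (algebraMap A B x • LinearMap.id) ((1 : B) ⊗ₜ[A] u)
      rw [LinearMap.baseChange_tmul, hf u hu, LinearMap.smul_apply, LinearMap.id_apply,
        TensorProduct.tmul_smul, algebraMap_smul]
    exact hle hw
  · intro f z hf v
    have h4 := hrange (f.baseChange B - algebraMap A B z • LinearMap.id) (fun c w => ?_) v
    · rwa [LinearMap.sub_apply, LinearMap.smul_apply, LinearMap.id_apply] at h4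
    · rw [LinearMap.sub_apply, LinearMap.smul_apply, LinearMap.id_apply,
        LinearMap.baseChange_tmul, algebraMap_smul, ← TensorProduct.tmul_smul,
        ← TensorProduct.tmul_sub]
      exact Submodule.tmul_mem_baseChange_of_mem _ (hf w)

end BaseChangeModule

section BaseChange

variable {A B : Type} [CommRing A] [IsLocalRing A] [CommRing B] [IsLocalRing B]

theorem natCast_mem_maximalIdeal_of_isLocalHom (φ : A →+* B) (hφ : IsLocalHom φ) {p : ℕ}
    (h : (p : A) ∈ maximalIdeal A) : (p : B) ∈ maximalIdeal B := by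
  have h1 := map_nonunit φ (p : A) h
  rwa [map_natCast] at h1

theorem map_mem_span_natCast (φ : A →+* B) {m : ℕ} {x : A}
    (h : x ∈ Ideal.span {(m : A)}) : φ x ∈ Ideal.span {(m : B)} := by
  obtain ⟨c, rfl⟩ := Ideal.mem_span_singleton'.1 h
  rw [map_mul, map_natCast]
  exact Ideal.mul_mem_left _ _ (Ideal.subset_span rfl)

theorem detIsCyclotomic_baseChangeAlong (φ : A →+* B) (hφ : IsLocalHom φ)
    {ρ : GaloisRepAdic A} {p : ℕ} (h : ρ.DetIsCyclotomic p) :
    (ρ.baseChangeAlong φ hφ).DetIsCyclotomic p := by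
  letI : Algebra A B := φ.toAlgebra
  refine ⟨natCast_mem_maximalIdeal_of_isLocalHom φ hφ h.1, fun n σ a ha => ?_⟩
  have h1 : LinearMap.det ((ρ.baseChangeAlong φ hφ).ρ σ) = φ (LinearMap.det (ρ.ρ σ)) :=
    LinearMap.det_baseChange (ρ.ρ σ)
  have h2 := map_mem_span_natCast φ (h.2 n σ a ha)
  rw [map_sub, map_natCast] at h2
  rw [h1]
  exact h2

theorem isUnramifiedAt_baseChangeAlong (φ : A →+* B) (hφ : IsLocalHom φ)
    {ρ : GaloisRepAdic A} {q : ℕ} (h : ρ.IsUnramifiedAt q) :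
    (ρ.baseChangeAlong φ hφ).IsUnramifiedAt q := fun P hP σ hσ => by
  letI : Algebra A B := φ.toAlgebra
  have h1 : (ρ.baseChangeAlong φ hφ).ρ σ = (ρ.ρ σ).baseChange B := rfl
  rw [h1, h P hP σ hσ]
  exact LinearMap.baseChange_one A ρ.V

theorem isUnipotentOnInertiaAt_baseChangeAlong (φ : A →+* B) (hφ : IsLocalHom φ)
    {ρ : GaloisRepAdic A} {q : ℕ} (h : ρ.IsUnipotentOnInertiaAt q) :
    (ρ.baseChangeAlong φ hφ).IsUnipotentOnInertiaAt q := fun P hP σ hσ => by
  letI : Algebra A B := φ.toAlgebra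
  have h1 : LinearMap.charpoly ((ρ.baseChangeAlong φ hφ).ρ σ) =
      (LinearMap.charpoly (ρ.ρ σ)).map φ := LinearMap.charpoly_baseChange (ρ.ρ σ) B
  rw [h1, h P hP σ hσ]
  simp

theorem isStrictOrdinaryAt_baseChangeAlong (φ : A →+* B) (hφ : IsLocalHom φ)
    {ρ : GaloisRepAdic A} {p : ℕ} (h : ρ.IsStrictOrdinaryAt p) :
    (ρ.baseChangeAlong φ hφ).IsStrictOrdinaryAt p := by
  letI : Algebra A B := φ.toAlgebra
  refine ⟨natCast_mem_maximalIdeal_of_isLocalHom φ hφ h.1, fun P hP => ?_⟩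
  obtain ⟨L, ⟨b, hb⟩, hD, hI, hxz⟩ := h.2 P hP
  obtain ⟨L', hb', hp1, hp2, hp3, hp4⟩ := exists_line_baseChange (B := B) L b hb
  refine ⟨L', hb', fun σ hσ => hp1 (ρ.ρ σ) (hD σ hσ), fun σ hσ => hp2 (ρ.ρ σ) (hI σ hσ),
    fun σ hσ => ?_⟩
  obtain ⟨x, z, h1, h2, h3⟩ := hxz σ hσ
  refine ⟨φ x, φ z, hp3 (ρ.ρ σ) x h1, hp4 (ρ.ρ σ) z h2, fun n a ha => ?_⟩
  have h5 := map_mem_span_natCast φ (h3 n a ha)
  rwa [map_sub, map_mul, map_natCast] at h5

theorem finite_residueField_of_surjective (φ : A →+* B) (hφ : IsLocalHom φ)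
    (hs : Function.Surjective φ) [Finite (ResidueField A)] : Finite (ResidueField B) := by
  refine Finite.of_surjective (ResidueField.map φ) fun y => ?_
  obtain ⟨c, rfl⟩ := residue_surjective y
  obtain ⟨a, rfl⟩ := hs c
  exact ⟨residue A a, ResidueField.map_residue φ a⟩

theorem isFlatAt_baseChangeAlong_of_surjective (φ : A →+* B) (hφ : IsLocalHom φ)
    (hs : Function.Surjective φ) {ρ : GaloisRepAdic A} {p : ℕ} (h : ρ.IsFlatAt p) :
    (ρ.baseChangeAlong φ hφ).IsFlatAt p := by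
  letI : Algebra A B := φ.toAlgebra
  haveI := h.1
  refine ⟨finite_residueField_of_surjective φ hφ hs, fun I hI => ?_⟩
  have hfin : Finite (A ⧸ I.comap φ) :=
    Finite.of_injective _ (Ideal.quotientMap_injective (I := I) (f := φ))
  obtain ⟨H, i1, i2, h1, h2, h3, ε, hε1, hε2⟩ := h.2 (I.comap φ) hfin
  obtain ⟨T, hT⟩ := exists_quotEquiv_baseChange (V := ρ.V) (B := B) hs I
  exact ⟨H, i1, i2, h1, h2, h3, ε.trans T.toEquiv,
    fun f g => (congrArg T (hε1 f g)).trans (map_add T _ _),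
    fun σ f g hfg => (congrArg T (hε2 σ f g hfg)).trans (hT (ρ.ρ σ) (ε f))⟩

end BaseChange

end CondBaseChange

section Main

variable {𝒪 : Type} [CommRing 𝒪] (p : ℕ) (Smin Q : Finset ℕ) {A B : Type} [CommRing A]
  [IsLocalRing A] [Algebra 𝒪 A] [CommRing B] [IsLocalRing B] [Algebra 𝒪 B]

open CondBaseChange

/-- The strict-ordinary condition is invariant under equivalence. -/
theorem soCond_of_isEquiv {ρ ρ' : GaloisRepAdic A} (e : ρ.IsEquiv ρ')
    (h : soCond 𝒪 p Smin Q ρ) : soCond 𝒪 p Smin Q ρ' := by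
  obtain ⟨e⟩ := e
  obtain ⟨⟨h1, h2, h3⟩, h4⟩ := h
  exact ⟨⟨detIsCyclotomic_of_equiv e h1, isStrictOrdinaryAt_of_equiv e h2,
    fun q hq hqS => isUnramifiedAt_of_equiv e (h3 q hq hqS)⟩,
    fun q hqS hq hqp => isUnipotentOnInertiaAt_of_equiv e (h4 q hqS hq hqp)⟩

/-- The flat condition is invariant under equivalence. -/
theorem flCond_of_isEquiv {ρ ρ' : GaloisRepAdic A} (e : ρ.IsEquiv ρ')
    (h : flCond 𝒪 p Smin Q ρ) : flCond 𝒪 p Smin Q ρ' := by
  obtain ⟨e⟩ := e
  obtain ⟨⟨h1, h2, h3⟩, h4⟩ := h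
  exact ⟨⟨detIsCyclotomic_of_equiv e h1, isFlatAt_of_equiv e h2,
    fun q hq hqS => isUnramifiedAt_of_equiv e (h3 q hq hqS)⟩,
    fun q hqS hq hqp => isUnipotentOnInertiaAt_of_equiv e (h4 q hqS hq hqp)⟩

/-- The strict-ordinary condition is stable under base change along a surjective local map. -/
theorem soCond_baseChangeAlong_of_surjective (φ : A →ₐ[𝒪] B)
    (hφ : IsLocalHom (φ : A →+* B)) (_hs : Function.Surjective φ) {ρ : GaloisRepAdic A}
    (h : soCond 𝒪 p Smin Q ρ) :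
    soCond 𝒪 p Smin Q (ρ.baseChangeAlong (φ : A →+* B) hφ) := by
  obtain ⟨⟨h1, h2, h3⟩, h4⟩ := h
  exact ⟨⟨detIsCyclotomic_baseChangeAlong _ hφ h1, isStrictOrdinaryAt_baseChangeAlong _ hφ h2,
    fun q hq hqS => isUnramifiedAt_baseChangeAlong _ hφ (h3 q hq hqS)⟩,
    fun q hqS hq hqp => isUnipotentOnInertiaAt_baseChangeAlong _ hφ (h4 q hqS hq hqp)⟩

/-- The flat condition is stable under base change along a surjective local map. -/
theorem flCond_baseChangeAlong_of_surjective (φ : A →ₐ[𝒪] B)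
    (hφ : IsLocalHom (φ : A →+* B)) (hs : Function.Surjective φ) {ρ : GaloisRepAdic A}
    (h : flCond 𝒪 p Smin Q ρ) :
    flCond 𝒪 p Smin Q (ρ.baseChangeAlong (φ : A →+* B) hφ) := by
  obtain ⟨⟨h1, h2, h3⟩, h4⟩ := h
  exact ⟨⟨detIsCyclotomic_baseChangeAlong _ hφ h1,
    isFlatAt_baseChangeAlong_of_surjective _ hφ hs h2,
    fun q hq hqS => isUnramifiedAt_baseChangeAlong _ hφ (h3 q hq hqS)⟩,
    fun q hqS hq hqp => isUnipotentOnInertiaAt_baseChangeAlong _ hφ (h4 q hqS hq hqp)⟩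

end Main

end Fermat.Agent.TW
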