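/-
TW (S56), support for TW-KILL: conjugacy of Frobenius elements.

* `isFrobeniusAt_iff` : valuation-theoretic form of the Prelude's `IsFrobeniusAt`.
* `isFrobeniusAt_conj` : `τ σ τ⁻¹` is a Frobenius at `τ • A` if `σ` is one at `A`.
* `inv_mul_mem_inertiaSubgroupIn` : two Frobenius elements at `A` differ by inertia.
* `exists_smul_eq_of_liesOverPrime` : the valuation subrings of `AlgebraicClosure ℚ` over a prime
  `ℓ` are conjugate under the Galois group.
* `exists_conj_of_isFrobeniusAt` : a homomorphism unramified at `ℓ` takes conjugate values on all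
  Frobenius elements at `ℓ`.
-/
import Mathlib
import Fermat.Prelude.Def_EllipticCurve_FrobeniusTrace
import Fermat.Prelude.Def_FLTPrelim_Ramification
import Fermat.Agent.Lib.FrobeniusExists
import Fermat.Agent.Frob.Cyclo

set_option autoImplicit false

namespace Fermat.Agent.TW.FrobConj

open scoped Pointwise
open Fermat.Agent.Lib.FrobeniusExists

local notation "Qb" => AlgebraicClosure ℚ
local notation "GQ" => (AlgebraicClosure ℚ ≃ₐ[ℚ] AlgebraicClosure ℚ)
local notation "Zb" => integralClosure ℤ (AlgebraicClosure ℚ)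

section General

variable {K L : Type*} [Field K] [Field L] [Algebra K L]

/-- Non-units of a valuation subring: zero, or the inverse is not in the subring. -/
theorem mem_nonunits_iff_inv_notMem (A : ValuationSubring L) (x : L) :
    x ∈ A.nonunits ↔ x = 0 ∨ x⁻¹ ∉ A := by
  rw [A.mem_nonunits_iff]
  rcases eq_or_ne x 0 with rfl | hx
  · simp
  · rw [← A.valuation_le_one_iff, map_inv₀, not_le]
    have h0 : A.valuation x ≠ 0 := (Valuation.ne_zero_iff _).mpr hx
    constructor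
    · intro h
      exact Or.inr ((one_lt_inv₀ (zero_lt_iff.mpr h0)).mpr h)
    · rintro (h | h)
      · exact absurd h hx
      · exact (one_lt_inv₀ (zero_lt_iff.mpr h0)).mp h

/-- An automorphism `τ` maps the non-units of `A` to the non-units of `τ • A`. -/
theorem apply_mem_nonunits_smul (A : ValuationSubring L) (τ : L ≃ₐ[K] L) {x : L}
    (hx : x ∈ A.nonunits) : τ x ∈ (τ • A).nonunits := by
  rw [mem_nonunits_iff_inv_notMem] at hx ⊢
  rcases hx with h | h
  · left
    rw [h, map_zero]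
  · right
    intro h2
    apply h
    rw [ValuationSubring.mem_pointwise_smul_iff_inv_smul_mem] at h2
    have e2 : τ⁻¹ • (τ x)⁻¹ = x⁻¹ := by
      rw [← map_inv₀]
      show τ⁻¹ (τ _) = _
      exact τ.symm_apply_apply _
    rwa [e2] at h2

/-- Valuation-theoretic form of `IsFrobeniusAt`. -/
theorem isFrobeniusAt_iff {A : ValuationSubring L} {σ : L ≃ₐ[K] L} {q : ℕ} :
    A.IsFrobeniusAt σ q ↔
      σ ∈ A.decompositionSubgroup K ∧ ∀ b ∈ A, σ b - b ^ q ∈ A.nonunits := by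
  constructor
  · intro h
    exact ⟨h.mem_decompositionSubgroup, fun b hb =>
      Fermat.Agent.Frob.cy_isFrobeniusAt_sub_pow_mem h hb⟩
  · rintro ⟨hσ, h⟩
    refine ⟨hσ, fun y => ?_⟩
    obtain ⟨x, rfl⟩ := IsLocalRing.residue_surjective y
    rw [← IsLocalRing.ResidueField.residue_smul, ← map_pow, ← sub_eq_zero, ← map_sub,
      IsLocalRing.residue_eq_zero_iff, ← ValuationSubring.coe_mem_nonunits_iff]
    exact h x x.2

/-- Conjugating a Frobenius element: `τ σ τ⁻¹` is a Frobenius at `τ • A`. -/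
theorem isFrobeniusAt_conj {A : ValuationSubring L} {σ : L ≃ₐ[K] L} {q : ℕ}
    (h : A.IsFrobeniusAt σ q) (τ : L ≃ₐ[K] L) :
    (τ • A).IsFrobeniusAt (τ * σ * τ⁻¹) q := by
  rw [isFrobeniusAt_iff] at h ⊢
  obtain ⟨hσ, hf⟩ := h
  have hσA : σ • A = A := hσ
  refine ⟨?_, fun y hy => ?_⟩
  · show (τ * σ * τ⁻¹) • (τ • A) = τ • A
    rw [smul_smul, inv_mul_cancel_right, mul_smul, hσA]
  · rw [ValuationSubring.mem_pointwise_smul_iff_inv_smul_mem] at hy
    have h1 := hf _ hy
    have e : (τ * σ * τ⁻¹) y - y ^ q = τ (σ (τ⁻¹ • y) - (τ⁻¹ • y) ^ q) := by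
      have h3 : τ (τ⁻¹ • y) = y := τ.apply_symm_apply y
      rw [map_sub, map_pow, h3]
      rfl
    rw [e]
    exact apply_mem_nonunits_smul A τ h1

/-- Two Frobenius elements at the same valuation subring differ by an element of inertia. -/
theorem inv_mul_mem_inertiaSubgroupIn {A : ValuationSubring L} {σ σ' : L ≃ₐ[K] L} {q : ℕ}
    (h : A.IsFrobeniusAt σ q) (h' : A.IsFrobeniusAt σ' q) :
    σ⁻¹ * σ' ∈ A.inertiaSubgroupIn K := by
  obtain ⟨hσ, hf⟩ := h
  obtain ⟨hσ', hf'⟩ := h'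
  refine ⟨(⟨σ, hσ⟩ : A.decompositionSubgroup K)⁻¹ * ⟨σ', hσ'⟩, ?_, rfl⟩
  show _ ∈ A.inertiaSubgroup K
  rw [ValuationSubring.inertiaSubgroup, MonoidHom.mem_ker]
  ext x
  show ((⟨σ, hσ⟩ : A.decompositionSubgroup K)⁻¹ * ⟨σ', hσ'⟩) • x = x
  rw [mul_smul, hf', ← hf, inv_smul_smul]

end General

section Galois

attribute [local instance] isAlgClosure_rat isGalois_rat galAction galAction_smulCommClass
  galAction_isInvariant zbTopology zbDiscrete galAction_continuousSMul

/-- The centre on the ring of algebraic integers of a valuation subring over `ℓ`. -/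
theorem exists_center {ℓ : ℕ} (hℓ : ℓ.Prime) (B : ValuationSubring Qb)
    (hB : B.LiesOverPrime ℓ) :
    ∃ Q : Ideal Zb, Q.IsPrime ∧ Ideal.span {(ℓ : ℤ)} = Q.under ℤ ∧
      ∀ b : Zb, b ∈ Q ↔ B.valuation (b : Qb) < 1 := by
  have : Fact ℓ.Prime := ⟨hℓ⟩
  have hvℓ : B.valuation (ℓ : Qb) < 1 := B.mem_nonunits_iff.mp hB
  have hle : (Zb).toSubring ≤ B.toSubring := fun b hb =>
    (B.valuation_le_one_iff b).mp (val_le_one_of_isIntegral B.valuation hb)
  let Q : Ideal Zb := (IsLocalRing.maximalIdeal B).comap (Subring.inclusion hle)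
  have hQmem : ∀ b : Zb, b ∈ Q ↔ B.valuation (b : Qb) < 1 := fun b => by
    show Subring.inclusion hle b ∈ IsLocalRing.maximalIdeal B ↔ _
    rw [B.valuation_lt_one_iff]
    rfl
  have hQprime : Q.IsPrime := Ideal.comap_isPrime _ _
  have hPmax : (Ideal.span {(ℓ : ℤ)}).IsMaximal := Int.ideal_span_isMaximal_of_prime ℓ
  refine ⟨Q, hQprime, ?_, hQmem⟩
  refine hPmax.eq_of_le ?_ ?_
  · intro h
    have h1 : (1 : ℤ) ∈ Q.under ℤ := h ▸ Submodule.mem_top
    rw [Ideal.under_def, Ideal.mem_comap, map_one, hQmem] at h1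
    simp at h1
  · rw [Ideal.span_singleton_le_iff_mem, Ideal.under_def, Ideal.mem_comap, hQmem]
    simpa using hvℓ

/-- Membership in a valuation subring over `ℓ` in terms of algebraic integers. -/
theorem val_le_one_iff_exists_integral {ℓ : ℕ} (hℓ : ℓ.Prime) (B : ValuationSubring Qb)
    (hB : B.LiesOverPrime ℓ) (x : Qb) :
    B.valuation x ≤ 1 ↔
      ∃ s : Qb, IsIntegral ℤ s ∧ B.valuation s = 1 ∧ IsIntegral ℤ (s * x) := by
  have hvℓ : B.valuation (ℓ : Qb) < 1 := B.mem_nonunits_iff.mp hB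
  constructor
  · intro hx
    exact exists_unit_mul_isIntegral B.valuation hℓ hvℓ (isAlgebraic_int x) hx
  · rintro ⟨s, -, hs1, hsx⟩
    have h1 := val_le_one_of_isIntegral B.valuation hsx
    rwa [map_mul, hs1, one_mul] at h1

/-- The valuation subrings of `AlgebraicClosure ℚ` lying over a prime `ℓ` are conjugate under the
Galois group. -/
theorem exists_smul_eq_of_liesOverPrime {ℓ : ℕ} (hℓ : ℓ.Prime)
    (A P : ValuationSubring (AlgebraicClosure ℚ)) (hA : A.LiesOverPrime ℓ)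
    (hP : P.LiesOverPrime ℓ) :
    ∃ τ : AlgebraicClosure ℚ ≃ₐ[ℚ] AlgebraicClosure ℚ, τ • A = P := by
  obtain ⟨QA, hQAp, hQAu, hQA⟩ := exists_center hℓ A hA
  obtain ⟨QP, hQPp, hQPu, hQP⟩ := exists_center hℓ P hP
  obtain ⟨g, hg⟩ := Algebra.IsInvariant.exists_smul_of_under_eq_of_profinite (A := ℤ) (G := GQ)
    QA QP (hQAu.symm.trans hQPu)
  refine ⟨g, ?_⟩
  have hinv : ∀ b : Qb, g (g⁻¹ b) = b := fun b => by
    show (g * g⁻¹) b = b
    rw [mul_inv_cancel]
    rfl
  have hinv' : ∀ b : Qb, g⁻¹ (g b) = b := fun b => by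
    show (g⁻¹ * g) b = b
    rw [inv_mul_cancel]
    rfl
  -- transport of the centres
  have hlt : ∀ b : Qb, IsIntegral ℤ b → (P.valuation (g b) < 1 ↔ A.valuation b < 1) := by
    intro b hb
    have h1 := hQP ⟨g b, map_isIntegral_int g hb⟩
    have h2 := hQA ⟨b, hb⟩
    rw [← h1, ← h2, hg, Ideal.mem_pointwise_smul_iff_inv_smul_mem]
    have e : g⁻¹ • (⟨g b, map_isIntegral_int g hb⟩ : Zb) = ⟨b, hb⟩ := Subtype.ext (hinv' b)
    rw [e]
  have hone : ∀ b : Qb, IsIntegral ℤ b → (P.valuation (g b) = 1 ↔ A.valuation b = 1) := by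
    intro b hb
    have h1 := val_le_one_of_isIntegral P.valuation (map_isIntegral_int g hb)
    have h2 := val_le_one_of_isIntegral A.valuation hb
    have h3 := hlt b hb
    constructor
    · intro h
      by_contra hne
      have := h3.mpr (lt_of_le_of_ne h2 hne)
      rw [h] at this
      exact lt_irrefl _ this
    · intro h
      by_contra hne
      have := h3.mp (lt_of_le_of_ne h1 hne)
      rw [h] at this
      exact lt_irrefl _ this
  ext x
  rw [ValuationSubring.mem_pointwise_smul_iff_inv_smul_mem]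
  show g⁻¹ x ∈ A ↔ x ∈ P
  rw [← A.valuation_le_one_iff, ← P.valuation_le_one_iff,
    val_le_one_iff_exists_integral hℓ A hA, val_le_one_iff_exists_integral hℓ P hP]
  constructor
  · rintro ⟨s, hs, hs1, hsx⟩
    refine ⟨g s, map_isIntegral_int g hs, (hone s hs).mpr hs1, ?_⟩
    have h1 := map_isIntegral_int g hsx
    rwa [map_mul, hinv] at h1
  · rintro ⟨t, ht, ht1, htx⟩
    have hs : IsIntegral ℤ (g⁻¹ t) := map_isIntegral_int g⁻¹ ht
    refine ⟨g⁻¹ t, hs, ?_, ?_⟩
    · rw [← hone _ hs, hinv]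
      exact ht1
    · have h1 := map_isIntegral_int g⁻¹ htx
      rwa [map_mul] at h1

/-- A homomorphism on the Galois group which is unramified at `ℓ` takes conjugate values on all
Frobenius elements at `ℓ`. -/
theorem exists_conj_of_isFrobeniusAt {M : Type*} [Monoid M]
    (f : (AlgebraicClosure ℚ ≃ₐ[ℚ] AlgebraicClosure ℚ) →* M) {ℓ : ℕ} (hℓ : ℓ.Prime)
    (hunr : ∀ P : ValuationSubring (AlgebraicClosure ℚ), P.LiesOverPrime ℓ →
      ∀ σ ∈ P.inertiaSubgroupIn ℚ, f σ = 1)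
    (A P : ValuationSubring (AlgebraicClosure ℚ)) (hA : A.LiesOverPrime ℓ)
    (hP : P.LiesOverPrime ℓ) (σ φ : AlgebraicClosure ℚ ≃ₐ[ℚ] AlgebraicClosure ℚ)
    (hσ : A.IsFrobeniusAt σ ℓ) (hφ : P.IsFrobeniusAt φ ℓ) :
    ∃ τ : AlgebraicClosure ℚ ≃ₐ[ℚ] AlgebraicClosure ℚ, f φ = f τ * f σ * f τ⁻¹ := by
  obtain ⟨τ, hτ⟩ := exists_smul_eq_of_liesOverPrime hℓ A P hA hP
  refine ⟨τ, ?_⟩
  have h1 : P.IsFrobeniusAt (τ * σ * τ⁻¹) ℓ := hτ ▸ isFrobeniusAt_conj hσ τ
  have h2 := hunr P hP _ (inv_mul_mem_inertiaSubgroupIn h1 hφ)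
  rw [map_mul] at h2
  calc f φ = f (τ * σ * τ⁻¹) * (f (τ * σ * τ⁻¹)⁻¹ * f φ) := by
        rw [← mul_assoc, ← map_mul, mul_inv_cancel, map_one, one_mul]
    _ = f τ * f σ * f τ⁻¹ := by rw [h2, mul_one, map_mul, map_mul]

end Galois

end Fermat.Agent.TW.FrobConj
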