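/-
TW (S56), task TW-KILL: the killing hypothesis `KillHyp` for the `det`-twisted adjoint cocycles.

`killHyp_of_regular` : `KillHyp rb (detChar rb) p S` from the group-theoretic input of TW-R8
(`exists_regular_semisimple_nontrivial`, taken as the explicit hypothesis `hreg`) and the
Frobenius density theorem `Fermat.Agent.Frob.exists_frobenius_generating`.
-/
import Mathlib
import Fermat.Agent.TW.Defs
import Fermat.Agent.TW.Hyp
import Fermat.Agent.TW.FrobConj
import Fermat.Agent.Frob.Main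
import Fermat.Agent.Frob.Cyclo
import Fermat.Agent.Lib.GalQbar

set_option autoImplicit false

namespace Fermat.Agent.TW

open Fermat.Agent.S53 IsLocalRing Polynomial

noncomputable section

namespace Kill

variable {k : Type} [Field k]

/-- An eigenvector of `M` is an eigenvector of its powers. -/
theorem pow_mulVec_of_mulVec (M : Mat2 k) (v : Fin 2 → k) (a : k) (h : M.mulVec v = a • v)
    (j : ℕ) : (M ^ j).mulVec v = a ^ j • v := by
  induction j with
  | zero => rw [pow_zero, pow_zero, Matrix.one_mulVec, one_smul]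
  | succ j ih =>
    rw [pow_succ, ← Matrix.mulVec_mulVec, h, Matrix.mulVec_smul, ih, smul_smul, pow_succ,
      mul_comm]

/-- A root of the characteristic polynomial has an eigenvector. -/
theorem exists_eigenvector_of_charpoly (M : Mat2 k) (a b : k)
    (h : M.charpoly = (X - C a) * (X - C b)) : ∃ v : Fin 2 → k, v ≠ 0 ∧ M.mulVec v = a • v := by
  have h1 : (Matrix.scalar (Fin 2) a - M).det = 0 := by
    rw [← Matrix.eval_charpoly, h]
    simp
  obtain ⟨v, hv0, hv⟩ := Matrix.exists_mulVec_eq_zero_iff.mpr h1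
  refine ⟨v, hv0, ?_⟩
  rw [Matrix.sub_mulVec, sub_eq_zero] at hv
  rw [← hv]
  funext i
  simp [Matrix.mulVec, dotProduct, Matrix.scalar_apply, Matrix.diagonal_apply]

/-- An eigenvalue is a root of the characteristic polynomial. -/
theorem eval_charpoly_eq_zero_of_mulVec (M : Mat2 k) (v : Fin 2 → k) (hv0 : v ≠ 0) (c : k)
    (h : M.mulVec v = c • v) : M.charpoly.eval c = 0 := by
  rw [Matrix.eval_charpoly]
  apply Matrix.exists_mulVec_eq_zero_iff.mp
  refine ⟨v, hv0, ?_⟩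
  rw [Matrix.sub_mulVec, h, sub_eq_zero]
  funext i
  simp [Matrix.mulVec, dotProduct, Matrix.scalar_apply, Matrix.diagonal_apply]

/-- If `M` has distinct eigenvalues and `M`, `N` are powers of each other, then `N` has distinct
eigenvalues (given that its characteristic polynomial splits). -/
theorem hasDistinctEigen_of_pow (M N : Mat2 k) (hM : HasDistinctEigen M)
    (hN : ∃ a b : k, N.charpoly = (X - C a) * (X - C b)) (j m : ℕ) (h1 : N = M ^ j)
    (h2 : M = N ^ m) : HasDistinctEigen N := by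
  obtain ⟨α, β, hαβ, hMc⟩ := hM
  obtain ⟨v, hv0, hv⟩ := exists_eigenvector_of_charpoly M α β hMc
  obtain ⟨w, hw0, hw⟩ := exists_eigenvector_of_charpoly M β α (by rw [hMc, mul_comm])
  have hNv : N.mulVec v = α ^ j • v := by rw [h1]; exact pow_mulVec_of_mulVec M v α hv j
  have hNw : N.mulVec w = β ^ j • w := by rw [h1]; exact pow_mulVec_of_mulVec M w β hw j
  have smul_inj : ∀ (u : Fin 2 → k), u ≠ 0 → ∀ c c' : k, c • u = c' • u → c = c' := by
    intro u hu c c' hcc
    by_contra hne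
    apply hu
    have h3 : (c - c') • u = 0 := by rw [sub_smul, hcc, sub_self]
    exact (smul_eq_zero.mp h3).resolve_left (sub_ne_zero.mpr hne)
  have hne : α ^ j ≠ β ^ j := by
    intro hc
    apply hαβ
    have hMv : M.mulVec v = (α ^ j) ^ m • v := by
      rw [h2]
      exact pow_mulVec_of_mulVec N v _ hNv m
    have hMw : M.mulVec w = (β ^ j) ^ m • w := by
      rw [h2]
      exact pow_mulVec_of_mulVec N w _ hNw m
    have e1 : α = (α ^ j) ^ m := smul_inj v hv0 _ _ (hv.symm.trans hMv)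
    have e2 : β = (β ^ j) ^ m := smul_inj w hw0 _ _ (hw.symm.trans hMw)
    rw [e1, e2, hc]
  obtain ⟨a, b, hNc⟩ := hN
  refine ⟨a, b, ?_, hNc⟩
  have r1 := eval_charpoly_eq_zero_of_mulVec N v hv0 _ hNv
  have r2 := eval_charpoly_eq_zero_of_mulVec N w hw0 _ hNw
  rw [hNc] at r1 r2
  simp only [eval_mul, eval_sub, eval_X, eval_C] at r1 r2
  intro hab
  apply hne
  rw [hab] at r1 r2
  have e1 : α ^ j = b := by
    rcases mul_eq_zero.mp r1 with h | h <;> exact sub_eq_zero.mp h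
  have e2 : β ^ j = b := by
    rcases mul_eq_zero.mp r2 with h | h <;> exact sub_eq_zero.mp h
  rw [e1, e2]

/-- Conjugation preserves `HasDistinctEigen`. -/
theorem hasDistinctEigen_conj (N T T' : Mat2 k) (hT : T' * T = 1) (hN : HasDistinctEigen N) :
    HasDistinctEigen (T * N * T') := by
  obtain ⟨a, b, hab, hc⟩ := hN
  refine ⟨a, b, hab, ?_⟩
  rw [mul_assoc, Matrix.charpoly_mul_comm, mul_assoc, hT, mul_one, hc]

/-- Two automorphisms agreeing on a level of `rb` have the same image. -/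
theorem map_eq_of_agree {M : Type*} [Monoid M] (f : GQ →* M)
    (L : IntermediateField ℚ (AlgebraicClosure ℚ))
    (hL : ∀ s : GQ, (∀ y ∈ L, s y = y) → f s = 1) (a b : GQ) (hab : ∀ y ∈ L, a y = b y) :
    f a = f b := by
  have h1 : f (b⁻¹ * a) = 1 := by
    apply hL
    intro y hy
    rw [AlgEquiv.mul_apply, hab y hy]
    exact b.symm_apply_apply y
  have h2 : a = b * (b⁻¹ * a) := by group
  rw [h2, map_mul, h1, mul_one]

/-- Two automorphisms agreeing on a level of a level-constant function give the same value. -/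
theorem apply_eq_of_agree {Y : Type*} (d : GQ → Y)
    (L : IntermediateField ℚ (AlgebraicClosure ℚ))
    (hL : ∀ g s : GQ, (∀ x ∈ L, s x = x) → d (g * s) = d g) (a b : GQ)
    (hab : ∀ y ∈ L, a y = b y) : d a = d b := by
  have h2 : a = b * (b⁻¹ * a) := by group
  rw [h2]
  apply hL
  intro y hy
  rw [AlgEquiv.mul_apply, hab y hy]
  exact b.symm_apply_apply y

end Kill

/-- TW-KILL, conditional on the group-theoretic input `hreg` of TW-R8
(`exists_regular_semisimple_nontrivial`): every non-trivial `det`-twisted class is not locally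
trivial at some Taylor–Wiles prime of any prescribed level, outside any prescribed finite set. -/
theorem killHyp_of_regular {k : Type} [Field k] (rb : GQ →* Mat2 k) (p : ℕ) [Fact p.Prime]
    (h : ResidualHyp rb p) (S Smin : Finset ℕ) (hSmin : Smin ⊆ S) (hpS : p ∈ Smin)
    (hunr : ∀ q : ℕ, q.Prime → q ∉ Smin → ∀ P : ValuationSubring (AlgebraicClosure ℚ),
      P.LiesOverPrime q → ∀ σ ∈ P.inertiaSubgroupIn ℚ, rb σ = 1)
    (hreg : ∀ d ∈ Z1 rb (detChar rb), d ∉ B1 rb (detChar rb) → ∀ n : ℕ,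
      ∃ g : GQ, (∀ μ : AlgebraicClosure ℚ, μ ^ p ^ (n + 1) = 1 → g μ = μ) ∧
        HasDistinctEigen (rb g) ∧
        ¬ ∃ X : Mat2 k, X.trace = 0 ∧ d g = adAct rb (detChar rb) g X - X) :
    KillHyp rb (detChar rb) p S := by
  intro d hd hd' n S'
  have hp : p.Prime := Fact.out
  obtain ⟨g, hgμ, hgE, hgX⟩ := hreg d hd hd' n
  obtain ⟨L₁, hL₁, hrb⟩ := h.finiteLevel
  obtain ⟨-, -, L₂, hL₂, hdL⟩ := (mem_Z1 rb (detChar rb) d).1 hd
  have hpn0 : NeZero ((p ^ (n + 1) : ℕ) : AlgebraicClosure ℚ) :=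
    ⟨by exact_mod_cast (pow_pos hp.pos (n + 1)).ne'⟩
  obtain ⟨ζ, hζ⟩ :=
    HasEnoughRootsOfUnity.exists_primitiveRoot (AlgebraicClosure ℚ) (p ^ (n + 1))
  have halg : Algebra.IsAlgebraic ℚ (AlgebraicClosure ℚ) :=
    Fermat.Agent.Lib.GalQbar.isAlgebraic_rat
  have hL₃ : FiniteDimensional ℚ (IntermediateField.adjoin ℚ {ζ}) :=
    IntermediateField.adjoin.finiteDimensional (halg.isAlgebraic ζ).isIntegral
  have hL₁₂ : FiniteDimensional ℚ (L₁ ⊔ L₂ : IntermediateField ℚ (AlgebraicClosure ℚ)) :=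
    IntermediateField.finiteDimensional_sup L₁ L₂
  let F : IntermediateField ℚ (AlgebraicClosure ℚ) :=
    (L₁ ⊔ L₂) ⊔ IntermediateField.adjoin ℚ {ζ}
  have hF : FiniteDimensional ℚ F := IntermediateField.finiteDimensional_sup _ _
  have hL₁F : L₁ ≤ F := le_sup_left.trans le_sup_left
  have hL₂F : L₂ ≤ F := le_sup_right.trans le_sup_left
  have hζF : ζ ∈ F := (le_sup_right : IntermediateField.adjoin ℚ {ζ} ≤ F)
    (IntermediateField.mem_adjoin_simple_self ℚ ζ)
  obtain ⟨ℓ, hℓ, hℓS, A, σ, m, j, hA, hσ, hgm, hσj⟩ :=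
    Fermat.Agent.Frob.exists_frobenius_generating F (S' ∪ S) g
  have hℓS' : ℓ ∉ S' := fun h => hℓS (Finset.mem_union_left _ h)
  have hℓS0 : ℓ ∉ S := fun h => hℓS (Finset.mem_union_right _ h)
  have hℓSmin : ℓ ∉ Smin := fun h => hℓS0 (hSmin h)
  have hℓp : ℓ ≠ p := by
    rintro rfl
    exact hℓSmin hpS
  have hrbσ : rb σ = rb g ^ j := by
    rw [← map_pow]
    exact Kill.map_eq_of_agree rb L₁ hrb σ (g ^ j) (fun y hy => hσj y (hL₁F hy))
  have hrbg : rb g = rb σ ^ m := by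
    rw [← map_pow]
    exact Kill.map_eq_of_agree rb L₁ hrb g (σ ^ m) (fun y hy => hgm y (hL₁F hy))
  have hσE : HasDistinctEigen (rb σ) :=
    Kill.hasDistinctEigen_of_pow (rb g) (rb σ) hgE (h.split σ) j m hrbσ hrbg
  refine ⟨ℓ, hℓS', ⟨hℓ, hℓS0, ?_, ?_⟩, ?_⟩
  · have hgζ : g ζ = ζ := hgμ ζ hζ.pow_eq_one
    have hgjζ : (g ^ j) ζ = ζ := by
      have h1 : g ^ j ∈ MulAction.stabilizer GQ ζ :=
        Subgroup.pow_mem _ (MulAction.mem_stabilizer_iff.mpr hgζ) j
      exact MulAction.mem_stabilizer_iff.mp h1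
    have hσζ : σ ζ = ζ := (hσj ζ hζF).trans hgjζ
    have hnd : ¬ ℓ ∣ p ^ (n + 1) := fun hdvd =>
      hℓp ((Nat.prime_dvd_prime_iff_eq hℓ hp).mp (hℓ.dvd_of_dvd_pow hdvd))
    have hmod := Fermat.Agent.Frob.isFrobeniusAt_modEq_one_of_fixes hℓ hA hσ hζ hnd hσζ
    exact (Nat.modEq_iff_dvd' hℓ.one_le).mp hmod.symm
  · intro P hP φ hφ
    obtain ⟨τ, hτ⟩ := FrobConj.exists_conj_of_isFrobeniusAt rb hℓ (hunr ℓ hℓ hℓSmin) A P hA hP
      σ φ hσ hφ
    rw [hτ]
    exact Kill.hasDistinctEigen_conj (rb σ) (rb τ) (rb τ⁻¹)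
      (by rw [← map_mul, inv_mul_cancel, map_one]) hσE
  · intro hloc
    obtain ⟨X, hX, hXd⟩ := hloc A hA
    apply hgX
    refine ⟨X, hX, ?_⟩
    have hσm : σ ^ m ∈ A.decompositionSubgroup ℚ :=
      Subgroup.pow_mem _ hσ.mem_decompositionSubgroup m
    have hd1 : d g = d (σ ^ m) :=
      Kill.apply_eq_of_agree d L₂ hdL g (σ ^ m) (fun y hy => hgm y (hL₂F hy))
    have hr1 : rb g = rb (σ ^ m) :=
      Kill.map_eq_of_agree rb L₁ hrb g (σ ^ m) (fun y hy => hgm y (hL₁F hy))
    have hr2 : rb g⁻¹ = rb (σ ^ m)⁻¹ := by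
      calc rb g⁻¹ = rb g⁻¹ * (rb (σ ^ m) * rb (σ ^ m)⁻¹) := by
            rw [← map_mul, mul_inv_cancel, map_one, mul_one]
        _ = rb g⁻¹ * rb g * rb (σ ^ m)⁻¹ := by rw [← hr1, mul_assoc]
        _ = rb (σ ^ m)⁻¹ := by rw [← map_mul, inv_mul_cancel, map_one, one_mul]
    rw [hd1, hXd _ hσm, adAct_apply, adAct_apply, detChar_apply, detChar_apply, hr1, hr2]

end

end Fermat.Agent.TW
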