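/-
TW (S56), task TW-KILL, final form modulo TW-DICKSON:
`killHyp_of_dickson` : `KillHyp rb (detChar rb) p S` from `ResidualHyp` and the packaged
statement `DicksonStatement k p` of TW-DICKSON (task 258), via TW-R8
(`exists_regular_semisimple_nontrivial_of`) and `killHyp_of_regular`.
-/
import Mathlib
import Fermat.Agent.TW.Kill
import Fermat.Agent.TW.Group.Reduce

set_option autoImplicit false

namespace Fermat.Agent.TW

open Fermat.Agent.S53 IsLocalRing Polynomial

/-- TW-KILL from the Dickson statement (the only remaining input). -/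
theorem killHyp_of_dickson {k : Type} [Field k] [Finite k] (rb : GQ →* Mat2 k) (p : ℕ)
    [Fact p.Prime] (hp2 : p ≠ 2) (h : ResidualHyp rb p) (hD : DicksonStatement k p)
    (S Smin : Finset ℕ) (hSmin : Smin ⊆ S) (hpS : p ∈ Smin)
    (hunr : ∀ q : ℕ, q.Prime → q ∉ Smin → ∀ P : ValuationSubring (AlgebraicClosure ℚ),
      P.LiesOverPrime q → ∀ σ ∈ P.inertiaSubgroupIn ℚ, rb σ = 1) :
    KillHyp rb (detChar rb) p S :=
  killHyp_of_regular rb p h S Smin hSmin hpS hunr
    (fun d hd hd' n => exists_regular_semisimple_nontrivial_of rb p hp2 h hD d hd hd' n)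

end Fermat.Agent.TW
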