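/-
TW (S56), task TW-R8, final file: the group theory of Taylor–Wiles primes with the exact
signatures of the task, now unconditional (TW-DICKSON = `finite_group_H1_vanish` is on main).

* `sl2_irreducible`                       (TW/Group/Line.lean)
* `exists_distinctEigen_fixing_roots`     (TW/Group/Eigen.lean)
* `dicksonStatement`                      : `DicksonStatement k p` for finite `k` of char `p ≠ 2`
* `mem_B1_of_vanish_on_kernel`
* `exists_regular_semisimple_nontrivial`
* `killHyp`                               (TW-KILL, exact signature of task 262)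
-/
import Mathlib
import Fermat.Agent.TW.Defs
import Fermat.Agent.TW.Selmer
import Fermat.Agent.TW.Hyp
import Fermat.Agent.TW.Group.Reduce
import Fermat.Agent.TW.Group.Dickson
import Fermat.Agent.TW.KillFinal

set_option autoImplicit false

namespace Fermat.Agent.TW

open Fermat.Agent.S53 IsLocalRing Polynomial

variable {k : Type} [Field k]

/-- TW-DICKSON in the packaged form used by TW-R8. -/
theorem dicksonStatement [Finite k] (p : ℕ) [Fact p.Prime] (hp2 : p ≠ 2) (hk : (p : k) = 0) :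
    DicksonStatement k p :=
  fun G h1 h2 h3 h4 x hx0 hx => finite_group_H1_vanish p hp2 hk G h1 h2 h3 h4 x hx0 hx

/-- A cocycle with values in `ad⁰(1)` vanishing on `ker rb ∩ G_{ℚ(ζ_{p^(n+1)})}` is a
coboundary. -/
theorem mem_B1_of_vanish_on_kernel [Finite k] (rb : GQ →* Mat2 k) (p : ℕ) [Fact p.Prime]
    (hp2 : p ≠ 2) (h : ResidualHyp rb p) (n : ℕ) (d : GQ → Mat2 k)
    (hd : d ∈ Z1 rb (detChar rb))
    (hker : ∀ s : GQ, rb s = 1 → (∀ μ : AlgebraicClosure ℚ, μ ^ p ^ (n + 1) = 1 → s μ = μ) →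
      d s = 0) : d ∈ B1 rb (detChar rb) :=
  mem_B1_of_vanish_on_kernel_of rb p hp2 h (dicksonStatement p hp2 h.charP) n d hd hker

/-- A regular semisimple element of `G_{ℚ(ζ_{p^(n+1)})}` detecting a non-trivial class of
`H¹(G_ℚ, ad⁰(1))`. -/
theorem exists_regular_semisimple_nontrivial [Finite k] (rb : GQ →* Mat2 k) (p : ℕ)
    [Fact p.Prime] (hp2 : p ≠ 2) (h : ResidualHyp rb p) (d : GQ → Mat2 k)
    (hd : d ∈ Z1 rb (detChar rb)) (hd' : d ∉ B1 rb (detChar rb)) (n : ℕ) :
    ∃ g : GQ, (∀ μ : AlgebraicClosure ℚ, μ ^ p ^ (n + 1) = 1 → g μ = μ) ∧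
      HasDistinctEigen (rb g) ∧
      ¬ ∃ X : Mat2 k, X.trace = 0 ∧ d g = adAct rb (detChar rb) g X - X :=
  exists_regular_semisimple_nontrivial_of rb p hp2 h (dicksonStatement p hp2 h.charP) d hd hd' n

/-- **TW-KILL** (task 262, exact signature): the killing hypothesis for the `det`-twisted
adjoint cocycles. -/
theorem killHyp [Finite k] (rb : GQ →* Mat2 k) (p : ℕ) [Fact p.Prime] (hp2 : p ≠ 2)
    (h : ResidualHyp rb p) (S Smin : Finset ℕ) (hSmin : Smin ⊆ S) (hpS : p ∈ Smin)
    (hunr : ∀ q : ℕ, q.Prime → q ∉ Smin → ∀ P : ValuationSubring (AlgebraicClosure ℚ),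
      P.LiesOverPrime q → ∀ σ ∈ P.inertiaSubgroupIn ℚ, rb σ = 1) :
    KillHyp rb (detChar rb) p S :=
  killHyp_of_dickson rb p hp2 h (dicksonStatement p hp2 h.charP) S Smin hSmin hpS hunr

end Fermat.Agent.TW
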