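/-
TW (S56): the statement of S56 from the two remaining inputs, as named hypotheses:

* `CHIHyp rb p` : (EC-CHI), Tate's Euler characteristic formula for the induced characters
  `Coind_U k(ψ)` over all sufficiently large finite sets of primes;
* `FlatHyp rb p` : the local condition at `p` for the flat deformation problem (a family of
  local conditions with `LocBound rb P 1` containing the restrictions of all flat cocycles).

`s56_of` : the frozen statement of S56 from `CHIHyp` and `FlatHyp` for the matrix forms of `ρbar`.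
-/
import Mathlib
import Fermat.Agent.TW.Assembly
import Fermat.Agent.TW.ResHyp
import Fermat.Agent.TW.Group
import Fermat.Agent.TW.Contain
import Fermat.Agent.TW.CondBaseChange
import Fermat.Agent.TW.Local.StrictOrd
import Fermat.Agent.TW.GW.Final
import Fermat.Statements.S56

set_option autoImplicit false

namespace Fermat.Agent.TW

open Fermat.Agent.S53 IsLocalRing Polynomial
open Fermat.Agent.PT Fermat.Agent.PT.Bridge ExtCitation

noncomputable section

/-- **(EC-CHI)** for `rb`: for every `𝔽_p`-algebra structure on `k` there is a finite set `T` of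
primes such that Tate's Euler characteristic formula holds for the induced characters over
every `S ⊇ T` outside which `rb` is unramified. -/
def CHIHyp {k : Type} [Field k] (rb : GQ →* Mat2 k) (p : ℕ) [Fact p.Prime] : Prop :=
  ∀ [Algebra (ZMod p) k], ∃ T : Finset Nat.Primes, ∀ S : Finset Nat.Primes, T ⊆ S →
    (∀ q : Nat.Primes, q ∉ S → ∀ P : ValuationSubring (AlgebraicClosure ℚ),
      P.LiesOverPrime (q : ℕ) → ∀ σ ∈ P.inertiaSubgroupIn ℚ, rb σ = 1) →
    PTOut p S → EC.CHIStatement (datum S) complexConjugation rb.ker (ZMod p) k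

/-- **(FLAT)** for `rb`: a family of local conditions at the places over `p`, each satisfying
`LocBound rb P 1`, containing the restriction of every cocycle whose lift to the dual numbers is
flat at `p` with cyclotomic determinant. -/
def FlatHyp {k : Type} [Field k] (rb : GQ →* Mat2 k) (p : ℕ) : Prop :=
  ∃ Lp : LocFamily k,
    (∀ P : ValuationSubring (AlgebraicClosure ℚ), P.LiesOverPrime p → LocBound rb P 1 (Lp P)) ∧
    ∀ (P : ValuationSubring (AlgebraicClosure ℚ)), P.LiesOverPrime p →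
    ∀ (c : GQ → Mat2 k) (r : GQ →* Mat2 (DualNumber k)) (hr : MatCont r),
      (∀ σ, r σ = liftMat rb c σ) →
      (repOfMat r hr).DetIsCyclotomic p → (repOfMat r hr).IsFlatAt p →
      resOn (P.decompositionSubgroup ℚ) c ∈ Lp P

end

end Fermat.Agent.TW

open Polynomial IsLocalRing
open ResidualGaloisRep

namespace Fermat.Agent.TW

open Fermat.Agent.S53

/-- **S56 from (EC-CHI) and (FLAT).** -/
theorem s56_of
    {𝒪 : Type} [CommRing 𝒪] [IsDomain 𝒪] [IsDiscreteValuationRing 𝒪]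
    [IsAdicComplete (maximalIdeal 𝒪) 𝒪] [Finite (ResidueField 𝒪)]
    (p : ℕ) [Fact p.Prime] (hp2 : p ≠ 2) (hp𝒪 : (p : 𝒪) ∈ maximalIdeal 𝒪)
    (ρbar : ResidualGaloisRep (ResidueField 𝒪))
    (habs : ρbar.IsAbsolutelyIrreducible)
    (hdet : (GaloisRepAdic.ofResidualGaloisRep ρbar).DetIsCyclotomic p)
    (hsplit : ∀ σ : AlgebraicClosure ℚ ≃ₐ[ℚ] AlgebraicClosure ℚ,
      ∃ α β : ResidueField 𝒪, LinearMap.charpoly (ρbar.ρ σ) = (X - C α) * (X - C β))
    (hTW : ∀ (K : Type) [Field K] [Algebra (ResidueField 𝒪) K]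
      (G : Subgroup (AlgebraicClosure ℚ ≃ₐ[ℚ] AlgebraicClosure ℚ)), G.index = 2 →
      ∀ V : Submodule K (ρbar.baseChange K).V,
        (∀ σ ∈ G, ∀ x ∈ V, (ρbar.baseChange K).ρ σ x ∈ V) → V = ⊥ ∨ V = ⊤)
    (S Smin : Finset ℕ) (hpSmin : p ∈ Smin) (hSmin : Smin ⊆ S) (hS : ∀ q ∈ S, q.Prime)
    (hmin : ∀ q : ℕ, q.Prime → q ≠ p → (q ∈ Smin ↔ ¬ ρbar.IsUnramifiedAt q))
    (hchi : ∀ rb : GQ →* Mat2 (ResidueField 𝒪), ResidualHyp rb p → CHIHyp rb p)
    (hfl : ∀ rb : GQ →* Mat2 (ResidueField 𝒪), ResidualHyp rb p → FlatHyp rb p) :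
    (∃ r : ℕ, ∀ n : ℕ, ∃ qv : Fin r → ℕ, Function.Injective qv ∧
      (∀ i, (qv i).Prime ∧ qv i ∉ S ∧ p ^ (n + 1) ∣ qv i - 1) ∧
      (∀ i, ∀ P : ValuationSubring (AlgebraicClosure ℚ), P.LiesOverPrime (qv i) →
        ∀ φ : AlgebraicClosure ℚ ≃ₐ[ℚ] AlgebraicClosure ℚ, P.IsFrobeniusAt φ (qv i) →
          ∃ α β : ResidueField 𝒪, α ≠ β ∧ LinearMap.charpoly (ρbar.ρ φ) = (X - C α) * (X - C β)) ∧
      ∀ DQ : GaloisRep.DeformationRingData 𝒪 ρbar (fun _A _ _ _ ρ =>
          GaloisRep.strictOrdinaryCondition 𝒪 p (Smin ∪ Finset.univ.image qv) ρ ∧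
            ∀ q ∈ Smin, q.Prime → q ≠ p → ρ.IsUnipotentOnInertiaAt q),
        ∃ γ : MvPowerSeries (Fin r) 𝒪 →ₐ[𝒪] DQ.R, Function.Surjective γ) ∧
    (∃ r : ℕ, ∀ n : ℕ, ∃ qv : Fin r → ℕ, Function.Injective qv ∧
      (∀ i, (qv i).Prime ∧ qv i ∉ S ∧ p ^ (n + 1) ∣ qv i - 1) ∧
      (∀ i, ∀ P : ValuationSubring (AlgebraicClosure ℚ), P.LiesOverPrime (qv i) →
        ∀ φ : AlgebraicClosure ℚ ≃ₐ[ℚ] AlgebraicClosure ℚ, P.IsFrobeniusAt φ (qv i) →
          ∃ α β : ResidueField 𝒪, α ≠ β ∧ LinearMap.charpoly (ρbar.ρ φ) = (X - C α) * (X - C β)) ∧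
      ∀ DQ : GaloisRep.DeformationRingData 𝒪 ρbar (fun _A _ _ _ ρ =>
          GaloisRep.flatCondition 𝒪 p (Smin ∪ Finset.univ.image qv) ρ ∧
            ∀ q ∈ Smin, q.Prime → q ≠ p → ρ.IsUnipotentOnInertiaAt q),
        ∃ γ : MvPowerSeries (Fin r) 𝒪 →ₐ[𝒪] DQ.R, Function.Surjective γ) := by
  obtain ⟨S0⟩ := nonempty_setup 𝒪 ρbar habs
  let _ := dualNumberAlgebra 𝒪
  have hRH : ResidualHyp (rbarHom ρbar S0.b) p :=
    residualHyp_of_S56 p hp𝒪 ρbar habs hdet hsplit hTW S0.b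
  have hunr := rbarHom_unramified_of_hmin ρbar S0.b p Smin hpSmin hmin
  have hram := rbarHom_ramified_of_hmin ρbar S0.b p Smin (fun q hq => hS q (hSmin hq)) hmin
  have hKill := killHyp (rbarHom ρbar S0.b) p hp2 hRH S Smin hSmin hpSmin hunr
  have hcardB : Nat.card (B1 (rbarHom ρbar S0.b) (detChar (rbarHom ρbar S0.b))) =
      Nat.card (B1 (rbarHom ρbar S0.b) 1) := by
    obtain ⟨h1, h2⟩ := card_B1_eq (rbarHom ρbar S0.b) p hp2 hRH
    rw [h1, h2]
  constructor
  · obtain ⟨Lp, hLp, hLp'⟩ := exists_locFamily_so (rbarHom ρbar S0.b) p hp2 hRH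
    exact exists_tw_mvPowerSeries_surjective p ρbar S0 S Smin hSmin (soCond 𝒪 p Smin)
      (fun Q ρ ρ' e h => soCond_of_isEquiv p Smin Q e h)
      (fun Q DQ ψ hψ hs => soCond_baseChangeAlong_of_surjective p Smin Q ψ hψ hs DQ.isOfType)
      (fun Q => SelSpace (rbarHom ρbar S0.b) p Smin Q Lp)
      (fun Q => B1_le_selSpace hRH.finiteLevel' p Smin Q hunr Lp fun P hP => (hLp P hP).B1_le)
      (fun Q => defCocycles_so_subset p hp2 (rbarHom ρbar S0.b) hRH Smin Q hpSmin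
        (fun q hq => hS q (hSmin hq)) hram Lp hLp')
      (GW.gwBound_selSpace_of_chi' (rbarHom ρbar S0.b) p hp2 hRH Smin hpSmin hunr Lp hLp
        (hchi _ hRH))
      hKill hcardB
  · obtain ⟨Lp, hLp, hLp'⟩ := hfl _ hRH
    exact exists_tw_mvPowerSeries_surjective p ρbar S0 S Smin hSmin (flCond 𝒪 p Smin)
      (fun Q ρ ρ' e h => flCond_of_isEquiv p Smin Q e h)
      (fun Q DQ ψ hψ hs => flCond_baseChangeAlong_of_surjective p Smin Q ψ hψ hs DQ.isOfType)
      (fun Q => SelSpace (rbarHom ρbar S0.b) p Smin Q Lp)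
      (fun Q => B1_le_selSpace hRH.finiteLevel' p Smin Q hunr Lp fun P hP => (hLp P hP).B1_le)
      (fun Q => defCocycles_fl_subset p hp2 (rbarHom ρbar S0.b) hRH Smin Q hpSmin
        (fun q hq => hS q (hSmin hq)) hram Lp hLp')
      (GW.gwBound_selSpace_of_chi' (rbarHom ρbar S0.b) p hp2 hRH Smin hpSmin hunr Lp hLp
        (hchi _ hRH))
      hKill hcardB

end Fermat.Agent.TW
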