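/-
TW (S56): the frozen statement of S56 from the four remaining named inputs, in their owners'
literal shapes:

* `EC.ChiAsmB.UnitBound p k S` : (χ-U) the equivariant `S`-unit count (for every `𝔽_p`-algebra
  structure on `k = ResidueField 𝒪` and every `S`);
* `Flat.OrdContain k`, `Flat.OrdCount k`, `Flat.SSCount k` : the three open statements of TW-FLAT.

Everything else (Poitou–Tate, Greenberg–Wiles, Artin induction, (EC-CHI) assembly, the flat
bridge, uniqueness of the ordinary line, the supersingular containment, killing of dual classes,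
the Taylor–Wiles assembly) is plugged.
-/
import Mathlib
import Fermat.Agent.TW.S56Of
import Fermat.Agent.TW.EC.ChiAsmB
import Fermat.Agent.TW.Flat.Main
import Fermat.Agent.TW.Flat.Bridge
import Fermat.Agent.TW.Flat.OrdUnique
import Fermat.Agent.TW.Flat.SSContain
import Fermat.Statements.S56

set_option autoImplicit false

namespace Fermat.Agent.TW

open Fermat.Agent.S53 IsLocalRing Polynomial

/-- (EC-CHI) from the unit count (χ-U). -/
theorem chiHyp_of_unitBound {k : Type} [Field k] [Finite k] (rb : GQ →* Mat2 k) (p : ℕ)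
    [Fact p.Prime] (hp2 : p ≠ 2) (h : ResidualHyp rb p)
    (hUB : ∀ [Algebra (ZMod p) k] (S : Finset Nat.Primes), EC.ChiAsmB.UnitBound p k S) :
    CHIHyp rb p := by
  intro _
  exact EC.ChiAsmB.chiStatement_of_unitBound p rb hp2 h fun S => hUB S

/-- (FLAT) from the three open statements of TW-FLAT. -/
theorem flatHyp_of {k : Type} [Field k] [Finite k] (rb : GQ →* Mat2 k) (p : ℕ)
    [Fact p.Prime] (hp2 : p ≠ 2) (h : ResidualHyp rb p)
    (hoc : Flat.OrdContain k) (hon : Flat.OrdCount k) (hsn : Flat.SSCount k) :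
    FlatHyp rb p :=
  Flat.exists_locFamily_fl_of (Flat.flatBridge k) hoc (Flat.ordUnique k) hon Flat.ssContain hsn
    rb p hp2 h

end Fermat.Agent.TW

open Polynomial IsLocalRing
open ResidualGaloisRep

namespace Fermat.Agent.TW

open Fermat.Agent.S53

/-- **S56 from the four remaining inputs.** -/
theorem s56_of_inputs
    {𝒪 : Type} [CommRing 𝒪] [IsDomain 𝒪] [IsDiscreteValuationRing 𝒪]
    [IsAdicComplete (maximalIdeal 𝒪) 𝒪] [Finite (ResidueField 𝒪)]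
    (p : ℕ) [Fact p.Prime] (hp2 : p ≠ 2) (hp𝒪 : (p : 𝒪) ∈ maximalIdeal 𝒪)
    (ρbar : ResidualGaloisRep (ResidueField 𝒪))
    (habs : ρbar.IsAbsolutelyIrreducible)
    (hdet : (GaloisRepAdic.ofResidualGaloisRep ρbar).DetIsCyclotomic p)
    (hsplit : ∀ σ : AlgebraicClosure ℚ ≃ₐ[ℚ] AlgebraicClosure ℚ,
      ∃ α β : ResidueField 𝒪, LinearMap.charpoly (ρbar.ρ σ) = (X - C α) * (X - C β))
    (hTW : ∀ (K : Type) [Field K] [Algebra (ResidueField 𝒪) K]
      (G : Subgroup (AlgebraicClosure ℚ ≃ₐ[ℚ] AlgebraicClosure ℚ)), G.index = 2 →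
      ∀ V : Submodule K (ρbar.baseChange K).V,
        (∀ σ ∈ G, ∀ x ∈ V, (ρbar.baseChange K).ρ σ x ∈ V) → V = ⊥ ∨ V = ⊤)
    (S Smin : Finset ℕ) (hpSmin : p ∈ Smin) (hSmin : Smin ⊆ S) (hS : ∀ q ∈ S, q.Prime)
    (hmin : ∀ q : ℕ, q.Prime → q ≠ p → (q ∈ Smin ↔ ¬ ρbar.IsUnramifiedAt q))
    (hUB : ∀ [Algebra (ZMod p) (ResidueField 𝒪)] (S : Finset Nat.Primes),
      EC.ChiAsmB.UnitBound p (ResidueField 𝒪) S)
    (hoc : Flat.OrdContain (ResidueField 𝒪)) (hon : Flat.OrdCount (ResidueField 𝒪))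
    (hsn : Flat.SSCount (ResidueField 𝒪)) :
    (∃ r : ℕ, ∀ n : ℕ, ∃ qv : Fin r → ℕ, Function.Injective qv ∧
      (∀ i, (qv i).Prime ∧ qv i ∉ S ∧ p ^ (n + 1) ∣ qv i - 1) ∧
      (∀ i, ∀ P : ValuationSubring (AlgebraicClosure ℚ), P.LiesOverPrime (qv i) →
        ∀ φ : AlgebraicClosure ℚ ≃ₐ[ℚ] AlgebraicClosure ℚ, P.IsFrobeniusAt φ (qv i) →
          ∃ α β : ResidueField 𝒪, α ≠ β ∧ LinearMap.charpoly (ρbar.ρ φ) = (X - C α) * (X - C β)) ∧
      ∀ DQ : GaloisRep.DeformationRingData 𝒪 ρbar (fun _A _ _ _ ρ =>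
          GaloisRep.strictOrdinaryCondition 𝒪 p (Smin ∪ Finset.univ.image qv) ρ ∧
            ∀ q ∈ Smin, q.Prime → q ≠ p → ρ.IsUnipotentOnInertiaAt q),
        ∃ γ : MvPowerSeries (Fin r) 𝒪 →ₐ[𝒪] DQ.R, Function.Surjective γ) ∧
    (∃ r : ℕ, ∀ n : ℕ, ∃ qv : Fin r → ℕ, Function.Injective qv ∧
      (∀ i, (qv i).Prime ∧ qv i ∉ S ∧ p ^ (n + 1) ∣ qv i - 1) ∧
      (∀ i, ∀ P : ValuationSubring (AlgebraicClosure ℚ), P.LiesOverPrime (qv i) →
        ∀ φ : AlgebraicClosure ℚ ≃ₐ[ℚ] AlgebraicClosure ℚ, P.IsFrobeniusAt φ (qv i) →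
          ∃ α β : ResidueField 𝒪, α ≠ β ∧ LinearMap.charpoly (ρbar.ρ φ) = (X - C α) * (X - C β)) ∧
      ∀ DQ : GaloisRep.DeformationRingData 𝒪 ρbar (fun _A _ _ _ ρ =>
          GaloisRep.flatCondition 𝒪 p (Smin ∪ Finset.univ.image qv) ρ ∧
            ∀ q ∈ Smin, q.Prime → q ≠ p → ρ.IsUnipotentOnInertiaAt q),
        ∃ γ : MvPowerSeries (Fin r) 𝒪 →ₐ[𝒪] DQ.R, Function.Surjective γ) :=
  s56_of p hp2 hp𝒪 ρbar habs hdet hsplit hTW S Smin hpSmin hSmin hS hmin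
    (fun rb h => chiHyp_of_unitBound rb p hp2 h hUB)
    (fun rb h => flatHyp_of rb p hp2 h hoc hon hsn)

end Fermat.Agent.TW
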